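import Mathlib

/-!
# Power sums `x ^ j + y ^ j` as polynomials in `x + y`, `x * y` (Dickson / Waring recursion)

Mathlib only.  Used for S31: traces of powers of `2 × 2` matrices and powers of a Frobenius element
acting on torsion points.

* `psum t d j` : the sequence `2, t, t² - 2d, …` with `psum (j+2) = t * psum (j+1) - d * psum j`.
* `trace_pow_eq_psum` : `trace (M ^ j) = psum (trace M) (det M) j` for `M : Matrix (Fin 2) (Fin 2) R`.
* `psumEnd τ ℓ j` : the same recursion for an additive endomorphism `τ` and an integer `ℓ`.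
* `psumEnd_apply_of_quadratic` : if `τ z = φ • z + ℓ • φ⁻¹ • z` on a `φ`-stable set of `z`, then
  `psumEnd τ ℓ j y = φ ^ j • y + ℓ ^ j • (φ ^ j)⁻¹ • y`.
-/

set_option autoImplicit false

namespace Fermat.Agent.S31.H81

section psum

variable {R : Type*} [CommRing R]

/-- The power-sum sequence: `psum t d j = x ^ j + y ^ j` when `t = x + y`, `d = x * y`. -/
def psum (t d : R) : ℕ → R
  | 0 => 2
  | 1 => t
  | (j + 2) => t * psum t d (j + 1) - d * psum t d j

@[simp] lemma psum_zero (t d : R) : psum t d 0 = 2 := rfl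

@[simp] lemma psum_one (t d : R) : psum t d 1 = t := rfl

lemma psum_succ_succ (t d : R) (j : ℕ) :
    psum t d (j + 2) = t * psum t d (j + 1) - d * psum t d j := rfl

lemma map_psum {R' : Type*} [CommRing R'] (f : R →+* R') (t d : R) (j : ℕ) :
    f (psum t d j) = psum (f t) (f d) j := by
  induction j using Nat.twoStepInduction with
  | zero => rw [psum_zero, psum_zero, map_ofNat]
  | one => simp
  | more j h1 h2 => rw [psum_succ_succ, psum_succ_succ, map_sub, map_mul, map_mul, h1, h2]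

/-- Congruence: the power sums of congruent arguments are congruent. -/
lemma psum_sub_mem (I : Ideal R) {t t' d d' : R} (ht : t - t' ∈ I) (hd : d - d' ∈ I) (j : ℕ) :
    psum t d j - psum t' d' j ∈ I := by
  have key : ∀ j, Ideal.Quotient.mk I (psum t d j) = Ideal.Quotient.mk I (psum t' d' j) := by
    intro j
    rw [map_psum, map_psum, Ideal.Quotient.eq.mpr ht, Ideal.Quotient.eq.mpr hd]
  exact Ideal.Quotient.eq.mp (key j)

/-- Cayley–Hamilton for `2 × 2` matrices. -/
lemma sq_eq_of_fin_two (M : Matrix (Fin 2) (Fin 2) R) :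
    M * M = M.trace • M - M.det • (1 : Matrix (Fin 2) (Fin 2) R) := by
  rcases subsingleton_or_nontrivial R with hR | hR
  · exact Subsingleton.elim _ _
  have h := Matrix.aeval_self_charpoly M
  rw [Matrix.charpoly_fin_two] at h
  simp only [map_add, map_sub, map_pow, map_mul, Polynomial.aeval_X, Polynomial.aeval_C,
    Algebra.algebraMap_eq_smul_one, Matrix.smul_mul, one_mul] at h
  rw [sq] at h
  have h2 : M * M = M.trace • M - M.det • (1 : Matrix (Fin 2) (Fin 2) R) := by
    rw [eq_sub_iff_add_eq, ← sub_eq_zero]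
    rw [← h]
    abel
  exact h2

/-- `trace (M ^ j)` is the `j`-th power sum of `trace M`, `det M`. -/
theorem trace_pow_eq_psum (M : Matrix (Fin 2) (Fin 2) R) (j : ℕ) :
    (M ^ j).trace = psum M.trace M.det j := by
  induction j using Nat.twoStepInduction with
  | zero =>
    rw [pow_zero, Matrix.trace_one, psum_zero]
    simp
  | one => rw [pow_one, psum_one]
  | more j h1 h2 =>
    have h3 : M ^ (j + 2) = M.trace • M ^ (j + 1) - M.det • M ^ j := by
      rw [pow_add, sq, sq_eq_of_fin_two, mul_sub, Matrix.mul_smul, Matrix.mul_smul, mul_one,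
        ← pow_succ]
    rw [h3, Matrix.trace_sub, Matrix.trace_smul, Matrix.trace_smul, h1, h2, psum_succ_succ,
      smul_eq_mul, smul_eq_mul]

end psum

section psumEnd

variable {J : Type*} [AddCommGroup J]

/-- The power-sum recursion for an additive endomorphism `τ` and an integer `ℓ`. -/
def psumEnd (τ : J →+ J) (ℓ : ℤ) : ℕ → (J →+ J)
  | 0 => (2 : ℤ) • AddMonoidHom.id J
  | 1 => τ
  | (j + 2) => τ.comp (psumEnd τ ℓ (j + 1)) - ℓ • psumEnd τ ℓ j

lemma psumEnd_zero_apply (τ : J →+ J) (ℓ : ℤ) (y : J) : psumEnd τ ℓ 0 y = (2 : ℤ) • y := rfl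

lemma psumEnd_one_apply (τ : J →+ J) (ℓ : ℤ) (y : J) : psumEnd τ ℓ 1 y = τ y := rfl

lemma psumEnd_succ_succ_apply (τ : J →+ J) (ℓ : ℤ) (j : ℕ) (y : J) :
    psumEnd τ ℓ (j + 2) y = τ (psumEnd τ ℓ (j + 1) y) - ℓ • psumEnd τ ℓ j y := rfl

/-- Intertwining: if `lam ∘ R t = τ ∘ lam` then `lam ∘ R (psum t ℓ j) = psumEnd τ ℓ j ∘ lam`. -/
theorem map_psum_apply {𝕋 : Type*} [CommRing 𝕋] {Lat : Type*} [AddCommGroup Lat]
    (R : 𝕋 →+* Module.End ℤ Lat) (lam : Lat →+ J) (t : 𝕋) (τ : J →+ J) (ℓ : ℤ)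
    (h : ∀ x, lam (R t x) = τ (lam x)) (j : ℕ) (x : Lat) :
    lam (R (psum t (ℓ : 𝕋) j) x) = psumEnd τ ℓ j (lam x) := by
  induction j using Nat.twoStepInduction generalizing x with
  | zero =>
    rw [psum_zero, psumEnd_zero_apply]
    have : (R (2 : 𝕋)) x = (2 : ℤ) • x := by
      have h2 : (2 : 𝕋) = ((2 : ℤ) : 𝕋) := by norm_num
      rw [h2, map_intCast, Module.End.intCast_apply]
    rw [this, map_zsmul]
  | one => rw [psum_one, psumEnd_one_apply, h]
  | more j h1 h2 =>
    rw [psum_succ_succ, psumEnd_succ_succ_apply, map_sub, map_mul, map_mul, LinearMap.sub_apply,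
      Module.End.mul_apply, Module.End.mul_apply, map_sub, h, h2, map_intCast]
    have : ((ℓ : Module.End ℤ Lat)) (R (psum t (ℓ : 𝕋) j) x) = ℓ • (R (psum t (ℓ : 𝕋) j) x) := by
      simp
    rw [this, map_zsmul, h1]

variable {G : Type*} [Group G] [DistribMulAction G J]

/-- If `τ z = φ • z + ℓ • φ⁻¹ • z` for all `z` in a set `P` stable under `φ`, `φ⁻¹`, then
`psumEnd τ ℓ j y = φ ^ j • y + ℓ ^ j • (φ ^ j)⁻¹ • y` for `y ∈ P`. -/
theorem psumEnd_apply_of_quadratic (τ : J →+ J) (ℓ : ℤ) (φ : G) (P : J → Prop)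
    (hP : ∀ z, P z → P (φ • z)) (hP' : ∀ z, P z → P (φ⁻¹ • z))
    (hτ : ∀ z, P z → τ z = φ • z + ℓ • φ⁻¹ • z) (j : ℕ) (y : J) (hy : P y) :
    psumEnd τ ℓ j y = φ ^ j • y + ℓ ^ j • (φ ^ j)⁻¹ • y := by
  have hPpow : ∀ (k : ℕ) z, P z → P (φ ^ k • z) := by
    intro k
    induction k with
    | zero => intro z hz; simpa using hz
    | succ k ih => intro z hz; rw [pow_succ', mul_smul]; exact hP _ (ih z hz)
  have hPpow' : ∀ (k : ℕ) z, P z → P ((φ ^ k)⁻¹ • z) := by
    intro k
    induction k with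
    | zero => intro z hz; simpa using hz
    | succ k ih =>
      intro z hz
      rw [pow_succ, mul_inv_rev, mul_smul]
      exact hP' _ (ih z hz)
  induction j using Nat.twoStepInduction with
  | zero => rw [psumEnd_zero_apply]; simp [two_smul]
  | one => rw [psumEnd_one_apply, hτ y hy]; simp
  | more j h1 h2 =>
    rw [psumEnd_succ_succ_apply, h1, h2, map_add, map_zsmul,
      hτ _ (hPpow (j + 1) y hy), hτ _ (hPpow' (j + 1) y hy)]
    have e1 : φ • φ ^ (j + 1) • y = φ ^ (j + 2) • y := by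
      rw [← mul_smul, ← pow_succ']
    have e2 : φ⁻¹ • φ ^ (j + 1) • y = φ ^ j • y := by
      rw [← mul_smul, pow_succ', inv_mul_cancel_left]
    have e3 : φ • (φ ^ (j + 1))⁻¹ • y = (φ ^ j)⁻¹ • y := by
      rw [← mul_smul, pow_succ, mul_inv_rev, mul_inv_cancel_left]
    have e4 : φ⁻¹ • (φ ^ (j + 1))⁻¹ • y = (φ ^ (j + 2))⁻¹ • y := by
      rw [← mul_smul, ← mul_inv_rev, ← pow_succ]
    have e5 : ℓ ^ (j + 1) * ℓ = ℓ ^ (j + 2) := by ring
    have e6 : ℓ * ℓ ^ j = ℓ ^ (j + 1) := by ring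
    rw [e1, e2, e3, e4, smul_add, smul_add, smul_smul (ℓ ^ (j + 1)) ℓ,
      smul_smul ℓ (ℓ ^ j), e5, e6]
    abel

end psumEnd

end Fermat.Agent.S31.H81
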