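import Mathlib

/-!
# Burnside's theorem for `2 × 2` matrices, trace form  (Mathlib only)

`G` a group, `r : G →* Matrix (Fin 2) (Fin 2) K`.

* `eq_zero_of_trace_mul_eq_zero` : `K` algebraically closed, `r` irreducible (no stable line):
  `trace (X * r g) = 0` for all `g` implies `X = 0`.
* `span_range_eq_top` : over any field `k` with `r` absolutely irreducible, the `k`-span of
  `r(G)` is the full matrix algebra.
* `span_range_eq_top_of_local` : over a local ring `A`, residually absolutely irreducible:
  the `A`-span of `r(G)` is the full matrix algebra (Nakayama).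
* `eq_one_of_trace_mul_eq` : **Carayol's lemma**: if `trace (r (s * g)) = trace (r g)` for all `g`
  then `r s = 1`.
-/

set_option autoImplicit false

open Matrix

namespace Fermat.Agent.S31.H81

local notation "M2" => Matrix (Fin 2) (Fin 2)

/-- Irreducibility of a matrix representation on `K²`: no proper nonzero stable subspace. -/
def MatIrred {G : Type*} [Monoid G] {K : Type*} [Field K] (r : G →* M2 K) : Prop :=
  ∀ W : Submodule K (Fin 2 → K), (∀ g, ∀ w ∈ W, (r g) *ᵥ w ∈ W) → W = ⊥ ∨ W = ⊤

section AlgClosed

variable {G : Type*} [Group G] {K : Type*} [Field K]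

/-- singular case -/
lemma eq_zero_of_trace_mul_eq_zero_of_det (r : G →* M2 K) (hirr : MatIrred r)
    (X : M2 K) (hdet : X.det = 0) (hX : ∀ g, (X * r g).trace = 0) : X = 0 := by
  -- `X * r g * X = 0` for all `g`
  have h1 : ∀ g, X * r g * X = 0 := by
    intro g
    have hsq : (X * r g) * (X * r g) = 0 := by
      have hCH : (X * r g) * (X * r g)
          = (X * r g).trace • (X * r g) - (X * r g).det • (1 : M2 K) := by
        have h := Matrix.aeval_self_charpoly (X * r g)
        rw [Matrix.charpoly_fin_two] at h
        simp only [map_add, map_sub, map_pow, map_mul, Polynomial.aeval_X, Polynomial.aeval_C,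
          Algebra.algebraMap_eq_smul_one, Matrix.smul_mul, one_mul] at h
        rw [sq] at h
        rw [eq_sub_iff_add_eq, ← sub_eq_zero, ← h]
        abel
      rw [hCH, hX g, Matrix.det_mul, hdet, zero_mul, zero_smul, zero_smul, sub_zero]
    have h2 : X * r g * X * r g * r g⁻¹ = 0 := by
      have : X * r g * X * r g = (X * r g) * (X * r g) := by simp only [Matrix.mul_assoc]
      rw [this, hsq, Matrix.zero_mul]
    have h3 : r g * r g⁻¹ = 1 := by rw [← map_mul, mul_inv_cancel, map_one]
    rw [Matrix.mul_assoc (X * r g * X), h3, Matrix.mul_one] at h2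
    exact h2
  -- the stable subspace `W = ⋂ ker (X * r g)`
  let W : Submodule K (Fin 2 → K) :=
    { carrier := {w | ∀ g, (X * r g) *ᵥ w = 0}
      add_mem' := fun {a b} ha hb g => by rw [Matrix.mulVec_add, ha g, hb g, add_zero]
      zero_mem' := fun g => Matrix.mulVec_zero _
      smul_mem' := fun c a ha g => by rw [Matrix.mulVec_smul, ha g, smul_zero] }
  have hW : ∀ g, ∀ w ∈ W, (r g) *ᵥ w ∈ W := by
    intro g w hw h
    have : (X * r h) *ᵥ ((r g) *ᵥ w) = (X * r (h * g)) *ᵥ w := by
      rw [Matrix.mulVec_mulVec, map_mul, Matrix.mul_assoc]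
    rw [this]
    exact hw (h * g)
  rcases hirr W hW with hbot | htop
  · -- columns of `X` lie in `W = ⊥`
    have hcol : ∀ v : Fin 2 → K, X *ᵥ v ∈ W := by
      intro v g
      rw [Matrix.mulVec_mulVec, h1 g, Matrix.zero_mulVec]
    have hzero : ∀ v : Fin 2 → K, X *ᵥ v = 0 := by
      intro v
      have := hcol v
      rw [hbot, Submodule.mem_bot] at this
      exact this
    have : Matrix.toLin' X = 0 := by
      refine LinearMap.ext fun v => ?_
      rw [Matrix.toLin'_apply, hzero v, LinearMap.zero_apply]
    exact Matrix.toLin'.injective (by rw [this, map_zero])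
  · have hzero : ∀ v : Fin 2 → K, X *ᵥ v = 0 := by
      intro v
      have hv : v ∈ W := by rw [htop]; exact Submodule.mem_top
      have := hv 1
      rwa [map_one, Matrix.mul_one] at this
    have : Matrix.toLin' X = 0 := by
      refine LinearMap.ext fun v => ?_
      rw [Matrix.toLin'_apply, hzero v, LinearMap.zero_apply]
    exact Matrix.toLin'.injective (by rw [this, map_zero])

/-- **Burnside, trace form** over an algebraically closed field. -/
theorem eq_zero_of_trace_mul_eq_zero [IsAlgClosed K] (r : G →* M2 K) (hirr : MatIrred r)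
    (X : M2 K) (hX : ∀ g, (X * r g).trace = 0) : X = 0 := by
  by_cases hdet : X.det = 0
  · exact eq_zero_of_trace_mul_eq_zero_of_det r hirr X hdet hX
  -- some `r g` is not scalar
  have hns : ∃ g, ∀ c : K, r g ≠ c • (1 : M2 K) := by
    by_contra hcon
    push Not at hcon
    let W : Submodule K (Fin 2 → K) := K ∙ (Pi.single 0 1 : Fin 2 → K)
    have hW : ∀ g, ∀ w ∈ W, (r g) *ᵥ w ∈ W := by
      intro g w hw
      obtain ⟨c, hc⟩ := hcon g
      rw [hc, Matrix.smul_mulVec, Matrix.one_mulVec]
      exact W.smul_mem c hw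
    have hne : (Pi.single 0 1 : Fin 2 → K) ≠ 0 := by
      intro h
      have := congrFun h 0
      simp at this
    rcases hirr W hW with hbot | htop
    · exact hne ((Submodule.span_singleton_eq_bot).mp hbot)
    · have h1 : Module.finrank K W = 1 := finrank_span_singleton hne
      rw [htop, finrank_top, Module.finrank_fin_fun] at h1
      omega
  obtain ⟨g, hg⟩ := hns
  -- an eigenvalue of `r g`
  have hdeg : (r g).charpoly.degree ≠ 0 := by
    rw [Matrix.charpoly_degree_eq_dim]
    simp
  obtain ⟨μ, hμ⟩ := IsAlgClosed.exists_root (r g).charpoly hdeg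
  have hdetμ : (r g - μ • (1 : M2 K)).det = 0 := by
    have h := Matrix.eval_charpoly (r g) μ
    rw [Polynomial.IsRoot.def] at hμ
    rw [hμ] at h
    have h2 : (r g - μ • (1 : M2 K)) = -(Matrix.scalar (Fin 2) μ - r g) := by
      rw [neg_sub]
      congr 1
      ext i j
      simp [Matrix.scalar_apply, Matrix.one_apply, Matrix.diagonal_apply]
    rw [h2, Matrix.det_neg, ← h]
    simp
  set X' : M2 K := X * (r g - μ • (1 : M2 K)) with hX'
  have hX'tr : ∀ h, (X' * r h).trace = 0 := by
    intro h
    have : X' * r h = X * r (g * h) - μ • (X * r h) := by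
      rw [hX', map_mul, Matrix.mul_assoc, Matrix.sub_mul, Matrix.mul_sub, Matrix.smul_mul,
        Matrix.one_mul, Matrix.mul_smul]
    rw [this, Matrix.trace_sub, Matrix.trace_smul, hX, hX, smul_zero, sub_zero]
  have hX'det : X'.det = 0 := by rw [hX', Matrix.det_mul, hdetμ, mul_zero]
  have hX'0 := eq_zero_of_trace_mul_eq_zero_of_det r hirr X' hX'det hX'tr
  exfalso
  apply hg μ
  have hunit : IsUnit X.det := isUnit_iff_ne_zero.mpr hdet
  have : X⁻¹ * X' = r g - μ • (1 : M2 K) := by
    rw [hX', ← Matrix.mul_assoc, Matrix.nonsing_inv_mul X hunit, Matrix.one_mul]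
  rw [hX'0, Matrix.mul_zero] at this
  exact sub_eq_zero.mp this.symm

end AlgClosed

section Field

variable {G : Type*} [Group G] {k : Type*} [Field k]

/-- every linear functional on `M₂(k)` is a trace functional -/
lemma exists_trace_form (f : Module.Dual k (M2 k)) :
    ∃ X : M2 k, ∀ Y : M2 k, f Y = (X * Y).trace := by
  refine ⟨Matrix.of fun j i => f (Matrix.single i j 1), fun Y => ?_⟩
  have hsm : ∀ i j : Fin 2, f (Matrix.single i j (Y i j)) = Y i j * f (Matrix.single i j 1) := by
    intro i j
    have : Matrix.single i j (Y i j) = Y i j • Matrix.single i j (1 : k) := by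
      rw [Matrix.smul_single, smul_eq_mul, mul_one]
    rw [this, map_smul, smul_eq_mul]
  have hY : Y = Matrix.single 0 0 (Y 0 0) + Matrix.single 0 1 (Y 0 1) + Matrix.single 1 0 (Y 1 0)
      + Matrix.single 1 1 (Y 1 1) := by
    ext i j
    fin_cases i <;> fin_cases j <;> simp
  conv_lhs => rw [hY]
  rw [map_add, map_add, map_add, hsm, hsm, hsm, hsm]
  simp only [Matrix.trace, Matrix.diag_apply, Matrix.mul_apply, Fin.sum_univ_two, Matrix.of_apply]
  ring

/-- **Burnside, span form**: an absolutely irreducible `2`-dimensional matrix representation spans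
the whole matrix algebra. -/
theorem span_range_eq_top {K : Type*} [Field K] [IsAlgClosed K] (φ : k →+* K)
    (r : G →* M2 k)
    (hirr : MatIrred ((φ.mapMatrix : M2 k →+* M2 K).toMonoidHom.comp r)) :
    Submodule.span k (Set.range r) = ⊤ := by
  by_contra hne
  have hlt : Submodule.span k (Set.range r) < ⊤ := lt_top_iff_ne_top.mpr hne
  obtain ⟨f, hf0, hf⟩ := Submodule.exists_le_ker_of_lt_top _ hlt
  obtain ⟨X, hX⟩ := exists_trace_form f
  have hXg : ∀ g, (X * r g).trace = 0 := by
    intro g
    rw [← hX]
    exact hf (Submodule.subset_span ⟨g, rfl⟩)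
  have hXK : (φ.mapMatrix X : M2 K) = 0 := by
    refine eq_zero_of_trace_mul_eq_zero _ hirr _ fun g => ?_
    have : (φ.mapMatrix X : M2 K) * ((φ.mapMatrix : M2 k →+* M2 K).toMonoidHom.comp r) g
        = φ.mapMatrix (X * r g) := by
      rw [map_mul]; rfl
    rw [this, RingHom.mapMatrix_apply]
    have h2 : ((X * r g).map ⇑φ).trace = φ ((X * r g).trace) := by
      simp only [Matrix.trace, Matrix.diag_apply, Matrix.map_apply, map_sum]
    rw [h2, hXg g, map_zero]
  have hX0 : X = 0 := by
    ext i j
    have := congrFun (congrFun hXK i) j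
    rw [RingHom.mapMatrix_apply, Matrix.map_apply, Matrix.zero_apply] at this
    rw [Matrix.zero_apply]
    exact φ.injective (by rw [this, map_zero])
  apply hf0
  refine LinearMap.ext fun Y => ?_
  rw [hX, hX0, Matrix.zero_mul, Matrix.trace_zero, LinearMap.zero_apply]

end Field

section Local

variable {G : Type*} [Group G] {A : Type*} [CommRing A] [IsLocalRing A]

open IsLocalRing

omit [IsLocalRing A] in
/-- a matrix with entries in an ideal `I` lies in `I • ⊤` -/
lemma mem_smul_top_of_entries (I : Ideal A) (Y : M2 A) (hY : ∀ i j, Y i j ∈ I) :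
    Y ∈ I • (⊤ : Submodule A (M2 A)) := by
  rw [Matrix.matrix_eq_sum_single Y]
  refine Submodule.sum_mem _ fun i _ => Submodule.sum_mem _ fun j _ => ?_
  have : Matrix.single i j (Y i j) = Y i j • Matrix.single i j (1 : A) := by
    rw [Matrix.smul_single, smul_eq_mul, mul_one]
  rw [this]
  exact Submodule.smul_mem_smul (hY i j) Submodule.mem_top

/-- **Burnside + Nakayama**: a residually absolutely irreducible matrix representation over a
local ring spans the whole matrix algebra. -/
theorem span_range_eq_top_of_local {K : Type*} [Field K] [IsAlgClosed K]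
    (φ : ResidueField A →+* K) (r : G →* M2 A)
    (hirr : MatIrred (((φ.comp (residue A)).mapMatrix : M2 A →+* M2 K).toMonoidHom.comp r)) :
    Submodule.span A (Set.range r) = ⊤ := by
  set rbar : G →* M2 (ResidueField A) :=
    ((residue A).mapMatrix : M2 A →+* M2 (ResidueField A)).toMonoidHom.comp r with hrbar
  have hirr' : MatIrred ((φ.mapMatrix : M2 (ResidueField A) →+* M2 K).toMonoidHom.comp rbar) := by
    have : (φ.mapMatrix : M2 (ResidueField A) →+* M2 K).toMonoidHom.comp rbar
        = ((φ.comp (residue A)).mapMatrix : M2 A →+* M2 K).toMonoidHom.comp r := by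
      ext g i j
      simp [hrbar, RingHom.mapMatrix_apply]
    rw [this]; exact hirr
  have hk := span_range_eq_top φ rbar hirr'
  -- lifting
  have hlift : ∀ Ybar : M2 (ResidueField A), Ybar ∈ Submodule.span (ResidueField A) (Set.range rbar) →
      ∃ Z ∈ Submodule.span A (Set.range r), (residue A).mapMatrix Z = Ybar := by
    intro Ybar hY
    induction hY using Submodule.span_induction with
    | mem x hx =>
      obtain ⟨g, rfl⟩ := hx
      exact ⟨r g, Submodule.subset_span ⟨g, rfl⟩, rfl⟩
    | zero => exact ⟨0, Submodule.zero_mem _, map_zero _⟩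
    | add x y _ _ hx hy =>
      obtain ⟨Z1, hZ1, h1⟩ := hx
      obtain ⟨Z2, hZ2, h2⟩ := hy
      exact ⟨Z1 + Z2, Submodule.add_mem _ hZ1 hZ2, by rw [map_add, h1, h2]⟩
    | smul c x _ hx =>
      obtain ⟨Z, hZ, h1⟩ := hx
      obtain ⟨a, rfl⟩ := residue_surjective c
      refine ⟨a • Z, Submodule.smul_mem _ a hZ, ?_⟩
      rw [← h1]
      ext i j
      simp [RingHom.mapMatrix_apply]
  refine top_unique ?_
  refine Submodule.le_of_le_smul_of_le_jacobson_bot (I := maximalIdeal A)
    (Module.Finite.fg_top) (maximalIdeal_le_jacobson ⊥) ?_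
  intro Y _
  obtain ⟨Z, hZ, hZY⟩ := hlift ((residue A).mapMatrix Y) (by rw [hk]; exact Submodule.mem_top)
  have hdiff : Y - Z ∈ maximalIdeal A • (⊤ : Submodule A (M2 A)) := by
    refine mem_smul_top_of_entries _ _ fun i j => ?_
    have := congrFun (congrFun hZY i) j
    rw [RingHom.mapMatrix_apply, RingHom.mapMatrix_apply, Matrix.map_apply, Matrix.map_apply] at this
    rw [Matrix.sub_apply, ← residue_eq_zero_iff, map_sub, this, sub_self]
  have : Y = Z + (Y - Z) := by abel
  rw [this]
  exact Submodule.add_mem_sup hZ hdiff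

/-- **Carayol's lemma** (matrix form): if `g ↦ trace (r g)` is invariant under left translation by
`s`, and `r` is residually absolutely irreducible, then `r s = 1`. -/
theorem eq_one_of_trace_mul_eq {K : Type*} [Field K] [IsAlgClosed K]
    (φ : ResidueField A →+* K) (r : G →* M2 A)
    (hirr : MatIrred (((φ.comp (residue A)).mapMatrix : M2 A →+* M2 K).toMonoidHom.comp r))
    (s : G) (hs : ∀ g, (r (s * g)).trace = (r g).trace) : r s = 1 := by
  have hspan := span_range_eq_top_of_local φ r hirr
  set X : M2 A := r s - 1 with hX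
  -- the functional `Y ↦ trace (X * Y)` vanishes on the span
  let f : M2 A →ₗ[A] A :=
    (Matrix.traceLinearMap (Fin 2) A A).comp (LinearMap.mulLeft A X)
  have hf : ∀ Y, f Y = (X * Y).trace := fun Y => rfl
  have hker : Submodule.span A (Set.range r) ≤ LinearMap.ker f := by
    rw [Submodule.span_le]
    rintro _ ⟨g, rfl⟩
    rw [SetLike.mem_coe, LinearMap.mem_ker, hf, hX, Matrix.sub_mul, Matrix.one_mul,
      Matrix.trace_sub, ← map_mul, hs g, sub_self]
  rw [hspan] at hker
  have hall : ∀ Y, (X * Y).trace = 0 := fun Y => by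
    rw [← hf]; exact hker Submodule.mem_top
  have hX0 : X = 0 := by
    ext i j
    have := hall (Matrix.single j i 1)
    rw [Matrix.zero_apply]
    rw [Matrix.trace, Fin.sum_univ_two] at this
    simp only [Matrix.diag_apply, Matrix.mul_apply, Fin.sum_univ_two, Matrix.single_apply] at this
    fin_cases i <;> fin_cases j <;> simpa using this
  exact sub_eq_zero.mp hX0

end Local

end Fermat.Agent.S31.H81
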