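import Mathlib

/-!
# Saturation exponent of a commutative ring acting faithfully on a lattice  (Mathlib only)

`R : 𝕋 →+* End_ℤ(Lat)` injective, `Lat` a finitely generated torsion-free abelian group.  There is
`c` such that for all `n`: if `R t` maps `Lat` into `p ^ (n + c) • Lat` then `t ∈ p ^ n • 𝕋`.
-/

set_option autoImplicit false

namespace Fermat.Agent.S31.H81

variable {𝕋 : Type*} [CommRing 𝕋] {Lat : Type*} [AddCommGroup Lat]

/-- An endomorphism with values in `m • Lat` (`Lat` torsion-free) is `m` times an endomorphism. -/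
lemma exists_end_of_forall_exists_smul
    (htf : ∀ (m : ℤ) (y : Lat), m ≠ 0 → m • y = 0 → y = 0)
    (f : Module.End ℤ Lat) (m : ℤ) (hm : m ≠ 0) (h : ∀ x, ∃ y, f x = m • y) :
    ∃ e : Module.End ℤ Lat, f = m • e := by
  choose y hy using h
  have hinj : ∀ a b : Lat, m • a = m • b → a = b := by
    intro a b hab
    have : m • (a - b) = 0 := by rw [smul_sub, hab, sub_self]
    exact sub_eq_zero.mp (htf m _ hm this)
  refine ⟨{ toFun := y
            map_add' := fun a b => hinj _ _ (by rw [← hy, map_add, hy, hy, smul_add])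
            map_smul' := fun c a => hinj _ _ (by
              rw [← hy, map_smul, hy, RingHom.id_apply, smul_comm]) }, ?_⟩
  refine LinearMap.ext fun x => ?_
  rw [LinearMap.smul_apply]
  exact hy x

/-- **Saturation exponent.** -/
theorem exists_saturation_exponent [Module.Finite ℤ Lat] [Module.Free ℤ Lat]
    (R : 𝕋 →+* Module.End ℤ Lat) (hR : Function.Injective R) (p : ℕ) :
    ∃ c : ℕ, ∀ (n : ℕ) (t : 𝕋), (∃ e : Module.End ℤ Lat, R t = ((p : ℤ) ^ (n + c)) • e) →
      ∃ t' : 𝕋, t = ((p : ℤ) ^ n) • t' := by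
  classical
  let S : Submodule ℤ (Module.End ℤ Lat) :=
    LinearMap.range (R.toAddMonoidHom.toIntLinearMap)
  have hS : ∀ e, e ∈ S ↔ ∃ t, R t = e := fun e => Iff.rfl
  let sat : ℕ →o Submodule ℤ (Module.End ℤ Lat) :=
    { toFun := fun k => S.comap (((p : ℤ) ^ k) • (LinearMap.id : Module.End ℤ Lat →ₗ[ℤ] _))
      monotone' := by
        refine monotone_nat_of_le_succ fun k e he => ?_
        rw [Submodule.mem_comap, LinearMap.smul_apply, LinearMap.id_apply] at he ⊢
        rw [pow_succ', mul_smul]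
        exact S.smul_mem _ he }
  have hsat : ∀ k e, e ∈ sat k ↔ ((p : ℤ) ^ k) • e ∈ S := fun k e => Iff.rfl
  haveI : IsNoetherian ℤ (Module.End ℤ Lat) := inferInstance
  obtain ⟨c, hc⟩ := (monotone_stabilizes_iff_noetherian (R := ℤ) (M := Module.End ℤ Lat)).mpr
    inferInstance sat
  refine ⟨c, fun n t ⟨e, he⟩ => ?_⟩
  have h1 : e ∈ sat (n + c) := by
    rw [hsat, hS]; exact ⟨t, he⟩
  rw [← hc (n + c) (Nat.le_add_left c n), hsat, hS] at h1
  obtain ⟨t', ht'⟩ := h1
  refine ⟨t', hR ?_⟩
  rw [he, pow_add, mul_smul, ← ht', map_zsmul]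

end Fermat.Agent.S31.H81
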