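import Mathlib
import Fermat.Prelude.Def_EllipticCurve_FrobeniusTrace
import Fermat.Prelude.Def_FLTPrelim_Ramification
import Fermat.Agent.S31.H81_PowerTrace
import Fermat.Agent.S31.H81_Saturation
import Fermat.Agent.S14.H31_FrobPrelude
import Fermat.Agent.S14.H31_FrobCyclo

/-!
# S31, step B: the trace of a Hecke–Galois representation is computed on torsion points

Abstract setting (no modular curves): a commutative ring `𝕋` acting on a lattice `Lat` through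
`R`, elements `Tℓ ℓ : 𝕋`, a local ring `T` with `π : 𝕋 →+* T`, a matrix representation
`r : G_ℚ →* M₂(T)` with Frobenius traces `π (Tℓ ℓ)` and determinants `ℓ`, and a `G_ℚ`-module `J`
with additive operators `TJ ℓ` satisfying the Eichler–Shimura relation on `p`-power torsion,
linked to `Lat` by additive maps `lam` intertwining `R (Tℓ ℓ)` and `TJ ℓ`.

`exists_hecke_trace` : for every `g` and `n` there is `t : 𝕋` with
`trace (r g) ≡ π t mod 𝔪ⁿ` and `lam (R t x) = g • lam x + e • g⁻¹ • lam x`, `g ζ = ζ ^ e`.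
-/

set_option autoImplicit false

namespace Fermat.Agent.S31.H81

open IsLocalRing Matrix

local notation "Qb" => AlgebraicClosure ℚ
local notation "GQ" => (AlgebraicClosure ℚ ≃ₐ[ℚ] AlgebraicClosure ℚ)
local notation "M2" => Matrix (Fin 2) (Fin 2)

/-- `J` has open stabilisers. -/
def OpenStab (J : Type*) [AddCommGroup J] [DistribMulAction GQ J] : Prop :=
  ∀ x : J, ∃ F : IntermediateField ℚ Qb, FiniteDimensional ℚ F ∧
    ∀ τ : GQ, (∀ a ∈ F, τ a = a) → τ • x = x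

/-- A finite extension fixing the whole image of a homomorphism from a finitely generated group. -/
theorem exists_field_fixing_range {Lat J : Type*} [AddCommGroup Lat] [Module.Finite ℤ Lat]
    [AddCommGroup J] [DistribMulAction GQ J] (hOpen : OpenStab J) (lam : Lat →+ J) :
    ∃ F : IntermediateField ℚ Qb, FiniteDimensional ℚ F ∧
      ∀ τ : GQ, (∀ a ∈ F, τ a = a) → ∀ x, τ • lam x = lam x := by
  classical
  obtain ⟨s, hs⟩ := (Module.Finite.fg_top : (⊤ : Submodule ℤ Lat).FG)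
  choose F hFfin hF using fun x : Lat => hOpen (lam x)
  have : ∀ x, FiniteDimensional ℚ (F x) := hFfin
  refine ⟨⨆ x ∈ s, F x, inferInstance, ?_⟩
  intro τ hτ x
  have hx : x ∈ Submodule.span ℤ (s : Set Lat) := by rw [hs]; trivial
  induction hx using Submodule.span_induction with
  | mem y hy =>
    refine hF y τ fun a ha => hτ a ?_
    exact (le_iSup₂ (f := fun x (_ : x ∈ s) => F x) y hy) ha
  | zero => rw [map_zero, smul_zero]
  | add a b _ _ ha hb => rw [map_add, smul_add, ha, hb]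
  | smul c a _ ha => rw [map_zsmul, smul_comm, ha]

/-- trace of a product with a matrix with entries in an ideal -/
lemma trace_mul_mem {A : Type*} [CommRing A] (I : Ideal A) (X Y : M2 A)
    (hY : ∀ i j, Y i j ∈ I) : (X * Y).trace ∈ I := by
  simp only [Matrix.trace, Matrix.diag_apply, Matrix.mul_apply, Fin.sum_univ_two]
  exact I.add_mem (I.add_mem (I.mul_mem_left _ (hY _ _)) (I.mul_mem_left _ (hY _ _)))
    (I.add_mem (I.mul_mem_left _ (hY _ _)) (I.mul_mem_left _ (hY _ _)))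

lemma pow_apply_of_apply_eq_pow (φ : GQ) (ζ : Qb) (ℓ : ℕ) (h : φ ζ = ζ ^ ℓ) (j : ℕ) :
    (φ ^ j) ζ = ζ ^ (ℓ ^ j) := by
  induction j with
  | zero => simp
  | succ j ih => rw [pow_succ', AlgEquiv.mul_apply, ih, map_pow, h, ← pow_mul, ← pow_succ']

section Main

variable (p : ℕ) [hp : Fact p.Prime]
  {𝕋 : Type*} [CommRing 𝕋] {Lat : Type*} [AddCommGroup Lat] [Module.Finite ℤ Lat]
  (R : 𝕋 →+* Module.End ℤ Lat) (Tℓ : ℕ → 𝕋)
  {T : Type*} [CommRing T] [IsLocalRing T] (π : 𝕋 →+* T)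
  (r : GQ →* M2 T) (S : Finset ℕ)
  {J : Type*} [AddCommGroup J] [DistribMulAction GQ J] (TJ : ℕ → J →+ J)

/-- adic continuity of a matrix representation -/
def MatAdicCont : Prop :=
  ∀ n : ℕ, ∃ L : IntermediateField ℚ Qb, FiniteDimensional ℚ L ∧
    ∀ τ : GQ, (∀ x ∈ L, τ x = x) → ∀ i j, (r τ - 1) i j ∈ maximalIdeal T ^ n

/-- Frobenius traces and determinants of `r` at the primes outside `S` -/
def FrobTraceDet : Prop :=
  ∀ ℓ : ℕ, ℓ.Prime → ℓ ∉ S → ∀ A : ValuationSubring Qb, A.LiesOverPrime ℓ →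
    ∀ φ : GQ, A.IsFrobeniusAt φ ℓ → (r φ).trace = π (Tℓ ℓ) ∧ (r φ).det = (ℓ : T)

/-- the Eichler–Shimura relation on `p`-power torsion at the primes outside `S` -/
def FrobQuadOn : Prop :=
  ∀ ℓ : ℕ, ℓ.Prime → ℓ ∉ S → ∀ A : ValuationSubring Qb, A.LiesOverPrime ℓ →
    ∀ φ : GQ, A.IsFrobeniusAt φ ℓ → ∀ x : J, (∃ n : ℕ, p ^ n • x = 0) →
      φ • φ • x - TJ ℓ (φ • x) + ℓ • x = 0

variable {p R Tℓ π r S TJ}

theorem exists_hecke_trace (hpS : p ∈ S) (hcont : MatAdicCont r)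
    (hchar : FrobTraceDet Tℓ π r S) (hFrob : FrobQuadOn p S TJ) (hOpen : OpenStab J)
    (n M : ℕ) (lam : Lat →+ J) (hlamM : ∀ x, p ^ M • lam x = 0)
    (hlamT : ∀ ℓ : ℕ, ℓ.Prime → ℓ ∉ S → ∀ x, lam (R (Tℓ ℓ) x) = TJ ℓ (lam x))
    (ζ : Qb) (hζ : IsPrimitiveRoot ζ (p ^ M)) (g : GQ) :
    ∃ (t : 𝕋) (e : ℕ), (r g).trace - π t ∈ maximalIdeal T ^ n ∧ g ζ = ζ ^ e ∧
      ∀ x, lam (R t x) = g • lam x + (e : ℤ) • g⁻¹ • lam x := by
  classical
  obtain ⟨L₁, hL₁fin, hL₁⟩ := hcont n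
  obtain ⟨FY, hFYfin, hFY⟩ := exists_field_fixing_range hOpen lam
  have hpM : 0 < p ^ M := pow_pos hp.out.pos M
  have hζint : IsIntegral ℚ ζ := (hζ.isIntegral hpM).tower_top
  have : FiniteDimensional ℚ (IntermediateField.adjoin ℚ {ζ}) :=
    IntermediateField.adjoin.finiteDimensional hζint
  have := hL₁fin
  have := hFYfin
  let F₀ : IntermediateField ℚ Qb := L₁ ⊔ FY ⊔ IntermediateField.adjoin ℚ {ζ}
  have : FiniteDimensional ℚ ↥(L₁ ⊔ FY) := IntermediateField.finiteDimensional_sup _ _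
  have : FiniteDimensional ℚ ↥F₀ := IntermediateField.finiteDimensional_sup _ _
  have hQalg : Algebra.IsAlgebraic ℚ Qb := AlgebraicClosure.isAlgebraic ℚ
  have hQcl : IsAlgClosure ℚ Qb := ⟨inferInstance, hQalg⟩
  have : Normal ℚ Qb := IsAlgClosure.normal ℚ Qb
  let Fn : IntermediateField ℚ Qb := IntermediateField.normalClosure ℚ ↥F₀ Qb
  have : Normal ℚ ↥Fn := normalClosure.normal ℚ ↥F₀ Qb
  have : FiniteDimensional ℚ ↥Fn := normalClosure.is_finiteDimensional ℚ ↥F₀ Qb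
  have hF₀Fn : F₀ ≤ Fn := IntermediateField.le_normalClosure F₀
  let ρ' : GQ →* (↥Fn ≃ₐ[ℚ] ↥Fn) := AlgEquiv.restrictNormalHom ↥Fn
  have hker : ρ'.ker = Fn.fixingSubgroup := IntermediateField.restrictNormalHom_ker Fn
  obtain ⟨ℓ, A, φ, j, k', hℓ, hℓS, hA, hφ, -, hgφ⟩ :=
    Fermat.Agent.S14.H31.exists_isFrobeniusAt_map_eq_zpow Fn ρ' hker.ge g S
  -- a natural exponent
  obtain ⟨j', hj'⟩ : ∃ j' : ℕ, ρ' φ ^ j = ρ' φ ^ j' := by
    have ho : 0 < orderOf (ρ' φ) := orderOf_pos (ρ' φ)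
    refine ⟨(j % (orderOf (ρ' φ) : ℤ)).toNat, ?_⟩
    rw [← zpow_natCast, Int.toNat_of_nonneg (Int.emod_nonneg _ (by exact_mod_cast ho.ne')),
      zpow_mod_orderOf]
  set τ : GQ := (φ ^ j')⁻¹ * g with hτ
  have hτker : τ ∈ Fn.fixingSubgroup := by
    rw [← hker, MonoidHom.mem_ker, hτ, map_mul, map_inv, map_pow, hgφ, hj', inv_mul_cancel]
  have hfix : ∀ u : GQ, u ∈ Fn.fixingSubgroup → ∀ a ∈ F₀, u a = a := by
    intro u hu a ha
    exact (IntermediateField.mem_fixingSubgroup_iff Fn u).mp hu a (hF₀Fn ha)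
  have hg : g = φ ^ j' * τ := by rw [hτ, mul_inv_cancel_left]
  have hnormal : (Fn.fixingSubgroup).Normal := by rw [← hker]; infer_instance
  -- consequences of fixing `F₀`
  have hfixL : ∀ u : GQ, u ∈ Fn.fixingSubgroup → ∀ i j, (r u - 1) i j ∈ maximalIdeal T ^ n :=
    fun u hu => hL₁ u fun a ha =>
      hfix u hu a ((le_sup_left : L₁ ≤ L₁ ⊔ FY).trans le_sup_left ha)
  have hfixY : ∀ u : GQ, u ∈ Fn.fixingSubgroup → ∀ x, u • lam x = lam x :=
    fun u hu => hFY u fun a ha =>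
      hfix u hu a ((le_sup_right : FY ≤ L₁ ⊔ FY).trans le_sup_left ha)
  have hfixζ : ∀ u : GQ, u ∈ Fn.fixingSubgroup → u ζ = ζ :=
    fun u hu => hfix u hu ζ ((le_sup_right : _ ≤ F₀)
      (IntermediateField.mem_adjoin_simple_self ℚ ζ))
  -- `ℓ` is a good prime
  have hℓp : ℓ ≠ p := by rintro rfl; exact hℓS hpS
  have hcop : ℓ.Coprime (p ^ M) :=
    Nat.Coprime.pow_right M ((Nat.coprime_primes hℓ hp.out).mpr hℓp)
  obtain ⟨htr, hdet⟩ := hchar ℓ hℓ hℓS A hA φ hφ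
  refine ⟨psum (Tℓ ℓ) (((ℓ : ℤ) : 𝕋)) j', ℓ ^ j', ?_, ?_, ?_⟩
  · -- trace congruence
    have h1 : (r g).trace - ((r φ) ^ j').trace = ((r φ) ^ j' * (r τ - 1)).trace := by
      rw [hg, map_mul, map_pow, Matrix.mul_sub, Matrix.mul_one, Matrix.trace_sub]
    have h2 : ((r φ) ^ j').trace = π (psum (Tℓ ℓ) (((ℓ : ℤ) : 𝕋)) j') := by
      rw [trace_pow_eq_psum, htr, hdet, map_psum]
      congr 1
      simp
    rw [← h2, h1]
    exact trace_mul_mem _ _ _ (hfixL τ hτker)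
  · -- cyclotomic part
    have h1 : φ ζ = ζ ^ ℓ :=
      Fermat.Agent.S14.H31.map_primitiveRoot_of_isFrobeniusAt hA hφ hζ hcop
    have h2 := pow_apply_of_apply_eq_pow φ ζ ℓ h1 j'
    rw [hg, AlgEquiv.mul_apply, hfixζ τ hτker, h2]
  · -- torsion part
    intro x
    have hP : ∀ z : J, (∃ n : ℕ, p ^ n • z = 0) → ∀ u : GQ, ∃ n : ℕ, p ^ n • (u • z) = 0 := by
      rintro z ⟨m, hm⟩ u
      exact ⟨m, by rw [← smul_comm, hm, smul_zero]⟩
    have hquad : ∀ z : J, (∃ n : ℕ, p ^ n • z = 0) → TJ ℓ z = φ • z + (ℓ : ℤ) • φ⁻¹ • z := by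
      intro z hz
      have h := hFrob ℓ hℓ hℓS A hA φ hφ (φ⁻¹ • z) (hP z hz φ⁻¹)
      rw [smul_inv_smul] at h
      rw [natCast_zsmul]
      have h' : φ • z + ℓ • φ⁻¹ • z - TJ ℓ z = 0 := by rw [← h]; abel
      exact (sub_eq_zero.mp h').symm
    have hy : ∃ n : ℕ, p ^ n • lam x = 0 := ⟨M, hlamM x⟩
    have e1 := map_psum_apply R lam (Tℓ ℓ) (TJ ℓ) (ℓ : ℤ) (hlamT ℓ hℓ hℓS) j' x
    rw [e1, psumEnd_apply_of_quadratic (TJ ℓ) (ℓ : ℤ) φ (fun z => ∃ n : ℕ, p ^ n • z = 0)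
      (fun z hz => hP z hz φ) (fun z hz => hP z hz φ⁻¹) hquad j' (lam x) hy]
    -- `φ ^ j' = g * τ⁻¹`
    have hφj : φ ^ j' = g * τ⁻¹ := by rw [hg, mul_inv_cancel_right]
    have hτinv : τ⁻¹ ∈ Fn.fixingSubgroup := Subgroup.inv_mem _ hτker
    have hconj : g * τ * g⁻¹ ∈ Fn.fixingSubgroup := hnormal.conj_mem τ hτker g
    have e2 : φ ^ j' • lam x = g • lam x := by
      rw [hφj, mul_smul, hfixY τ⁻¹ hτinv]
    have e3 : (φ ^ j')⁻¹ • lam x = g⁻¹ • lam x := by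
      have : (φ ^ j')⁻¹ = g⁻¹ * (g * τ * g⁻¹) := by
        rw [hφj, _root_.mul_inv_rev, inv_inv]; group
      rw [this, mul_smul, hfixY _ hconj]
    rw [e2, e3]
    push_cast
    rfl

end Main

end Fermat.Agent.S31.H81
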