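import Mathlib
import Fermat.Agent.S31.H81_TraceCongr
import Fermat.Agent.S31.H81_Burnside

/-!
# S31, abstract form: elements acting trivially on torsion points and on `p`-power roots of unity
act trivially in a residually absolutely irreducible Hecke–Galois representation

* `trace_mul_eq_of_trivial` : the trace of `r` is invariant under left translation by such `s`.
* `eq_one_of_trivial` : hence `r s = 1` (Carayol's lemma).
-/

set_option autoImplicit false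

namespace Fermat.Agent.S31.H81

open IsLocalRing Matrix

local notation "Qb" => AlgebraicClosure ℚ
local notation "GQ" => (AlgebraicClosure ℚ ≃ₐ[ℚ] AlgebraicClosure ℚ)
local notation "M2" => Matrix (Fin 2) (Fin 2)

section Main

variable {p : ℕ} [hp : Fact p.Prime]
  {𝕋 : Type*} [CommRing 𝕋] {Lat : Type*} [AddCommGroup Lat] [Module.Finite ℤ Lat]
  [Module.Free ℤ Lat]
  {R : 𝕋 →+* Module.End ℤ Lat} {Tℓ : ℕ → 𝕋}
  {T : Type*} [CommRing T] [IsLocalRing T] {π : 𝕋 →+* T}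
  {r : GQ →* M2 T} {S : Finset ℕ}
  {J : Type*} [AddCommGroup J] [DistribMulAction GQ J] {TJ : ℕ → J →+ J}

/-- The Kummer–Poincaré input: for every `M` an additive map `Lat → J[p^M]` with kernel `p^M Lat`,
intertwining the Hecke operators at the primes outside `S`. -/
def KummerInput (p : ℕ) (R : 𝕋 →+* Module.End ℤ Lat) (Tℓ : ℕ → 𝕋) (S : Finset ℕ)
    (TJ : ℕ → J →+ J) : Prop :=
  ∀ M : ℕ, ∃ lam : Lat →+ J, (∀ x, p ^ M • lam x = 0) ∧
    (∀ x, lam x = 0 → ∃ y, x = ((p : ℤ) ^ M) • y) ∧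
    ∀ ℓ : ℕ, ℓ.Prime → ℓ ∉ S → ∀ x, lam (R (Tℓ ℓ) x) = TJ ℓ (lam x)

theorem trace_mul_eq_of_trivial (hR : Function.Injective R)
    (hpT : (p : T) ∈ maximalIdeal T)
    (hHaus : ∀ x : T, (∀ n : ℕ, x ∈ maximalIdeal T ^ n) → x = 0)
    (hpS : p ∈ S) (hcont : MatAdicCont r)
    (hchar : FrobTraceDet Tℓ π r S) (hFrob : FrobQuadOn p S TJ) (hOpen : OpenStab J)
    (hKum : KummerInput p R Tℓ S TJ)
    (s : GQ) (hs_tors : ∀ x : J, (∃ n : ℕ, p ^ n • x = 0) → s • x = x)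
    (hs_cyc : ∀ (M : ℕ) (ζ : Qb), IsPrimitiveRoot ζ (p ^ M) → s ζ = ζ) (g : GQ) :
    (r (s * g)).trace = (r g).trace := by
  obtain ⟨c, hc⟩ := exists_saturation_exponent R hR p
  refine sub_eq_zero.mp (hHaus _ fun n => ?_)
  obtain ⟨lam, hlamM, hlamK, hlamT⟩ := hKum (n + c)
  have hpM : 0 < p ^ (n + c) := pow_pos hp.out.pos _
  obtain ⟨ζ, hζ⟩ : ∃ ζ : Qb, IsPrimitiveRoot ζ (p ^ (n + c)) := by
    have : NeZero ((p ^ (n + c) : ℕ) : Qb) := ⟨by exact_mod_cast hpM.ne'⟩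
    exact HasEnoughRootsOfUnity.exists_primitiveRoot Qb (p ^ (n + c))
  obtain ⟨t, e, h1, h2, h3⟩ :=
    exists_hecke_trace hpS hcont hchar hFrob hOpen n (n + c) lam hlamM hlamT ζ hζ g
  obtain ⟨t', e', h1', h2', h3'⟩ :=
    exists_hecke_trace hpS hcont hchar hFrob hOpen n (n + c) lam hlamM hlamT ζ hζ (s * g)
  -- `e ≡ e'` modulo `p ^ (n + c)`
  have hee : ((p ^ (n + c) : ℕ) : ℤ) ∣ (e : ℤ) - (e' : ℤ) := by
    have hsg : (s * g) ζ = ζ ^ e := by
      rw [AlgEquiv.mul_apply, h2, map_pow, hs_cyc _ ζ hζ]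
    have hpow : ζ ^ e = ζ ^ e' := hsg.symm.trans h2'
    have hζ0 : ζ ≠ 0 := hζ.ne_zero hpM.ne'
    rw [← hζ.zpow_eq_one_iff_dvd, zpow_sub₀ hζ0, zpow_natCast, zpow_natCast, hpow,
      div_self (pow_ne_zero _ hζ0)]
  obtain ⟨k, hk⟩ := hee
  -- `R (t - t')` maps into `p ^ (n + c) • Lat`
  have hdiv : ∀ x, ∃ y, R (t - t') x = ((p : ℤ) ^ (n + c)) • y := by
    intro x
    apply hlamK
    have hy : ∃ m : ℕ, p ^ m • lam x = 0 := ⟨n + c, hlamM x⟩
    have hgy : ∃ m : ℕ, p ^ m • (g • lam x) = 0 :=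
      ⟨n + c, by rw [← smul_comm, hlamM x, smul_zero]⟩
    have e1 : (s * g) • lam x = g • lam x := by rw [mul_smul, hs_tors _ hgy]
    have e2 : (s * g)⁻¹ • lam x = g⁻¹ • lam x := by
      have : s⁻¹ • lam x = lam x := by
        conv_lhs => rw [← hs_tors _ hy]
        rw [inv_smul_smul]
      rw [_root_.mul_inv_rev, mul_smul, this]
    rw [map_sub, LinearMap.sub_apply, map_sub, h3, h3', e1, e2]
    have : g • lam x + (e : ℤ) • g⁻¹ • lam x - (g • lam x + (e' : ℤ) • g⁻¹ • lam x)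
        = ((e : ℤ) - (e' : ℤ)) • g⁻¹ • lam x := by
      rw [sub_smul]; abel
    have hz : p ^ (n + c) • (g⁻¹ • lam x) = 0 := by rw [← smul_comm, hlamM x, smul_zero]
    rw [this, hk, mul_smul, natCast_zsmul, smul_comm, hz, smul_zero]
  have htf : ∀ (m : ℤ) (y : Lat), m ≠ 0 → m • y = 0 → y = 0 :=
    fun m y hm h => (smul_eq_zero.mp h).resolve_left hm
  have hp0 : ((p : ℤ) ^ (n + c)) ≠ 0 := pow_ne_zero _ (by exact_mod_cast hp.out.ne_zero)
  obtain ⟨e₀, he₀⟩ := exists_end_of_forall_exists_smul htf (R (t - t')) _ hp0 hdiv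
  obtain ⟨t'', ht''⟩ := hc n (t - t') ⟨e₀, he₀⟩
  have hπ : π t - π t' ∈ maximalIdeal T ^ n := by
    rw [← map_sub, ht'', map_zsmul, zsmul_eq_mul]
    push_cast
    exact Ideal.mul_mem_right _ _ (Ideal.pow_mem_pow hpT n)
  have : (r (s * g)).trace - (r g).trace
      = ((r (s * g)).trace - π t') - ((r g).trace - π t) - (π t - π t') := by ring
  rw [this]
  exact Ideal.sub_mem _ (Ideal.sub_mem _ h1' h1) hπ

/-- **S31, abstract form.** -/
theorem eq_one_of_trivial {K : Type*} [Field K] [IsAlgClosed K]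
    (φ : ResidueField T →+* K)
    (hirr : MatIrred (((φ.comp (residue T)).mapMatrix : M2 T →+* M2 K).toMonoidHom.comp r))
    (hR : Function.Injective R)
    (hpT : (p : T) ∈ maximalIdeal T)
    (hHaus : ∀ x : T, (∀ n : ℕ, x ∈ maximalIdeal T ^ n) → x = 0)
    (hpS : p ∈ S) (hcont : MatAdicCont r)
    (hchar : FrobTraceDet Tℓ π r S) (hFrob : FrobQuadOn p S TJ) (hOpen : OpenStab J)
    (hKum : KummerInput p R Tℓ S TJ)
    (s : GQ) (hs_tors : ∀ x : J, (∃ n : ℕ, p ^ n • x = 0) → s • x = x)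
    (hs_cyc : ∀ (M : ℕ) (ζ : Qb), IsPrimitiveRoot ζ (p ^ M) → s ζ = ζ) :
    r s = 1 :=
  eq_one_of_trace_mul_eq φ r hirr s fun g =>
    trace_mul_eq_of_trivial hR hpT hHaus hpS hcont hchar hFrob hOpen hKum s hs_tors hs_cyc g

end Main

end Fermat.Agent.S31.H81
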