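import Mathlib
import Fermat.Prelude.Def_CuspForm_HeckeGaloisRepDatum
import Fermat.Agent.S31.H81_Unramified
import Fermat.Agent.S41.H85_HeckeModule
import Fermat.Agent.S29.H29_Wrapper

/-!
# S31 from Stage-2 / Stage-3 inputs

`isUnramifiedAt_of_inputs` : the frozen S31 conclusion `H.ρ.IsUnramifiedAt q` (`q ∉ S`) from

* a `G_ℚ`-module `J` with additive operators `TJ ℓ` (to be `JZero N`, `heckeOperatorBar N ℓ`),
* `hUnr`, `hFrob` : the prelude's `UnramifiedOutside N p J`, `FrobeniusQuadratic N p J` (verbatim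
  shapes, with `heckeGen ℓ • ·` spelled `TJ ℓ`),
* `hKum` : for every `M` an additive `lam : parabolicHoms ℤ (Γ₀ N) ℤ → J`, killed by `p ^ M`, with
  kernel `p ^ M • Lat`, intertwining `heckeTPar ℓ` and `TJ ℓ` for `ℓ ∤ N`,
* `hOpen` : open stabilisers.
-/

set_option autoImplicit false

namespace Fermat.Agent.S31.H81

open IsLocalRing Matrix Polynomial CongruenceSubgroup ModularCurve ModularCurve.Period
open Fermat.Agent.S41.H85

local notation "Qb" => AlgebraicClosure ℚ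
local notation "GQ" => (AlgebraicClosure ℚ ≃ₐ[ℚ] AlgebraicClosure ℚ)
local notation "M2" => Matrix (Fin 2) (Fin 2)

section Matrices

variable {A : Type} [CommRing A] [IsLocalRing A]

omit [IsLocalRing A] in
/-- coordinates of an element of `I • ⊤` lie in `I` -/
lemma repr_mem_of_mem_smul_top {V : Type*} [AddCommGroup V] [Module A V] {ι : Type*}
    (b : Module.Basis ι A V) (I : Ideal A) {x : V} (hx : x ∈ I • (⊤ : Submodule A V)) (i : ι) :
    b.repr x i ∈ I := by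
  refine Submodule.smul_induction_on (p := fun x => b.repr x i ∈ I) hx ?_ ?_
  · intro a ha w _
    rw [map_smul, Finsupp.smul_apply, smul_eq_mul]
    exact I.mul_mem_right _ ha
  · intro x y hx hy
    rw [map_add, Finsupp.add_apply]
    exact I.add_mem hx hy

/-- The matrix form of a `GaloisRepAdic` in a basis. -/
noncomputable def matRep (ρ : GaloisRepAdic A) (b : Module.Basis (Fin 2) A ρ.V) : GQ →* M2 A where
  toFun σ := LinearMap.toMatrix b b (ρ.ρ σ)
  map_one' := by rw [map_one]; exact LinearMap.toMatrix_one b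
  map_mul' σ τ := by rw [map_mul]; exact LinearMap.toMatrix_mul b _ _

lemma matRep_apply (ρ : GaloisRepAdic A) (b : Module.Basis (Fin 2) A ρ.V) (σ : GQ) :
    matRep ρ b σ = LinearMap.toMatrix b b (ρ.ρ σ) := rfl

lemma matAdicCont_matRep (ρ : GaloisRepAdic A) (b : Module.Basis (Fin 2) A ρ.V) :
    MatAdicCont (matRep ρ b) := by
  intro n
  obtain ⟨L, hL, h1⟩ := ρ.isAdicContinuous n
  refine ⟨L, hL, fun τ hτ i j => ?_⟩
  have h2 := repr_mem_of_mem_smul_top b _ (h1 τ hτ (b j)) i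
  rw [map_sub, Finsupp.sub_apply, Module.Basis.repr_self, Finsupp.single_apply] at h2
  rw [Matrix.sub_apply, matRep_apply, LinearMap.toMatrix_apply, Matrix.one_apply]
  convert h2 using 3
  exact eq_comm

lemma eq_one_of_matRep_eq_one (ρ : GaloisRepAdic A) (b : Module.Basis (Fin 2) A ρ.V) (σ : GQ)
    (h : matRep ρ b σ = 1) : ρ.ρ σ = 1 := by
  rw [matRep_apply, ← LinearMap.toMatrix_one b] at h
  exact (LinearMap.toMatrix b b).injective h

/-- trace and determinant from the characteristic polynomial -/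
lemma trace_det_of_charpoly (ρ : GaloisRepAdic A) (b : Module.Basis (Fin 2) A ρ.V) (σ : GQ)
    (a d : A) (h : LinearMap.charpoly (ρ.ρ σ) = X ^ 2 - C a * X + C d) :
    (matRep ρ b σ).trace = a ∧ (matRep ρ b σ).det = d := by
  have h1 : (matRep ρ b σ).charpoly = X ^ 2 - C a * X + C d := by
    rw [matRep_apply, LinearMap.charpoly_toMatrix, h]
  rw [Matrix.charpoly_fin_two] at h1
  constructor
  · have := congrArg (fun P => Polynomial.coeff P 1) h1
    simp only [coeff_add, coeff_sub, coeff_X_pow, coeff_C_mul, coeff_X_one, coeff_C] at this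
    simpa using this
  · have := congrArg (fun P => Polynomial.coeff P 0) h1
    simp only [coeff_add, coeff_sub, coeff_X_pow, coeff_C_mul, coeff_X_zero, coeff_C_zero] at this
    simpa using this

local notation "k" => ResidueField A
local notation "K" => AlgebraicClosure (ResidueField A)

/-- residual absolute irreducibility in matrix form -/
lemma matIrred_of_residual (ρ : GaloisRepAdic A) (b : Module.Basis (Fin 2) A ρ.V)
    (h : ρ.residual.IsAbsolutelyIrreducible) :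
    MatIrred ((((algebraMap (ResidueField A) (AlgebraicClosure (ResidueField A))).comp
      (residue A)).mapMatrix : M2 A →+* M2 (AlgebraicClosure (ResidueField A))).toMonoidHom.comp
        (matRep ρ b)) := by
  classical
  let b₁ : Module.Basis (Fin 2) k (TensorProduct A k ρ.V) := Algebra.TensorProduct.basis k b
  let b₂ : Module.Basis (Fin 2) K (TensorProduct k K (TensorProduct A k ρ.V)) :=
    Algebra.TensorProduct.basis K b₁
  let f : GQ → Module.End K (TensorProduct k K (TensorProduct A k ρ.V)) :=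
    fun σ => ((ρ.ρ σ).baseChange k).baseChange K
  -- the matrix of the base-changed representation
  have hmat : ∀ σ : GQ, LinearMap.toMatrix b₂ b₂ (f σ)
      = (((algebraMap k K).comp (residue A)).mapMatrix : M2 A →+* M2 K) (matRep ρ b σ) := by
    intro σ
    show LinearMap.toMatrix (Algebra.TensorProduct.basis K b₁) (Algebra.TensorProduct.basis K b₁)
      (((ρ.ρ σ).baseChange k).baseChange K) = _
    rw [LinearMap.toMatrix_baseChange]
    show (LinearMap.toMatrix (Algebra.TensorProduct.basis k b) (Algebra.TensorProduct.basis k b)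
      ((ρ.ρ σ).baseChange k)).map _ = _
    rw [LinearMap.toMatrix_baseChange, matRep_apply]
    ext i j
    simp only [RingHom.mapMatrix_apply, Matrix.map_apply, RingHom.comp_apply]
    rfl
  intro W hW
  let W' : Submodule K (TensorProduct k K (TensorProduct A k ρ.V)) :=
    W.comap b₂.equivFun.toLinearMap
  have hW' : ∀ σ : GQ, ∀ x ∈ W', f σ x ∈ W' := by
    intro σ x hx
    have hx' : b₂.equivFun x ∈ W := hx
    show b₂.equivFun (f σ x) ∈ W
    have : b₂.equivFun (f σ x) = (LinearMap.toMatrix b₂ b₂ (f σ)) *ᵥ (b₂.equivFun x) :=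
      (LinearMap.toMatrix_mulVec_repr b₂ b₂ (f σ) x).symm
    rw [this, hmat σ]
    exact hW σ _ hx'
  rcases h W' (fun σ x hx => hW' σ x hx) with hbot | htop
  · left
    rw [eq_bot_iff]
    intro w hw
    have hmem : b₂.equivFun.symm w ∈ W' := by
      show b₂.equivFun (b₂.equivFun.symm w) ∈ W
      rw [LinearEquiv.apply_symm_apply]; exact hw
    rw [hbot] at hmem
    have h0 : b₂.equivFun.symm w = 0 := hmem
    rw [Submodule.mem_bot, ← b₂.equivFun.apply_symm_apply w, h0, map_zero]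
  · right
    rw [eq_top_iff]
    intro w _
    have hmem : b₂.equivFun.symm w ∈ W' := htop ▸ trivial
    have : b₂.equivFun (b₂.equivFun.symm w) ∈ W := hmem
    rwa [LinearEquiv.apply_symm_apply] at this

end Matrices

section Datum

variable {p : ℕ} {N : ℕ} [NeZero N] {S : Finset ℕ}
  {𝒪 : Type} [CommRing 𝒪] [IsDomain 𝒪] [IsDiscreteValuationRing 𝒪]
  [IsAdicComplete (IsLocalRing.maximalIdeal 𝒪) 𝒪]
  {θ : CuspForm.heckeAlgebra N 2 (↑S : Set ℕ) →+* IsLocalRing.ResidueField 𝒪}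
  {T : Type} [CommRing T] [IsLocalRing T] [IsNoetherianRing T]
  [IsAdicComplete (IsLocalRing.maximalIdeal T) T] [Algebra 𝒪 T] [IsLocalHom (algebraMap 𝒪 T)]
  [Module.Finite 𝒪 T] [Module.Free 𝒪 T]

/-- **S31 from Stage-2/Stage-3 inputs.** -/
theorem isUnramifiedAt_of_inputs (hp : p.Prime)
    (hp𝒪 : (p : 𝒪) ∈ IsLocalRing.maximalIdeal 𝒪) (hpS : p ∈ S)
    (hNS : ∀ q : ℕ, q.Prime → q ∣ N → q ∈ S)
    (H : CuspForm.HeckeGaloisRepDatum N (↑S : Set ℕ) 𝒪 θ T)
    {J : Type*} [AddCommGroup J] [DistribMulAction GQ J] (TJ : ℕ → J →+ J)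
    (hUnr : ∀ ℓ : ℕ, ℓ.Prime → ¬ ℓ ∣ N * p → ∀ A : ValuationSubring Qb, A.LiesOverPrime ℓ →
      ∀ σ ∈ A.inertiaSubgroupIn ℚ, ∀ x : J, (∃ n : ℕ, p ^ n • x = 0) → σ • x = x)
    (hFrob : ∀ ℓ : ℕ, ℓ.Prime → ¬ ℓ ∣ N * p → ∀ A : ValuationSubring Qb, A.LiesOverPrime ℓ →
      ∀ σ : GQ, A.IsFrobeniusAt σ ℓ → ∀ x : J, (∃ n : ℕ, p ^ n • x = 0) →
        σ • σ • x - TJ ℓ (σ • x) + ℓ • x = 0)
    (hKum : ∀ M : ℕ, ∃ lam : parabolicHoms ℤ (Gamma0 N) ℤ →+ J, (∀ x, p ^ M • lam x = 0) ∧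
      (∀ x, lam x = 0 → ∃ y, x = ((p : ℤ) ^ M) • y) ∧
      ∀ (ℓ : ℕ) (hℓ : ℓ.Prime) (hℓN : ¬ ℓ ∣ N) (x : parabolicHoms ℤ (Gamma0 N) ℤ),
        lam (heckeTPar ℤ ℤ hℓ hℓN x) = TJ ℓ (lam x))
    (hOpen : OpenStab J)
    (q : ℕ) (hq : q.Prime) (hqS : q ∉ S) : H.ρ.IsUnramifiedAt q := by
  classical
  have : Fact p.Prime := ⟨hp⟩
  intro P hP σ hσ
  let b : Module.Basis (Fin 2) T H.ρ.V := Module.finBasisOfFinrankEq T H.ρ.V H.ρ.finrank_eq
  apply eq_one_of_matRep_eq_one H.ρ b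
  have hgoodN : ∀ ℓ : ℕ, ℓ.Prime → ℓ ∉ S → ¬ ℓ ∣ N :=
    fun ℓ hℓ hℓS hdvd => hℓS (hNS ℓ hℓ hdvd)
  have hgoodNp : ∀ ℓ : ℕ, ℓ.Prime → ℓ ∉ S → ¬ ℓ ∣ N * p := by
    intro ℓ hℓ hℓS hdvd
    rcases (Nat.Prime.dvd_mul hℓ).mp hdvd with h | h
    · exact hgoodN ℓ hℓ hℓS h
    · exact hℓS (by rw [(Nat.prime_dvd_prime_iff_eq hℓ hp).mp h]; exact hpS)
  have hcoe : ∀ ℓ : ℕ, ℓ ∉ S → ℓ ∉ (↑S : Set ℕ) := fun ℓ h => by simpa using h
  let Tℓ : ℕ → CuspForm.heckeAlgebra N 2 (↑S : Set ℕ) := fun ℓ =>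
    if h : ℓ.Prime ∧ ℓ ∉ S then
      CuspForm.heckeAlgebra.T h.1 (hgoodN ℓ h.1 h.2) (hcoe ℓ h.2) else 0
  have hTℓ : ∀ (ℓ : ℕ) (hℓ : ℓ.Prime) (hℓS : ℓ ∉ S),
      Tℓ ℓ = CuspForm.heckeAlgebra.T hℓ (hgoodN ℓ hℓ hℓS) (hcoe ℓ hℓS) :=
    fun ℓ hℓ hℓS => dif_pos ⟨hℓ, hℓS⟩
  have hqp : q ≠ p := by rintro rfl; exact hqS hpS
  refine eq_one_of_trivial (p := p) (R := cohHeckeRep N (↑S : Set ℕ)) (Tℓ := Tℓ) (π := H.π)
    (S := S) (TJ := TJ) (algebraMap _ (AlgebraicClosure (ResidueField T)))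
    (matIrred_of_residual H.ρ b H.residual_absIrr) cohHeckeRep_injective ?_ ?_ hpS
    (matAdicCont_matRep H.ρ b) ?_ ?_ hOpen ?_ σ ?_ ?_
  · -- `p ∈ 𝔪_T`
    have h1 : (p : T) = algebraMap 𝒪 T (p : 𝒪) := (map_natCast _ p).symm
    rw [h1, mem_maximalIdeal, mem_nonunits_iff]
    intro hu
    exact (mem_nonunits_iff.mp ((mem_maximalIdeal _).mp hp𝒪)) (isUnit_of_map_unit _ _ hu)
  · -- separatedness
    intro x hx
    refine IsHausdorff.haus' (I := maximalIdeal T) x fun n => ?_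
    rw [smul_eq_mul, Ideal.mul_top, SModEq.zero]
    exact hx n
  · intro ℓ hℓ hℓS A hA φ hφ
    rw [hTℓ ℓ hℓ hℓS]
    exact trace_det_of_charpoly H.ρ b φ _ _
      (H.charpoly_frob ℓ hℓ (hgoodN ℓ hℓ hℓS) (hcoe ℓ hℓS) A hA φ hφ)
  · intro ℓ hℓ hℓS A hA φ hφ x hx
    exact hFrob ℓ hℓ (hgoodNp ℓ hℓ hℓS) A hA φ hφ x hx
  · intro M
    obtain ⟨lam, h1, h2, h3⟩ := hKum M
    refine ⟨lam, h1, h2, fun ℓ hℓ hℓS x => ?_⟩
    rw [hTℓ ℓ hℓ hℓS, cohHeckeRep_T]
    exact h3 ℓ hℓ _ x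
  · intro x hx
    exact hUnr q hq (hgoodNp q hq hqS) P hP σ hσ x hx
  · intro M ζ hζ
    have hcop : q.Coprime (p ^ M) :=
      Nat.Coprime.pow_right M ((Nat.coprime_primes hq hp).mpr hqp)
    exact Fermat.Agent.S29.H29.map_primitiveRoot_of_mem_inertia hP hcop hσ hζ

end Datum

end Fermat.Agent.S31.H81
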