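import Mathlib

set_option autoImplicit false

open Module Matrix

namespace Fermat.Agent.S31.H18

section Burnside

variable {K V G : Type*} [Field K] [IsAlgClosed K] [AddCommGroup V] [Module K V] [Monoid G]

/-- **Burnside's theorem in dimension 2.** -/
theorem span_range_eq_top_of_irreducible (hV : Module.finrank K V = 2)
    (ρ : G →* Module.End K V)
    (hirr : ∀ W : Submodule K V, (∀ g, ∀ x ∈ W, ρ g x ∈ W) → W = ⊥ ∨ W = ⊤) :
    Submodule.span K (Set.range ρ) = ⊤ := by
  classical
  have : FiniteDimensional K V := Module.finite_of_finrank_pos (by rw [hV]; norm_num)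
  have : Nontrivial V := Module.nontrivial_of_finrank_pos (R := K) (by rw [hV]; norm_num)
  -- the subalgebra generated
  set B : Subalgebra K (Module.End K V) := Algebra.adjoin K (Set.range ρ) with hB
  have hBspan : Subalgebra.toSubmodule B = Submodule.span K (Set.range ρ) := by
    rw [hB, Algebra.adjoin_eq_span]
    congr 1
    have : Submonoid.closure (Set.range ρ) = MonoidHom.mrange ρ := by
      rw [← MonoidHom.coe_mrange, Submonoid.closure_eq]
    rw [this, MonoidHom.coe_mrange]
  have hρB : ∀ g, ρ g ∈ B := fun g => Algebra.subset_adjoin ⟨g, rfl⟩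
  -- invariance under `B`
  have hinv : ∀ W : Submodule K V, (∀ b ∈ B, ∀ x ∈ W, b x ∈ W) → W = ⊥ ∨ W = ⊤ :=
    fun W hW => hirr W fun g x hx => hW _ (hρB g) x hx
  -- evaluation maps
  let ev : V → (B →ₗ[K] V) := fun v =>
    { toFun := fun b => (b : Module.End K V) v
      map_add' := fun b b' => rfl
      map_smul' := fun c b => rfl }
  have hev_surj : ∀ v : V, v ≠ 0 → LinearMap.range (ev v) = ⊤ := by
    intro v hv
    have hst : ∀ b ∈ B, ∀ x ∈ LinearMap.range (ev v), b x ∈ LinearMap.range (ev v) := by
      rintro b hb _ ⟨b', rfl⟩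
      exact ⟨⟨b, hb⟩ * b', rfl⟩
    rcases hinv (LinearMap.range (ev v)) hst with h | h
    · exfalso
      have : v ∈ LinearMap.range (ev v) := ⟨1, by simp [ev]⟩
      rw [h] at this
      exact hv ((Submodule.mem_bot K).mp this)
    · exact h
  -- a nonzero element of `B` with nontrivial kernel
  obtain ⟨M, hM, v₁, hv₁, hMv₁, v₂, hMv₂⟩ : ∃ M ∈ B, ∃ v₁ : V, v₁ ≠ 0 ∧ M v₁ = 0 ∧ ∃ v₂, M v₂ ≠ 0 := by
    by_contra hcon
    push Not at hcon
    obtain ⟨v, hv⟩ := exists_ne (0 : V)
    have hscal : ∀ b ∈ B, ∀ x : V, ∃ c : K, b x = c • x := by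
      intro b hb x
      obtain ⟨μ, hμ⟩ := Module.End.exists_eigenvalue b
      obtain ⟨w, hw⟩ := hμ.exists_hasEigenvector
      have hmem : b - algebraMap K _ μ ∈ B := B.sub_mem hb (B.algebraMap_mem μ)
      have h0 : (b - algebraMap K (Module.End K V) μ) w = 0 := by
        rw [LinearMap.sub_apply, hw.apply_eq_smul, Module.algebraMap_end_apply, sub_self]
      have := hcon _ hmem w hw.2 h0 x
      refine ⟨μ, ?_⟩
      rw [LinearMap.sub_apply, Module.algebraMap_end_apply, sub_eq_zero] at this
      exact this
    have hst : ∀ b ∈ B, ∀ x ∈ (K ∙ v), b x ∈ (K ∙ v) := by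
      intro b hb x hx
      obtain ⟨c, hc⟩ := hscal b hb x
      rw [hc]
      exact Submodule.smul_mem _ c hx
    rcases hinv (K ∙ v) hst with h | h
    · exact hv ((Submodule.span_singleton_eq_bot).mp h)
    · have h1 : Module.finrank K (K ∙ v) = 1 := finrank_span_singleton hv
      rw [h, finrank_top, hV] at h1
      omega
  set u := M v₂ with hu
  let MB : B := ⟨M, hM⟩
  let rm : B →ₗ[K] B := LinearMap.mulRight K MB
  have h1 : LinearMap.range rm ≤ LinearMap.ker (ev v₁) := by
    rintro _ ⟨b, rfl⟩
    rw [LinearMap.mem_ker]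
    show ((b * MB : B) : Module.End K V) v₁ = 0
    rw [Subalgebra.coe_mul, Module.End.mul_apply]
    show (b : Module.End K V) (M v₁) = 0
    rw [hMv₁, map_zero]
  have h2 : (ev v₂).comp rm = ev u := by
    refine LinearMap.ext fun b => ?_
    show ((b * MB : B) : Module.End K V) v₂ = (b : Module.End K V) u
    rw [Subalgebra.coe_mul, Module.End.mul_apply]
  have h3 : 2 ≤ Module.finrank K (LinearMap.range rm) := by
    have h4 : LinearMap.range (ev u) = (LinearMap.range rm).map (ev v₂) := by
      rw [← h2, LinearMap.range_comp]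
    have h5 := Submodule.finrank_map_le (ev v₂) (LinearMap.range rm)
    rw [← h4, hev_surj u hMv₂, finrank_top, hV] at h5
    exact h5
  have h6 : Module.finrank K B = 2 + Module.finrank K (LinearMap.ker (ev v₁)) := by
    rw [← LinearMap.finrank_range_add_finrank_ker (ev v₁), hev_surj v₁ hv₁, finrank_top, hV]
  have h7 : Module.finrank K (LinearMap.range rm) ≤ Module.finrank K (LinearMap.ker (ev v₁)) :=
    Submodule.finrank_mono h1
  have h8 : Module.finrank K (Module.End K V) = 4 := by
    rw [Module.finrank_linearMap, hV]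
  have h9 : Subalgebra.toSubmodule B = ⊤ := by
    apply Submodule.eq_top_of_finrank_eq
    have : Module.finrank K (Subalgebra.toSubmodule B) = Module.finrank K B := rfl
    have hle : Module.finrank K (Subalgebra.toSubmodule B) ≤ Module.finrank K (Module.End K V) :=
      Submodule.finrank_le _
    omega
  rw [← hBspan, h9]

end Burnside

section Descent

/-- A linear functional on `2 × 2` matrices is determined by its values on matrix units. -/
theorem linearMap_matrix_apply {k : Type*} [CommRing k] (f : Matrix (Fin 2) (Fin 2) k →ₗ[k] k)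
    (Y : Matrix (Fin 2) (Fin 2) k) :
    f Y = ∑ i, ∑ j, Y i j * f (Matrix.single i j 1) := by
  conv_lhs => rw [matrix_eq_sum_single Y]
  rw [map_sum]
  refine Finset.sum_congr rfl fun i _ => ?_
  rw [map_sum]
  refine Finset.sum_congr rfl fun j _ => ?_
  have : Matrix.single i j (Y i j) = Y i j • Matrix.single i j (1 : k) := by
    rw [Matrix.smul_single, smul_eq_mul, mul_one]
  rw [this, map_smul, smul_eq_mul]

/-- Spanning descends along a field extension. -/
theorem span_eq_top_of_span_map_eq_top {k K : Type*} [Field k] [Field K] [Algebra k K]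
    {ι : Type*} (S : ι → Matrix (Fin 2) (Fin 2) k)
    (h : Submodule.span K (Set.range fun i => (S i).map (algebraMap k K)) = ⊤) :
    Submodule.span k (Set.range S) = ⊤ := by
  by_contra hne
  obtain ⟨f, hf0, hf⟩ := Submodule.exists_le_ker_of_lt_top _ (lt_top_iff_ne_top.mpr hne)
  let F : Matrix (Fin 2) (Fin 2) K →ₗ[K] K :=
    ∑ i, ∑ j, algebraMap k K (f (Matrix.single i j 1)) • Matrix.entryLinearMap K K i j
  have hF : ∀ Y : Matrix (Fin 2) (Fin 2) k, F (Y.map (algebraMap k K)) = algebraMap k K (f Y) := by
    intro Y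
    rw [linearMap_matrix_apply f Y]
    simp only [F, LinearMap.sum_apply, LinearMap.smul_apply, Matrix.entryLinearMap_apply,
      Matrix.map_apply, smul_eq_mul, map_sum, map_mul]
    refine Finset.sum_congr rfl fun i _ => Finset.sum_congr rfl fun j _ => ?_
    ring
  have hF0 : F = 0 := by
    have hle : Submodule.span K (Set.range fun i => (S i).map (algebraMap k K)) ≤ LinearMap.ker F := by
      rw [Submodule.span_le]
      rintro _ ⟨i, rfl⟩
      rw [SetLike.mem_coe, LinearMap.mem_ker, hF]
      have : S i ∈ LinearMap.ker f := hf (Submodule.subset_span ⟨i, rfl⟩)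
      rw [LinearMap.mem_ker.mp this, map_zero]
    rw [h, top_le_iff, LinearMap.ker_eq_top] at hle
    exact hle
  apply hf0
  refine LinearMap.ext fun Y => ?_
  rw [LinearMap.zero_apply]
  have h1 := hF Y
  rw [hF0, LinearMap.zero_apply] at h1
  exact (FaithfulSMul.algebraMap_injective k K) (by rw [← h1, map_zero])

open IsLocalRing in
/-- Spanning lifts from the residue field of a local ring (Nakayama). -/
theorem span_eq_top_of_span_residue_eq_top {A : Type*} [CommRing A] [IsLocalRing A]
    {ι : Type*} (S : ι → Matrix (Fin 2) (Fin 2) A)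
    (h : Submodule.span (ResidueField A) (Set.range fun i => (S i).map (residue A)) = ⊤) :
    Submodule.span A (Set.range S) = ⊤ := by
  rw [eq_top_iff]
  refine Submodule.le_of_le_smul_of_le_jacobson_bot (I := maximalIdeal A)
    (Module.Finite.fg_top) (IsLocalRing.maximalIdeal_le_jacobson _) ?_
  intro Y _
  -- lift the residual expression
  have key : ∀ Z ∈ Submodule.span (ResidueField A) (Set.range fun i => (S i).map (residue A)),
      ∃ Y' ∈ Submodule.span A (Set.range S), Y'.map (residue A) = Z := by
    intro Z hZ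
    induction hZ using Submodule.span_induction with
    | mem Z hZ =>
      obtain ⟨i, rfl⟩ := hZ
      exact ⟨S i, Submodule.subset_span ⟨i, rfl⟩, rfl⟩
    | zero => exact ⟨0, Submodule.zero_mem _, by ext; simp⟩
    | add Z₁ Z₂ _ _ h₁ h₂ =>
      obtain ⟨Y₁, hY₁, rfl⟩ := h₁
      obtain ⟨Y₂, hY₂, rfl⟩ := h₂
      exact ⟨Y₁ + Y₂, Submodule.add_mem _ hY₁ hY₂, by ext; simp⟩
    | smul c Z _ h₁ =>
      obtain ⟨Y₁, hY₁, rfl⟩ := h₁
      obtain ⟨a, rfl⟩ := residue_surjective c
      exact ⟨a • Y₁, Submodule.smul_mem _ a hY₁, by ext; simp⟩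
  obtain ⟨Y', hY', hYY'⟩ := key (Y.map (residue A)) (by rw [h]; exact Submodule.mem_top)
  have hdiff : Y - Y' ∈ maximalIdeal A • (⊤ : Submodule A (Matrix (Fin 2) (Fin 2) A)) := by
    rw [matrix_eq_sum_single (Y - Y')]
    refine Submodule.sum_mem _ fun i _ => Submodule.sum_mem _ fun j _ => ?_
    have hmem : (Y - Y') i j ∈ maximalIdeal A := by
      rw [← residue_eq_zero_iff, Matrix.sub_apply, map_sub, sub_eq_zero]
      have := congrFun (congrFun hYY' i) j
      simp only [Matrix.map_apply] at this
      exact this.symm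
    have : Matrix.single i j ((Y - Y') i j) = (Y - Y') i j • Matrix.single i j (1 : A) := by
      rw [Matrix.smul_single, smul_eq_mul, mul_one]
    rw [this]
    exact Submodule.smul_mem_smul hmem Submodule.mem_top
  have : Y = Y' + (Y - Y') := by abel
  rw [this]
  exact Submodule.add_mem_sup hY' hdiff

end Descent

end Fermat.Agent.S31.H18
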