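import Mathlib
import Fermat.Prelude.Def_GaloisRep_Adic
import Fermat.Agent.S31.H18_BurnsideCore

set_option autoImplicit false

open Module Matrix IsLocalRing
open scoped TensorProduct

namespace Fermat.Agent.S31.H18

local notation "GQ" => (AlgebraicClosure ℚ ≃ₐ[ℚ] AlgebraicClosure ℚ)

/-- Transport of a spanning family along a linear equivalence. -/
theorem span_range_comp_eq_top {R M M' ι : Type*} [CommRing R] [AddCommGroup M] [Module R M]
    [AddCommGroup M'] [Module R M'] (e : M ≃ₗ[R] M') (f : ι → M)
    (h : Submodule.span R (Set.range f) = ⊤) :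
    Submodule.span R (Set.range fun i => e (f i)) = ⊤ := by
  have h2 := congrArg (Submodule.map e.toLinearMap) h
  rw [Submodule.map_span, Submodule.map_top, LinearEquiv.range, ← Set.range_comp] at h2
  exact h2

variable {A : Type} [CommRing A] [IsLocalRing A]

/-- **Carayol's lemma, spanning form.** If the residual representation is absolutely irreducible,
the `A`-span of the image of `ρ` is the whole endomorphism ring. -/
theorem span_range_rho_eq_top (ρ : GaloisRepAdic A)
    (habs : ρ.residual.IsAbsolutelyIrreducible) :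
    Submodule.span A (Set.range ρ.ρ) = ⊤ := by
  classical
  let k := ResidueField A
  let K := AlgebraicClosure k
  let b : Basis (Fin 2) A ρ.V := Module.finBasisOfFinrankEq A ρ.V ρ.finrank_eq
  let bk : Basis (Fin 2) k (k ⊗[A] ρ.V) := Algebra.TensorProduct.basis k b
  let bK : Basis (Fin 2) K (K ⊗[k] (k ⊗[A] ρ.V)) := Algebra.TensorProduct.basis K bk
  let M : GQ → Matrix (Fin 2) (Fin 2) A := fun g => LinearMap.toMatrix b b (ρ.ρ g)
  -- Burnside over the algebraic closure
  have hB : Submodule.span K (Set.range (ρ.residual.baseChange K).ρ) = ⊤ :=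
    span_range_eq_top_of_irreducible (ρ.residual.baseChange K).finrank_eq _ habs
  have hmat : ∀ g, LinearMap.toMatrix bK bK ((ρ.residual.baseChange K).ρ g)
      = ((M g).map (residue A)).map (algebraMap k K) := by
    intro g
    have h1 : (ρ.residual.baseChange K).ρ g = ((ρ.ρ g).baseChange k).baseChange K := rfl
    rw [h1, LinearMap.toMatrix_baseChange, LinearMap.toMatrix_baseChange,
      ResidueField.algebraMap_eq]
  have hK : Submodule.span K (Set.range fun g => ((M g).map (residue A)).map (algebraMap k K)) = ⊤ := by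
    have h2 := span_range_comp_eq_top (LinearMap.toMatrix bK bK) _ hB
    rw [← h2]
    congr 2
    funext g
    exact (hmat g).symm
  have hk := span_eq_top_of_span_map_eq_top (fun g => (M g).map (residue A)) hK
  have hA := span_eq_top_of_span_residue_eq_top M hk
  have h3 := span_range_comp_eq_top (LinearMap.toMatrix b b).symm _ hA
  rw [← h3]
  congr 2
  funext g
  simp [M]

/-- **Carayol's lemma, trace form.** -/
theorem eq_zero_of_trace_mul_eq_zero (ρ : GaloisRepAdic A)
    (habs : ρ.residual.IsAbsolutelyIrreducible) (X : Module.End A ρ.V)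
    (h : ∀ g, LinearMap.trace A ρ.V (X * ρ.ρ g) = 0) : X = 0 := by
  classical
  have hall : ∀ Y : Module.End A ρ.V, LinearMap.trace A ρ.V (X * Y) = 0 := by
    intro Y
    have hY : Y ∈ Submodule.span A (Set.range ρ.ρ) := by
      rw [span_range_rho_eq_top ρ habs]; exact Submodule.mem_top
    induction hY using Submodule.span_induction with
    | mem Y hY => obtain ⟨g, rfl⟩ := hY; exact h g
    | zero => rw [mul_zero, map_zero]
    | add Y₁ Y₂ _ _ h₁ h₂ => rw [mul_add, map_add, h₁, h₂, add_zero]
    | smul c Y _ h₁ => rw [mul_smul_comm, map_smul, h₁, smul_zero]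
  let b : Basis (Fin 2) A ρ.V := Module.finBasisOfFinrankEq A ρ.V ρ.finrank_eq
  apply (LinearMap.toMatrix b b).injective
  rw [map_zero]
  rw [Matrix.ext_iff_trace_mul_right]
  intro Y
  rw [zero_mul, Matrix.trace_zero]
  have := hall ((LinearMap.toMatrix b b).symm Y)
  rw [LinearMap.trace_eq_matrix_trace A b, LinearMap.toMatrix_mul] at this
  simpa using this

/-- **Carayol's lemma, group form.** If `tr ρ (τ g) = tr ρ g` for all `g`, then `ρ τ = 1`. -/
theorem rho_eq_one_of_trace_invariant (ρ : GaloisRepAdic A)
    (habs : ρ.residual.IsAbsolutelyIrreducible) (τ : GQ)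
    (h : ∀ g, ρ.trace (τ * g) = ρ.trace g) : ρ.ρ τ = 1 := by
  rw [← sub_eq_zero]
  apply eq_zero_of_trace_mul_eq_zero ρ habs
  intro g
  rw [sub_mul, one_mul, map_sub, ← map_mul, sub_eq_zero]
  exact h g

end Fermat.Agent.S31.H18
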