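import Mathlib

set_option autoImplicit false

open Module IsLocalRing

namespace Fermat.Agent.S31.H18

/-- An integer prime to the residue characteristic is a unit in a local ring. -/
theorem isUnit_natCast_of_not_dvd {T : Type*} [CommRing T] [IsLocalRing T] {p : ℕ} (hp : p.Prime)
    (hpT : (p : T) ∈ maximalIdeal T) {m : ℕ} (hm : ¬ p ∣ m) : IsUnit (m : T) := by
  have hcop : Nat.Coprime m p := (Nat.Coprime.symm ((Nat.Prime.coprime_iff_not_dvd hp).mpr hm))
  have hb : (m : ℤ) * Nat.gcdA m p + (p : ℤ) * Nat.gcdB m p = 1 := by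
    have := Nat.gcd_eq_gcd_ab m p
    rw [hcop.gcd_eq_one] at this
    exact_mod_cast this.symm
  have hT : (m : T) * ((Nat.gcdA m p : ℤ) : T) = 1 - (p : T) * ((Nat.gcdB m p : ℤ) : T) := by
    have := congrArg (Int.cast : ℤ → T) hb
    push_cast at this
    rw [← this]; ring
  have hu : IsUnit ((m : T) * ((Nat.gcdA m p : ℤ) : T)) := by
    rw [hT]
    apply isUnit_one_sub_self_of_mem_nonunits
    rw [← mem_maximalIdeal]
    exact Ideal.mul_mem_right _ _ hpT
  exact isUnit_of_mul_isUnit_left hu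

variable {R₀ L T : Type*} [CommRing R₀] [AddCommGroup L] [Module.Finite ℤ L] [Module.Free ℤ L]
  [CommRing T] [IsLocalRing T]

/-- **The lattice lemma (★).**  A commutative ring `R₀` acting faithfully on a finite free
`ℤ`-module `L`; `π : R₀ → T` a ring homomorphism to a local ring of residue characteristic `p`.
There is a constant `c` such that every `t ∈ R₀` with `t L ⊆ pⁿ L` satisfies
`π t ∈ 𝔪_T ^ (n - c)`. -/
theorem exists_star (rep : R₀ →+* Module.End ℤ L) (hinj : Function.Injective rep)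
    (π : R₀ →+* T) {p : ℕ} (hp : p.Prime) (hpT : (p : T) ∈ maximalIdeal T) :
    ∃ c : ℕ, ∀ (n : ℕ) (t : R₀), (∀ x : L, ∃ y : L, rep t x = (p ^ n : ℤ) • y) →
      π t ∈ maximalIdeal T ^ (n - c) := by
  classical
  -- the image of `R₀` as a `ℤ`-submodule
  let S : Submodule ℤ (Module.End ℤ L) := LinearMap.range rep.toAddMonoidHom.toIntLinearMap
  let Q := Module.End ℤ L ⧸ S
  have htor : Module.IsTorsion ℤ (Submodule.torsion ℤ Q) := Submodule.torsion_isTorsion
  obtain ⟨m, hm1, hm2⟩ := Submodule.annihilator_top_inter_nonZeroDivisors htor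
  have hm0 : m ≠ 0 := nonZeroDivisors.ne_zero hm2
  have hmann : ∀ x : Q, x ∈ Submodule.torsion ℤ Q → m • x = 0 := by
    intro x hx
    have := (Submodule.mem_annihilator.mp hm1) ⟨x, hx⟩ Submodule.mem_top
    exact congrArg Subtype.val this
  obtain ⟨c, m', hm', hmeq⟩ := Nat.exists_eq_pow_mul_and_not_dvd (n := m.natAbs)
    (Int.natAbs_ne_zero.mpr hm0) p hp.ne_one
  refine ⟨c, fun n t ht => ?_⟩
  rcases le_or_gt n c with hnc | hnc
  · rw [Nat.sub_eq_zero_of_le hnc, pow_zero, Ideal.one_eq_top]; exact Submodule.mem_top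
  -- construct the quotient endomorphism
  let b := Module.Free.chooseBasis ℤ L
  choose y hy using ht
  let e : Module.End ℤ L := b.constr ℤ fun i => y (b i)
  have he : rep t = (p ^ n : ℤ) • e := by
    apply b.ext
    intro i
    rw [LinearMap.smul_apply, Module.Basis.constr_basis, hy]
  -- the class of `e` is torsion
  have hetor : (Submodule.Quotient.mk e : Q) ∈ Submodule.torsion ℤ Q := by
    rw [Submodule.mem_torsion_iff]
    refine ⟨⟨(p ^ n : ℤ), mem_nonZeroDivisors_of_ne_zero (pow_ne_zero _ (by exact_mod_cast hp.ne_zero))⟩, ?_⟩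
    show (p ^ n : ℤ) • (Submodule.Quotient.mk e : Q) = 0
    rw [← Submodule.Quotient.mk_smul, ← he, Submodule.Quotient.mk_eq_zero]
    exact ⟨t, rfl⟩
  have hme : m • e ∈ S := by
    have := hmann _ hetor
    rw [← Submodule.Quotient.mk_smul, Submodule.Quotient.mk_eq_zero] at this
    exact this
  obtain ⟨r, hr⟩ := hme
  have hr' : rep r = m • e := hr
  -- `m.natAbs • t = p ^ n • r'`
  have hnat : ∃ r' : R₀, rep r' = (m.natAbs : ℤ) • e := by
    rcases Int.natAbs_eq m with h | h
    · exact ⟨r, by rw [hr']; congr 1⟩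
    · refine ⟨-r, ?_⟩
      rw [map_neg, hr']
      conv_lhs => rw [h]
      rw [neg_smul, neg_neg]
  obtain ⟨r', hr'⟩ := hnat
  have hEtf : ∀ (a : ℤ) (f g : Module.End ℤ L), a ≠ 0 → a • f = a • g → f = g := by
    intro a f g ha hfg
    refine LinearMap.ext fun x => ?_
    have := congrArg (fun h : Module.End ℤ L => h x) hfg
    simp only [LinearMap.smul_apply] at this
    exact smul_right_injective L ha this
  have hkey : (m' : ℤ) • t = (p ^ (n - c) : ℤ) • r' := by
    apply hinj
    apply hEtf ((p : ℤ) ^ c) _ _ (pow_ne_zero _ (by exact_mod_cast hp.ne_zero))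
    rw [map_zsmul, map_zsmul, he, hr', smul_smul, smul_smul, smul_smul, smul_smul]
    congr 1
    rw [hmeq]
    push_cast
    have : (p : ℤ) ^ n = (p : ℤ) ^ c * (p : ℤ) ^ (n - c) := by
      rw [← pow_add, Nat.add_sub_cancel' hnc.le]
    rw [this]; ring
  have hπ := congrArg π hkey
  rw [map_zsmul, map_zsmul, zsmul_eq_mul, zsmul_eq_mul] at hπ
  have hu : IsUnit ((m' : ℤ) : T) := by
    rw [Int.cast_natCast]; exact isUnit_natCast_of_not_dvd hp hpT hm'
  have hmem : ((m' : ℤ) : T) * π t ∈ maximalIdeal T ^ (n - c) := by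
    rw [hπ]
    apply Ideal.mul_mem_right
    have : (((p : ℤ) ^ (n - c) : ℤ) : T) = (p : T) ^ (n - c) := by push_cast; rfl
    rw [this]
    exact Ideal.pow_mem_pow hpT _
  obtain ⟨u, hu⟩ := hu
  have : π t = (↑u⁻¹ : T) * (((m' : ℤ) : T) * π t) := by
    rw [← mul_assoc, ← hu, Units.inv_mul, one_mul]
  rw [this]
  exact Ideal.mul_mem_left _ _ hmem

end Fermat.Agent.S31.H18
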