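import Mathlib
import Fermat.Agent.S14.H31_FrobCongr

set_option autoImplicit false
set_option linter.style.haveILetI false

namespace Fermat.Agent.S31.H18

local notation "Qb" => AlgebraicClosure ℚ
local notation "GQ" => (AlgebraicClosure ℚ ≃ₐ[ℚ] AlgebraicClosure ℚ)

/-- **Frobenius approximation.** Every `g ∈ G_ℚ` is `φ ^ j * ν` with `φ` a Frobenius element at a
prime `ℓ ∉ bad` and `ν` fixing a prescribed finite extension `F`. -/
theorem exists_frobenius_pow_mul (F : IntermediateField ℚ Qb) [FiniteDimensional ℚ F] (g : GQ)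
    (bad : Finset ℕ) :
    ∃ (ℓ : ℕ) (A : ValuationSubring Qb) (φ : GQ) (j : ℕ) (ν : GQ), ℓ.Prime ∧ ℓ ∉ bad ∧
      A.LiesOverPrime ℓ ∧ A.IsFrobeniusAt φ ℓ ∧ g = φ ^ j * ν ∧ ∀ x ∈ F, ν x = x := by
  haveI : Normal ℚ Qb := (Fermat.Agent.S54.H69.isGaloisQb).to_normal
  set N : IntermediateField ℚ Qb := IntermediateField.normalClosure ℚ ↥F Qb with hN
  haveI hNn : Normal ℚ ↥N := normalClosure.normal ℚ ↥F Qb
  haveI : FiniteDimensional ℚ ↥N := normalClosure.is_finiteDimensional ℚ ↥F Qb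
  set Ψ : GQ →* (↥N ≃ₐ[ℚ] ↥N) := AlgEquiv.restrictNormalHom ↥N with hΨ
  have hker : N.fixingSubgroup ≤ Ψ.ker := (IntermediateField.restrictNormalHom_ker N).ge
  obtain ⟨ℓ, A, φ, z, -, hℓ, hℓbad, hA1, hA2, -, hz⟩ :=
    S14.H31.exists_isFrobeniusAt_map_eq_zpow N Ψ hker g bad
  have hfin : IsOfFinOrder (Ψ φ) := isOfFinOrder_of_finite _
  set d := orderOf (Ψ φ) with hd
  have hdpos : 0 < d := hfin.orderOf_pos
  set j : ℕ := (z % (d : ℤ)).toNat with hj
  have hjz : ((j : ℕ) : ℤ) = z % (d : ℤ) :=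
    Int.toNat_of_nonneg (Int.emod_nonneg _ (by exact_mod_cast hdpos.ne'))
  have hpow : Ψ g = Ψ (φ ^ j) := by
    rw [hz, map_pow, ← zpow_natCast, hjz, zpow_mod_orderOf]
  refine ⟨ℓ, A, φ, j, (φ ^ j)⁻¹ * g, hℓ, hℓbad, hA1, hA2, by group, ?_⟩
  have hmem : (φ ^ j)⁻¹ * g ∈ Ψ.ker := by
    rw [MonoidHom.mem_ker, map_mul, map_inv, hpow, inv_mul_cancel]
  have hmem' : (φ ^ j)⁻¹ * g ∈ N.fixingSubgroup :=
    (IntermediateField.restrictNormalHom_ker N).le hmem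
  intro x hx
  have hxN : x ∈ N := IntermediateField.le_normalClosure F hx
  exact (IntermediateField.mem_fixingSubgroup_iff N _).mp hmem' x hxN

end Fermat.Agent.S31.H18
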