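import Mathlib
import Fermat.Agent.S14.H31_FrobCyclo
import Fermat.Agent.S05.H38_Gal

set_option autoImplicit false

open Module

namespace Fermat.Agent.S31.H18

section TraceMem

variable {T V : Type*} [CommRing T] [AddCommGroup V] [Module T V] [Module.Free T V]
  [Module.Finite T V]

/-- The trace of an endomorphism with image in `I • V` lies in `I`. -/
theorem trace_mem_of_forall_mem_smul (I : Ideal T) (W : Module.End T V)
    (h : ∀ v, W v ∈ I • (⊤ : Submodule T V)) : LinearMap.trace T V W ∈ I := by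
  classical
  let b := Module.Free.chooseBasis T V
  rw [LinearMap.trace_eq_matrix_trace T b, Matrix.trace]
  refine Ideal.sum_mem _ fun i _ => ?_
  rw [Matrix.diag_apply, LinearMap.toMatrix_apply]
  have key : ∀ x ∈ I • (⊤ : Submodule T V), b.repr x i ∈ I := by
    intro x hx
    refine Submodule.smul_induction_on (p := fun x => b.repr x i ∈ I) hx ?_ ?_
    · intro a ha w _
      rw [map_smul, Finsupp.smul_apply, smul_eq_mul]
      exact Ideal.mul_mem_right _ _ ha
    · intro x y hx hy
      rw [map_add, Finsupp.add_apply]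
      exact Ideal.add_mem _ hx hy
  exact key _ (h _)

omit [Module.Free T V] [Module.Finite T V] in
/-- A linear map preserves `I • ⊤`. -/
theorem map_mem_smul_top (I : Ideal T) (W : Module.End T V) {x : V}
    (hx : x ∈ I • (⊤ : Submodule T V)) : W x ∈ I • (⊤ : Submodule T V) := by
  refine Submodule.smul_induction_on (p := fun x => W x ∈ I • (⊤ : Submodule T V)) hx ?_ ?_
  · intro a ha w _
    rw [map_smul]
    exact Submodule.smul_mem_smul ha Submodule.mem_top
  · intro x y hx hy
    rw [map_add]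
    exact Submodule.add_mem _ hx hy

end TraceMem

section Inertia

variable {K L : Type*} [Field K] [Field L] [Algebra K L]

/-- A root of unity of order prime to the residue characteristic which is congruent to `1`
modulo the maximal ideal is `1`. -/
theorem eq_one_of_sub_one_mem_nonunits {A : ValuationSubring L} {q M : ℕ}
    (hqA : (q : L) ∈ A.nonunits) (hqM : q.Coprime M) (hM : M ≠ 0) {η : L} (hη : η ^ M = 1)
    (hmem : η - 1 ∈ A.nonunits) : η = 1 := by
  by_contra hne
  have hfin : IsOfFinOrder η := isOfFinOrder_iff_pow_eq_one.mpr ⟨M, Nat.pos_of_ne_zero hM, hη⟩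
  have hprim : IsPrimitiveRoot η (orderOf η) := IsPrimitiveRoot.orderOf η
  have hd : orderOf η ∣ M := orderOf_dvd_of_pow_eq_one hη
  have hd0 : orderOf η ≠ 0 := fun h => hM (by rw [h, zero_dvd_iff] at hd; exact hd)
  have hd1 : orderOf η ≠ 1 := fun h => hne (orderOf_eq_one_iff.mp h)
  obtain ⟨n, hn⟩ : ∃ n, orderOf η = n + 1 := ⟨orderOf η - 1, by omega⟩
  have hn0 : 0 < n := by omega
  rw [hn] at hprim
  have hprod := hprim.prod_one_sub_pow_eq_order
  have hηA : η ∈ A := S14.H31.mem_valuationSubring_of_pow_eq_one A hM hη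
  have hmemd : ((n + 1 : ℕ) : L) ∈ A.nonunits := by
    rw [Nat.cast_add, Nat.cast_one, ← hprod,
      ← Finset.mul_prod_erase _ _ (Finset.mem_range.mpr hn0), ValuationSubring.mem_nonunits_iff,
      map_mul]
    have h1 : A.valuation (1 - η ^ (0 + 1)) < 1 := by
      rw [zero_add, pow_one, ← ValuationSubring.mem_nonunits_iff]
      have : (1 : L) - η = -(η - 1) := by ring
      rw [this, ValuationSubring.mem_nonunits_iff, Valuation.map_neg,
        ← ValuationSubring.mem_nonunits_iff]
      exact hmem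
    have h2 : A.valuation (∏ x ∈ (Finset.range n).erase 0, (1 - η ^ (x + 1))) ≤ 1 := by
      rw [A.valuation_le_one_iff]
      exact prod_mem fun i _ => sub_mem (one_mem A) (pow_mem hηA _)
    exact mul_lt_one_of_lt_of_le h1 h2
  have hcop : q.Coprime (n + 1) := by
    rw [← hn]; exact Nat.Coprime.coprime_dvd_right hd hqM
  exact S14.H31.natCast_not_mem_nonunits_of_coprime hqA hcop hmemd

/-- **Inertia fixes roots of unity of order prime to the residue characteristic.** -/
theorem inertia_apply_eq_of_pow_eq_one {A : ValuationSubring L} {q M : ℕ}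
    (hqA : (q : L) ∈ A.nonunits) (hqM : q.Coprime M) (hM : M ≠ 0) {τ : L ≃ₐ[K] L}
    (hτ : τ ∈ A.inertiaSubgroupIn K) {ζ : L} (hζ : ζ ^ M = 1) : τ ζ = ζ := by
  have hζA : ζ ∈ A := S14.H31.mem_valuationSubring_of_pow_eq_one A hM hζ
  have hζ0 : ζ ≠ 0 := by
    intro h
    rw [h, zero_pow hM] at hζ
    exact zero_ne_one hζ
  have h1 := S05.H38.apply_sub_mem_nonunits_of_mem_inertiaSubgroupIn hτ hζA
  have hη : (τ ζ * ζ⁻¹) ^ M = 1 := by
    rw [mul_pow, ← map_pow, inv_pow, hζ, map_one, inv_one, mul_one]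
  have hinvA : ζ⁻¹ ∈ A := by
    have : ζ⁻¹ = ζ ^ (M - 1) := by
      apply inv_eq_of_mul_eq_one_right
      rw [← pow_succ', Nat.sub_add_cancel (Nat.pos_of_ne_zero hM), hζ]
    rw [this]; exact pow_mem hζA _
  have hmem : τ ζ * ζ⁻¹ - 1 ∈ A.nonunits := by
    have : τ ζ * ζ⁻¹ - 1 = (τ ζ - ζ) * ζ⁻¹ := by
      rw [sub_mul, mul_inv_cancel₀ hζ0]
    rw [this, ValuationSubring.mem_nonunits_iff, map_mul]
    rw [ValuationSubring.mem_nonunits_iff] at h1
    exact mul_lt_one_of_lt_of_le h1 ((A.valuation_le_one_iff _).mpr hinvA)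
  have := eq_one_of_sub_one_mem_nonunits hqA hqM hM hη hmem
  rw [mul_inv_eq_one₀ hζ0] at this
  exact this

end Inertia

end Fermat.Agent.S31.H18
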