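import Mathlib

set_option autoImplicit false

open Module Polynomial

namespace Fermat.Agent.S31.H18

/-- Power sums `α ^ j + β ^ j` as a polynomial in `t = α + β`, `d = α β` (Lucas `V`-sequence). -/
def lucasV {R : Type*} [Ring R] (t d : R) : ℕ → R
  | 0 => 2
  | 1 => t
  | (j + 2) => t * lucasV t d (j + 1) - d * lucasV t d j

@[simp] theorem lucasV_zero {R : Type*} [Ring R] (t d : R) : lucasV t d 0 = 2 := rfl
@[simp] theorem lucasV_one {R : Type*} [Ring R] (t d : R) : lucasV t d 1 = t := rfl
theorem lucasV_add_two {R : Type*} [Ring R] (t d : R) (j : ℕ) :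
    lucasV t d (j + 2) = t * lucasV t d (j + 1) - d * lucasV t d j := rfl

theorem map_lucasV {R R' : Type*} [Ring R] [Ring R'] (f : R →+* R') (t d : R) (j : ℕ) :
    f (lucasV t d j) = lucasV (f t) (f d) j := by
  induction j using Nat.twoStepInduction with
  | zero => simp [map_ofNat]
  | one => simp
  | more j h0 h1 => rw [lucasV_add_two, lucasV_add_two, map_sub, map_mul, map_mul, h0, h1]

theorem lucasV_add_mul {R : Type*} [Ring R] {α β : R} (h : Commute α β) (j : ℕ) :
    lucasV (α + β) (α * β) j = α ^ j + β ^ j := by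
  induction j using Nat.twoStepInduction with
  | zero => simp; norm_num
  | one => simp
  | more j h0 h1 =>
    rw [lucasV_add_two, h0, h1]
    have e1 : α * β ^ (j + 1) = α * β * β ^ j := by rw [pow_succ', mul_assoc]
    have e2 : β * α ^ (j + 1) = α * β * α ^ j := by rw [pow_succ', ← mul_assoc, h.eq]
    have e3 : α * α ^ (j + 1) = α ^ (j + 2) := by rw [← pow_succ']
    have e4 : β * β ^ (j + 1) = β ^ (j + 2) := by rw [← pow_succ']
    rw [add_mul, mul_add, mul_add, mul_add, e1, e2, e3, e4]
    abel

section Trace

variable {T V : Type*} [CommRing T] [AddCommGroup V] [Module T V] [Module.Free T V]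
  [Module.Finite T V]

/-- The trace of a rank-2 endomorphism read off from its characteristic polynomial. -/
theorem trace_eq_of_charpoly (hV : Module.finrank T V = 2) (Φ : Module.End T V) (t d : T)
    (hchar : Φ.charpoly = X ^ 2 - C t * X + C d) : LinearMap.trace T V Φ = t := by
  classical
  rcases subsingleton_or_nontrivial T with hT | hT
  · exact Subsingleton.elim _ _
  let b : Basis (Fin 2) T V := Module.finBasisOfFinrankEq T V hV
  rw [LinearMap.trace_eq_matrix_trace T b, Matrix.trace_eq_neg_charpoly_coeff,
    LinearMap.charpoly_toMatrix, hchar]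
  simp [coeff_X_pow]

/-- Cayley–Hamilton recursion for traces of powers. -/
theorem trace_pow_eq_lucasV (hV : Module.finrank T V = 2) (Φ : Module.End T V) (t d : T)
    (hchar : Φ.charpoly = X ^ 2 - C t * X + C d) (j : ℕ) :
    LinearMap.trace T V (Φ ^ j) = lucasV t d j := by
  have hCH : Φ ^ 2 = t • Φ - d • (1 : Module.End T V) := by
    have h := LinearMap.aeval_self_charpoly Φ
    rw [hchar] at h
    simp only [map_add, map_sub, map_mul, map_pow, aeval_X, aeval_C] at h
    rw [sub_add, sub_eq_zero] at h
    rw [h, Algebra.algebraMap_eq_smul_one, Algebra.algebraMap_eq_smul_one, smul_mul_assoc, one_mul]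
  induction j using Nat.twoStepInduction with
  | zero =>
    rw [pow_zero, LinearMap.trace_one, hV, lucasV_zero]; norm_num
  | one => rw [pow_one, lucasV_one, trace_eq_of_charpoly hV Φ t d hchar]
  | more j h0 h1 =>
    have : Φ ^ (j + 2) = t • Φ ^ (j + 1) - d • Φ ^ j := by
      rw [pow_add, hCH, mul_sub, mul_smul_comm, mul_smul_comm, mul_one, ← pow_succ]
    rw [this, map_sub, map_smul, map_smul, h0, h1, lucasV_add_two, smul_eq_mul, smul_eq_mul]

end Trace

end Fermat.Agent.S31.H18
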