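import Mathlib
import Fermat.Prelude.Def_GaloisRep_Adic
import Fermat.Agent.S31.H18_Aux
import Fermat.Agent.S31.H18_Lucas
import Fermat.Agent.S31.H18_Approx

set_option autoImplicit false
set_option linter.style.haveILetI false

open Module Polynomial IsLocalRing

namespace Fermat.Agent.S31.H18

local notation "Qb" => AlgebraicClosure ℚ
local notation "GQ" => (AlgebraicClosure ℚ ≃ₐ[ℚ] AlgebraicClosure ℚ)

/-- **The torsion model at level `n`** (the geometric input): an abelian group `X` killed by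
`p ^ n` (think `J₀(N)[pⁿ]`) with a `G_ℚ`-action, of finite level on the `G_ℚ`-span of the image
of `lam`, unramified outside `bad`,
satisfying the Eichler–Shimura relation for the operators `Tbar ℓ`, together with an additive
map `lam : L → X` with kernel `pⁿ L` intertwining `TL ℓ` with `Tbar ℓ`. -/
structure TorsionModel (L : Type) [AddCommGroup L] (TL : ℕ → Module.End ℤ L) (p : ℕ)
    (bad : Finset ℕ) (n : ℕ) : Type 1 where
  X : Type
  [instX : AddCommGroup X]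
  act : GQ →* Module.End ℤ X
  Tbar : ℕ → Module.End ℤ X
  lam : L →ₗ[ℤ] X
  lam_ker : ∀ x, lam x = 0 → ∃ y, x = (p ^ n : ℤ) • y
  lam_hecke : ∀ ℓ, ℓ.Prime → ℓ ∉ bad → ∀ x, lam (TL ℓ x) = Tbar ℓ (lam x)
  torsion : ∀ x : X, (p ^ n) • x = 0
  finite_level : ∃ F : IntermediateField ℚ Qb, FiniteDimensional ℚ F ∧
    ∀ σ : GQ, (∀ x ∈ F, σ x = x) → ∀ (g : GQ) (y : L), act σ (act g (lam y)) = act g (lam y)
  unramified : ∀ q, q.Prime → q ∉ bad → ∀ P : ValuationSubring Qb, P.LiesOverPrime q →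
    ∀ τ ∈ P.inertiaSubgroupIn ℚ, act τ = 1
  eichlerShimura : ∀ ℓ, ℓ.Prime → ℓ ∉ bad → ∀ A : ValuationSubring Qb, A.LiesOverPrime ℓ →
    ∀ φ : GQ, A.IsFrobeniusAt φ ℓ → ∀ x, act φ (act φ x) - Tbar ℓ (act φ x) + ℓ • x = 0

attribute [instance] TorsionModel.instX

namespace TorsionModel

variable {L : Type} [AddCommGroup L] {TL : ℕ → Module.End ℤ L} {p : ℕ} {bad : Finset ℕ} {n : ℕ}
  (Mo : TorsionModel L TL p bad n)

/-- On the torsion model, the power-sum polynomial of `Tbar ℓ` is `φ ^ j + ℓ ^ j φ ^ (-j)`. -/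
theorem lucasV_Tbar_apply {ℓ : ℕ} (hℓ : ℓ.Prime) (hbad : ℓ ∉ bad) {A : ValuationSubring Qb}
    (hA : A.LiesOverPrime ℓ) {φ : GQ} (hφ : A.IsFrobeniusAt φ ℓ) (j : ℕ) (x : Mo.X) :
    lucasV (Mo.Tbar ℓ) (ℓ : Module.End ℤ Mo.X) j x
      = Mo.act (φ ^ j) x + (ℓ ^ j) • Mo.act ((φ ^ j)⁻¹) x := by
  set α : Module.End ℤ Mo.X := Mo.act φ with hα
  set αi : Module.End ℤ Mo.X := Mo.act φ⁻¹ with hαi
  have h1 : α * αi = 1 := by rw [hα, hαi, ← map_mul, mul_inv_cancel, map_one]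
  have h2 : αi * α = 1 := by rw [hα, hαi, ← map_mul, inv_mul_cancel, map_one]
  set β : Module.End ℤ Mo.X := (ℓ : Module.End ℤ Mo.X) * αi with hβ
  have hαβ : α * β = (ℓ : Module.End ℤ Mo.X) := by
    rw [hβ, ← mul_assoc, (Nat.cast_commute ℓ α).eq.symm, mul_assoc, h1, mul_one]
  have hβα : β * α = (ℓ : Module.End ℤ Mo.X) := by
    rw [hβ, mul_assoc, h2, mul_one]
  have hcomm : Commute α β := by rw [Commute, SemiconjBy, hαβ, hβα]
  have hsum : Mo.Tbar ℓ = α + β := by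
    refine LinearMap.ext fun y => ?_
    have hES := Mo.eichlerShimura ℓ hℓ hbad A hA φ hφ (αi y)
    have e1 : Mo.act φ (αi y) = y := by
      have := congrArg (fun f : Module.End ℤ Mo.X => f y) h1
      simpa [Module.End.mul_apply] using this
    rw [e1] at hES
    rw [LinearMap.add_apply, hβ, Module.End.mul_apply, Module.End.natCast_apply]
    have : Mo.Tbar ℓ y = α y + ℓ • αi y := by
      rw [sub_add_eq_add_sub, sub_eq_zero] at hES
      exact hES.symm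
    exact this
  rw [hsum, ← hαβ, lucasV_add_mul hcomm, LinearMap.add_apply, hβ,
    (Nat.cast_commute ℓ αi).mul_pow, Module.End.mul_apply, ← Nat.cast_pow,
    Module.End.natCast_apply, hα, hαi, ← map_pow, ← map_pow, inv_pow]

/-- Transport of the power-sum polynomial along `lam`. -/
theorem lam_lucasV {ℓ : ℕ} (hℓ : ℓ.Prime) (hbad : ℓ ∉ bad) (j : ℕ) (x : L) :
    Mo.lam (lucasV (TL ℓ) (ℓ : Module.End ℤ L) j x)
      = lucasV (Mo.Tbar ℓ) (ℓ : Module.End ℤ Mo.X) j (Mo.lam x) := by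
  induction j using Nat.twoStepInduction generalizing x with
  | zero =>
    simp only [lucasV_zero]
    have h1 : ((2 : Module.End ℤ L)) x = (2 : ℕ) • x := by
      rw [show (2 : Module.End ℤ L) = ((2 : ℕ) : Module.End ℤ L) by norm_num,
        Module.End.natCast_apply]
    have h2 : ((2 : Module.End ℤ Mo.X)) (Mo.lam x) = (2 : ℕ) • Mo.lam x := by
      rw [show (2 : Module.End ℤ Mo.X) = ((2 : ℕ) : Module.End ℤ Mo.X) by norm_num,
        Module.End.natCast_apply]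
    rw [h1, h2, map_nsmul]
  | one => simp only [lucasV_one]; exact Mo.lam_hecke ℓ hℓ hbad x
  | more j h0 h1 =>
    rw [lucasV_add_two, lucasV_add_two, LinearMap.sub_apply, LinearMap.sub_apply, map_sub,
      Module.End.mul_apply, Module.End.mul_apply, Module.End.mul_apply,
      Module.End.mul_apply, Mo.lam_hecke ℓ hℓ hbad, h1, Module.End.natCast_apply,
      Module.End.natCast_apply, map_nsmul, h0]

end TorsionModel


section Main

variable {T : Type} [CommRing T] [IsLocalRing T] (ρ : GaloisRepAdic T)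
  {R₀ : Type*} [CommRing R₀] (π : R₀ →+* T) (Th : ℕ → R₀)

/-- One-sided estimate: `tr ρ(φ ^ j ν) ≡ π (V_j(T_ℓ, ℓ))` modulo `𝔪 ^ k` when `ρ ν ≡ 1`. -/
theorem trace_sub_mem (k : ℕ) {ℓ : ℕ} {φ : GQ}
    (hchar : LinearMap.charpoly (ρ.ρ φ) = X ^ 2 - C (π (Th ℓ)) * X + C (ℓ : T))
    (j : ℕ) (ν : GQ)
    (hν : ∀ v : ρ.V, ρ.ρ ν v - v ∈ (maximalIdeal T ^ k) • (⊤ : Submodule T ρ.V)) :
    ρ.trace (φ ^ j * ν) - π (lucasV (Th ℓ) (ℓ : R₀) j) ∈ maximalIdeal T ^ k := by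
  have h1 : π (lucasV (Th ℓ) (ℓ : R₀) j) = LinearMap.trace T ρ.V (ρ.ρ φ ^ j) := by
    rw [map_lucasV, map_natCast, trace_pow_eq_lucasV ρ.finrank_eq (ρ.ρ φ) _ _ hchar]
  have h2 : ρ.trace (φ ^ j * ν) - π (lucasV (Th ℓ) (ℓ : R₀) j)
      = LinearMap.trace T ρ.V (ρ.ρ φ ^ j * (ρ.ρ ν - 1)) := by
    rw [h1, GaloisRepAdic.trace, map_mul, map_pow, mul_sub, mul_one, map_sub]
  rw [h2]
  apply trace_mem_of_forall_mem_smul
  intro v
  rw [Module.End.mul_apply, LinearMap.sub_apply, Module.End.one_apply]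
  exact map_mem_smul_top _ _ (hν v)

end Main


section Cyclo

/-- Iterating `φ ζ = ζ ^ ℓ`. -/
theorem pow_apply_root {φ : GQ} {ζ : Qb} {ℓ : ℕ} (h : φ ζ = ζ ^ ℓ) (j : ℕ) :
    (φ ^ j) ζ = ζ ^ (ℓ ^ j) := by
  induction j with
  | zero => simp
  | succ j ih =>
    rw [pow_succ', AlgEquiv.mul_apply, ih, map_pow, h, ← pow_mul, ← pow_succ']

theorem nsmul_eq_of_modEq {X : Type*} [AddCommGroup X] {a b m : ℕ} (h : a ≡ b [MOD m]) {y : X}
    (hy : m • y = 0) : a • y = b • y := by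
  have key : ∀ c : ℕ, c • y = (c % m) • y := by
    intro c
    conv_lhs => rw [← Nat.div_add_mod c m, add_smul, mul_comm, mul_smul, hy, smul_zero, zero_add]
  rw [key a, key b, h]

/-- Two-sided inverses in a monoid are unique. -/
theorem inv_unique_of_eq {M : Type*} [Monoid M] {a a' b b' : M} (h : a = a') (h1 : b * a = 1)
    (h2 : a' * b' = 1) : b = b' := by
  calc b = b * (a' * b') := by rw [h2, mul_one]
    _ = (b * a) * b' := by rw [← h, mul_assoc]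
    _ = b' := by rw [h1, one_mul]

end Cyclo

section MainThm

variable {T : Type} [CommRing T] [IsLocalRing T] [IsNoetherianRing T] (ρ : GaloisRepAdic T)
  {R₀ : Type*} [CommRing R₀] (π : R₀ →+* T) (Th : ℕ → R₀)
  {L : Type} [AddCommGroup L] (rep : R₀ →+* Module.End ℤ L)
  {p : ℕ} (bad : Finset ℕ)

/-- **Trace invariance under inertia.** -/
theorem trace_mul_eq_of_mem_inertia (hp : p.Prime) (hpbad : p ∈ bad)
    (hchar : ∀ ℓ, ℓ.Prime → ℓ ∉ bad → ∀ A : ValuationSubring Qb, A.LiesOverPrime ℓ →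
      ∀ φ : GQ, A.IsFrobeniusAt φ ℓ →
        LinearMap.charpoly (ρ.ρ φ) = X ^ 2 - C (π (Th ℓ)) * X + C (ℓ : T))
    (hstar : ∀ k : ℕ, ∃ n : ℕ, ∀ t : R₀, (∀ x : L, ∃ y : L, rep t x = (p ^ n : ℤ) • y) →
      π t ∈ maximalIdeal T ^ k)
    (hmodel : ∀ n : ℕ, Nonempty (TorsionModel L (fun ℓ => rep (Th ℓ)) p bad n))
    {q : ℕ} (hq : q.Prime) (hqbad : q ∉ bad) {P : ValuationSubring Qb} (hP : P.LiesOverPrime q)
    {τ : GQ} (hτ : τ ∈ P.inertiaSubgroupIn ℚ) (g : GQ) :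
    ρ.trace (τ * g) = ρ.trace g := by
  -- Krull intersection
  rw [← sub_eq_zero]
  have hkrull := Ideal.iInf_pow_eq_bot_of_isLocalRing (maximalIdeal T) Ideal.IsPrime.ne_top'
  rw [← Ideal.mem_bot, ← hkrull, Ideal.mem_iInf]
  intro k
  obtain ⟨n, hn⟩ := hstar k
  obtain ⟨Mo⟩ := hmodel n
  obtain ⟨FX, hFXfin, hFX⟩ := Mo.finite_level
  obtain ⟨Fρ, hFρfin, hFρ⟩ := ρ.isAdicContinuous k
  -- a primitive `p ^ n`-th root of unity
  have hpn0 : p ^ n ≠ 0 := pow_ne_zero _ hp.ne_zero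
  haveI : NeZero ((p ^ n : ℕ) : Qb) := ⟨by exact_mod_cast hpn0⟩
  obtain ⟨ζ, hζ⟩ := HasEnoughRootsOfUnity.exists_primitiveRoot Qb (p ^ n)
  have hζint : IsIntegral ℚ ζ := (hζ.isIntegral (Nat.pos_of_ne_zero hpn0)).tower_top
  haveI : FiniteDimensional ℚ (IntermediateField.adjoin ℚ {ζ}) :=
    IntermediateField.adjoin.finiteDimensional hζint
  set F : IntermediateField ℚ Qb := (FX ⊔ Fρ) ⊔ IntermediateField.adjoin ℚ {ζ} with hFdef
  haveI : FiniteDimensional ℚ (FX ⊔ Fρ : IntermediateField ℚ Qb) :=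
    IntermediateField.finiteDimensional_sup _ _
  haveI : FiniteDimensional ℚ F := IntermediateField.finiteDimensional_sup _ _
  have hFX' : ∀ ν : GQ, (∀ x ∈ F, ν x = x) → ∀ (g : GQ) (y : L),
      Mo.act ν (Mo.act g (Mo.lam y)) = Mo.act g (Mo.lam y) := fun ν hν =>
    hFX ν fun x hx => hν x ((le_sup_left.trans le_sup_left : FX ≤ F) hx)
  have hFρ' : ∀ ν : GQ, (∀ x ∈ F, ν x = x) → ∀ v : ρ.V,
      ρ.ρ ν v - v ∈ (maximalIdeal T ^ k) • (⊤ : Submodule T ρ.V) := fun ν hν =>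
    hFρ ν fun x hx => hν x ((le_sup_right.trans le_sup_left : Fρ ≤ F) hx)
  have hFζ' : ∀ ν : GQ, (∀ x ∈ F, ν x = x) → ν ζ = ζ := fun ν hν =>
    hν ζ ((le_sup_right : IntermediateField.adjoin ℚ {ζ} ≤ F)
      (IntermediateField.mem_adjoin_simple_self ℚ ζ))
  -- approximate `g` and `τ * g`
  obtain ⟨ℓ, A, φ, j, ν, hℓ, hℓbad, hA1, hA2, hg, hν⟩ := exists_frobenius_pow_mul F g bad
  obtain ⟨ℓ', A', φ', j', ν', hℓ', hℓbad', hA1', hA2', hg', hν'⟩ :=
    exists_frobenius_pow_mul F (τ * g) bad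
  -- the three estimates
  have e1 := trace_sub_mem ρ π Th k (hchar ℓ hℓ hℓbad A hA1 φ hA2) j ν (hFρ' ν hν)
  have e2 := trace_sub_mem ρ π Th k (hchar ℓ' hℓ' hℓbad' A' hA1' φ' hA2') j' ν' (hFρ' ν' hν')
  rw [← hg] at e1
  rw [← hg'] at e2
  -- the Hecke difference kills the torsion model
  have hne : ∀ {r : ℕ}, r.Prime → r ∉ bad → r.Coprime (p ^ n) := by
    intro r hr hrbad
    apply Nat.Coprime.pow_right
    rw [Nat.coprime_primes hr hp]
    rintro rfl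
    exact hrbad hpbad
  have hφζ : φ ζ = ζ ^ ℓ :=
    S14.H31.map_primitiveRoot_of_isFrobeniusAt hA1 hA2 hζ (hne hℓ hℓbad)
  have hφζ' : φ' ζ = ζ ^ ℓ' :=
    S14.H31.map_primitiveRoot_of_isFrobeniusAt hA1' hA2' hζ (hne hℓ' hℓbad')
  have hgζ : g ζ = ζ ^ (ℓ ^ j) := by
    rw [hg, AlgEquiv.mul_apply, hFζ' ν hν, pow_apply_root hφζ]
  have hτgζ : (τ * g) ζ = ζ ^ (ℓ' ^ j') := by
    rw [hg', AlgEquiv.mul_apply, hFζ' ν' hν', pow_apply_root hφζ']
  have hτfix : τ (ζ ^ (ℓ ^ j)) = ζ ^ (ℓ ^ j) := by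
    apply inertia_apply_eq_of_pow_eq_one (K := ℚ) hP (hne hq hqbad) hpn0 hτ
    rw [← pow_mul, mul_comm, pow_mul, hζ.pow_eq_one, one_pow]
  have hmod : ℓ ^ j ≡ ℓ' ^ j' [MOD p ^ n] := by
    have : ζ ^ (ℓ ^ j) = ζ ^ (ℓ' ^ j') := by
      rw [← hτgζ, AlgEquiv.mul_apply, hgζ, hτfix]
    have hζ0 : ζ ≠ 0 := hζ.ne_zero hpn0
    have hz : ζ ^ (((ℓ' ^ j' : ℕ) : ℤ) - ((ℓ ^ j : ℕ) : ℤ)) = 1 := by
      rw [zpow_sub₀ hζ0, zpow_natCast, zpow_natCast, this, div_self (pow_ne_zero _ hζ0)]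
    have hdvd := (hζ.zpow_eq_one_iff_dvd _).mp hz
    exact (Nat.modEq_iff_dvd).mpr hdvd
  have hactτ : Mo.act τ = 1 := Mo.unramified q hq hqbad P hP τ hτ
  have hactτi : Mo.act τ⁻¹ = 1 :=
    Mo.unramified q hq hqbad P hP τ⁻¹ (inv_mem hτ)
  have hinvfix : ∀ {ν : GQ}, (∀ x ∈ F, ν x = x) → ∀ x ∈ F, ν⁻¹ x = x := by
    intro ν hν x hx
    have h1 : ν⁻¹ (ν x) = x := by
      rw [← AlgEquiv.mul_apply, inv_mul_cancel, AlgEquiv.one_apply]
    rw [hν x hx] at h1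
    exact h1
  have hX : ∀ y : L, lucasV (Mo.Tbar ℓ) (ℓ : Module.End ℤ Mo.X) j (Mo.lam y)
      = lucasV (Mo.Tbar ℓ') (ℓ' : Module.End ℤ Mo.X) j' (Mo.lam y) := by
    intro y
    -- `φ ^ j` and `g` agree on the image of `lam`, and so do their inverses
    have a1 : Mo.act (φ ^ j) (Mo.lam y) = Mo.act g (Mo.lam y) := by
      conv_rhs => rw [hg, map_mul, Module.End.mul_apply]
      have := hFX' ν hν 1 y
      rw [map_one, Module.End.one_apply] at this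
      rw [this]
    have a2 : Mo.act ((φ ^ j)⁻¹) (Mo.lam y) = Mo.act g⁻¹ (Mo.lam y) := by
      have hgi : g⁻¹ = ν⁻¹ * (φ ^ j)⁻¹ := by rw [hg, mul_inv_rev]
      conv_rhs => rw [hgi, map_mul, Module.End.mul_apply]
      exact (hFX' ν⁻¹ (hinvfix hν) _ y).symm
    have a3 : Mo.act (φ' ^ j') (Mo.lam y) = Mo.act g (Mo.lam y) := by
      have h1 : Mo.act (τ * g) (Mo.lam y) = Mo.act g (Mo.lam y) := by
        rw [map_mul, hactτ, one_mul]
      rw [← h1]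
      conv_rhs => rw [hg', map_mul, Module.End.mul_apply]
      have := hFX' ν' hν' 1 y
      rw [map_one, Module.End.one_apply] at this
      rw [this]
    have a4 : Mo.act ((φ' ^ j')⁻¹) (Mo.lam y) = Mo.act g⁻¹ (Mo.lam y) := by
      have h1 : Mo.act (τ * g)⁻¹ (Mo.lam y) = Mo.act g⁻¹ (Mo.lam y) := by
        rw [mul_inv_rev, map_mul, hactτi, mul_one]
      rw [← h1]
      have hgi : (τ * g)⁻¹ = ν'⁻¹ * (φ' ^ j')⁻¹ := by rw [hg', mul_inv_rev]
      conv_rhs => rw [hgi, map_mul, Module.End.mul_apply]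
      exact (hFX' ν'⁻¹ (hinvfix hν') _ y).symm
    rw [Mo.lucasV_Tbar_apply hℓ hℓbad hA1 hA2, Mo.lucasV_Tbar_apply hℓ' hℓbad' hA1' hA2', a1, a2,
      a3, a4, nsmul_eq_of_modEq hmod (Mo.torsion _)]
  -- hence the Hecke difference maps `L` into `p ^ n L`
  set t : R₀ := lucasV (Th ℓ) (ℓ : R₀) j - lucasV (Th ℓ') (ℓ' : R₀) j' with ht
  have htL : ∀ x : L, ∃ y : L, rep t x = (p ^ n : ℤ) • y := by
    intro x
    apply Mo.lam_ker
    rw [ht, map_sub, map_lucasV, map_lucasV, map_natCast, map_natCast, LinearMap.sub_apply,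
      map_sub, Mo.lam_lucasV hℓ hℓbad, Mo.lam_lucasV hℓ' hℓbad', hX x, sub_self]
  have e3 := hn t htL
  rw [ht, map_sub] at e3
  -- combine
  have : ρ.trace (τ * g) - ρ.trace g
      = (ρ.trace (τ * g) - π (lucasV (Th ℓ') (ℓ' : R₀) j'))
        - (ρ.trace g - π (lucasV (Th ℓ) (ℓ : R₀) j))
        - (π (lucasV (Th ℓ) (ℓ : R₀) j) - π (lucasV (Th ℓ') (ℓ' : R₀) j')) := by ring
  rw [this]
  exact Ideal.sub_mem _ (Ideal.sub_mem _ e2 e1) e3

end MainThm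

end Fermat.Agent.S31.H18
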