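import Mathlib
import Fermat.Prelude.Def_CuspForm_HeckeGaloisRepDatum
import Fermat.Agent.S41.H85_HeckeModule
import Fermat.Agent.S31.H18_Carayol
import Fermat.Agent.S31.H18_Star
import Fermat.Agent.S31.H18_TraceDensity

set_option autoImplicit false

open CongruenceSubgroup ModularCurve ModularCurve.Period IsLocalRing Polynomial
open scoped MatrixGroups

namespace Fermat.Agent.S31.H18

local notation "Qb" => AlgebraicClosure ℚ
local notation "GQ" => (AlgebraicClosure ℚ ≃ₐ[ℚ] AlgebraicClosure ℚ)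

namespace TorsionModel

variable {L : Type} [AddCommGroup L] {TL TL' : ℕ → Module.End ℤ L} {p : ℕ} {bad bad' : Finset ℕ}
  {n : ℕ}

/-- Enlarging the bad set and changing the operators at bad indices. -/
def congr (Mo : TorsionModel L TL p bad n) (hbad : bad ⊆ bad')
    (hT : ∀ ℓ, ℓ.Prime → ℓ ∉ bad' → TL' ℓ = TL ℓ) : TorsionModel L TL' p bad' n where
  X := Mo.X
  act := Mo.act
  Tbar := Mo.Tbar
  lam := Mo.lam
  lam_ker := Mo.lam_ker
  lam_hecke := fun ℓ hℓ hℓb x => by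
    rw [hT ℓ hℓ hℓb]; exact Mo.lam_hecke ℓ hℓ (fun h => hℓb (hbad h)) x
  torsion := Mo.torsion
  finite_level := Mo.finite_level
  unramified := fun q hq hqb => Mo.unramified q hq (fun h => hqb (hbad h))
  eichlerShimura := fun ℓ hℓ hℓb => Mo.eichlerShimura ℓ hℓ (fun h => hℓb (hbad h))

end TorsionModel

variable (N : ℕ) [NeZero N]

/-- The Hecke operator `T_ℓ` on the integral parabolic lattice, totalised (zero at bad `ℓ`). -/
noncomputable def heckeTParTotal (ℓ : ℕ) : Module.End ℤ (parabolicHoms ℤ (Gamma0 N) ℤ) :=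
  if h : ℓ.Prime ∧ ¬ ℓ ∣ N then S41.H85.heckeTPar ℤ ℤ h.1 h.2 else 0

/-- **The geometric input of S31** (to be supplied by Stages 1–3): for every `n` a torsion model
of `L_N / pⁿ L_N` (think `J₀(N)[pⁿ]` with the Kummer injection), unramified and
Eichler–Shimura outside `N p`. -/
def TorsionPackage (p : ℕ) : Prop :=
  ∀ n : ℕ, Nonempty (TorsionModel (parabolicHoms ℤ (Gamma0 N) ℤ) (heckeTParTotal N) p
    (N * p).primeFactors n)

variable {N}

/-- The Hecke element `T_ℓ` of the prelude Hecke algebra, totalised. -/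
noncomputable def heckeTTotal (S : Set ℕ) (ℓ : ℕ) : CuspForm.heckeAlgebra N 2 S := by
  classical
  exact if h : ℓ.Prime ∧ ¬ ℓ ∣ N ∧ ℓ ∉ S then CuspForm.heckeAlgebra.T h.1 h.2.1 h.2.2 else 0

variable {p : ℕ} {S : Finset ℕ}
  {𝒪 : Type} [CommRing 𝒪] [IsDomain 𝒪] [IsDiscreteValuationRing 𝒪]
  [IsAdicComplete (IsLocalRing.maximalIdeal 𝒪) 𝒪]
  {θ : CuspForm.heckeAlgebra N 2 (↑S : Set ℕ) →+* IsLocalRing.ResidueField 𝒪}
  {T : Type} [CommRing T] [IsLocalRing T] [IsNoetherianRing T]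
  [IsAdicComplete (IsLocalRing.maximalIdeal T) T] [Algebra 𝒪 T] [IsLocalHom (algebraMap 𝒪 T)]
  [Module.Finite 𝒪 T] [Module.Free 𝒪 T]

/-- **S31 from the torsion package.** -/
theorem isUnramifiedAt_of_package (hpack : TorsionPackage N p) (hp : p.Prime)
    (hp𝒪 : (p : 𝒪) ∈ IsLocalRing.maximalIdeal 𝒪) (hpS : p ∈ S)
    (hNS : ∀ q : ℕ, q.Prime → q ∣ N → q ∈ S)
    (H : CuspForm.HeckeGaloisRepDatum N (↑S : Set ℕ) 𝒪 θ T)
    (q : ℕ) (hq : q.Prime) (hqS : q ∉ S) :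
    H.ρ.IsUnramifiedAt q := by
  classical
  intro P hP τ hτ
  apply rho_eq_one_of_trace_invariant H.ρ H.residual_absIrr τ
  intro g
  have hpT : (p : T) ∈ maximalIdeal T := by
    have h1 : algebraMap 𝒪 T (p : 𝒪) ∈ maximalIdeal T := by
      rw [mem_maximalIdeal, mem_nonunits_iff] at hp𝒪 ⊢
      exact fun h => hp𝒪 (isUnit_of_map_unit (algebraMap 𝒪 T) _ h)
    rwa [map_natCast] at h1
  have hsub : (N * p).primeFactors ⊆ S := by
    intro r hr
    obtain ⟨hr1, hr2, -⟩ := Nat.mem_primeFactors.mp hr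
    rcases (Nat.Prime.dvd_mul hr1).mp hr2 with h | h
    · exact hNS r hr1 h
    · rw [(Nat.prime_dvd_prime_iff_eq hr1 hp).mp h]; exact hpS
  have hnotdvd : ∀ ℓ : ℕ, ℓ.Prime → ℓ ∉ S → ¬ ℓ ∣ N := fun ℓ hℓ hℓS h => hℓS (hNS ℓ hℓ h)
  -- the star lemma
  obtain ⟨c, hc⟩ := exists_star (S41.H85.cohHeckeRep N (↑S : Set ℕ))
    S41.H85.cohHeckeRep_injective H.π hp hpT
  refine trace_mul_eq_of_mem_inertia H.ρ H.π (heckeTTotal (↑S : Set ℕ))
    (S41.H85.cohHeckeRep N (↑S : Set ℕ)) S hp hpS ?_ ?_ ?_ hq hqS hP hτ g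
  · intro ℓ hℓ hℓS A hA φ hφ
    have h := H.charpoly_frob ℓ hℓ (hnotdvd ℓ hℓ hℓS) (by exact_mod_cast hℓS) A hA φ hφ
    rw [h, heckeTTotal, dif_pos ⟨hℓ, hnotdvd ℓ hℓ hℓS, by exact_mod_cast hℓS⟩]
  · intro k
    refine ⟨k + c, fun t ht => ?_⟩
    have := hc (k + c) t ht
    rwa [Nat.add_sub_cancel] at this
  · intro n
    obtain ⟨Mo⟩ := hpack n
    refine ⟨Mo.congr hsub fun ℓ hℓ hℓS => ?_⟩
    rw [heckeTTotal, dif_pos ⟨hℓ, hnotdvd ℓ hℓ hℓS, by exact_mod_cast hℓS⟩,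
      S41.H85.cohHeckeRep_T, heckeTParTotal, dif_pos ⟨hℓ, hnotdvd ℓ hℓ hℓS⟩]

end Fermat.Agent.S31.H18
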