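import Mathlib
import Fermat.Agent.S29.H80_Interface
import Fermat.Agent.S29.H66_ESData
import Fermat.Agent.S29.H28_GalHecke
import Fermat.Agent.S29.H46_OpenStab
import Fermat.Agent.S31.H18_S31Assembly

set_option autoImplicit false
set_option linter.style.haveILetI false

open ModularCurve AlgebraicCurve ModularCurve.Period CongruenceSubgroup

namespace Fermat.Agent.S31.H18

local notation "Qb" => AlgebraicClosure ℚ
local notation "GQ" => (AlgebraicClosure ℚ ≃ₐ[ℚ] AlgebraicClosure ℚ)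

section Restrict

variable {J : Type*} [AddCommGroup J] (a : ℤ)

/-- Restriction of an additive endomorphism to the `a`-torsion. -/
def restrictTorsion (f : Module.End ℤ J) : Module.End ℤ (Submodule.torsionBy ℤ J a) :=
  f.restrict fun x hx => by
    rw [Submodule.mem_torsionBy_iff] at hx ⊢
    rw [← map_smul, hx, map_zero]

@[simp] theorem coe_restrictTorsion (f : Module.End ℤ J) (x : Submodule.torsionBy ℤ J a) :
    ((restrictTorsion a f x : Submodule.torsionBy ℤ J a) : J) = f x := rfl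

end Restrict

/-- Conjugates of automorphisms fixing a normal subfield fix it. -/
theorem conj_fixes_of_normal (F : IntermediateField ℚ Qb) [Normal ℚ F] {σ : GQ}
    (hσ : ∀ x ∈ F, σ x = x) (g : GQ) : ∀ x ∈ F, (g⁻¹ * σ * g) x = x := by
  intro x hx
  have hgx : g x ∈ F := by
    have := AlgEquiv.restrictNormal_commutes g F ⟨x, hx⟩
    rw [show algebraMap F Qb ⟨x, hx⟩ = x from rfl] at this
    rw [← this]
    exact (g.restrictNormal F ⟨x, hx⟩).2
  rw [AlgEquiv.mul_apply, AlgEquiv.mul_apply, hσ _ hgx, ← AlgEquiv.mul_apply, inv_mul_cancel,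
    AlgEquiv.one_apply]


section Adapter

variable (N p : ℕ) [NeZero N]

/-- The `p ^ n`-torsion of `J₀(N)`. -/
noncomputable abbrev torsX (n : ℕ) : Submodule ℤ (JZero N) :=
  Submodule.torsionBy ℤ (JZero N) ((p ^ n : ℕ) : ℤ)

omit [NeZero N] in
theorem pow_nsmul_coe_torsX {n : ℕ} (x : torsX N p n) : p ^ n • (x : JZero N) = 0 := by
  have := x.2
  rw [Submodule.mem_torsionBy_iff] at this
  rw [← natCast_zsmul]
  exact this

/-- Galois action on the `p ^ n`-torsion. -/
noncomputable def actX (n : ℕ) : GQ →* Module.End ℤ (torsX N p n) where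
  toFun σ := restrictTorsion _ (DistribSMul.toAddMonoidHom (JZero N) σ).toIntLinearMap
  map_one' := by
    refine LinearMap.ext fun x => Subtype.ext ?_
    simp
  map_mul' σ τ := by
    refine LinearMap.ext fun x => Subtype.ext ?_
    simp [mul_smul]

omit [NeZero N] in
theorem coe_actX_apply (n : ℕ) (σ : GQ) (x : torsX N p n) :
    ((actX N p n σ x : torsX N p n) : JZero N) = σ • (x : JZero N) := rfl

open Classical in
/-- Hecke operators on the `p ^ n`-torsion (zero at non-primes). -/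
noncomputable def TbarX (n : ℕ) (ℓ : ℕ) : Module.End ℤ (torsX N p n) :=
  if h : ℓ.Prime then restrictTorsion _ (heckeOperatorBar N ⟨ℓ, h⟩) else 0

theorem coe_TbarX_apply (n : ℕ) {ℓ : ℕ} (h : ℓ.Prime) (x : torsX N p n) :
    ((TbarX N p n ℓ x : torsX N p n) : JZero N) = heckeOperatorBar N ⟨ℓ, h⟩ (x : JZero N) := by
  rw [TbarX, dif_pos h]; rfl

/-- Finite level on the Galois span of the image of any linear map from a finitely generated
module (T3 + normal closure). -/
theorem exists_finite_level {L : Type*} [AddCommGroup L] [Module.Finite ℤ L] (n : ℕ)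
    (lam : L →ₗ[ℤ] torsX N p n) :
    ∃ F : IntermediateField ℚ Qb, FiniteDimensional ℚ F ∧ ∀ σ : GQ, (∀ x ∈ F, σ x = x) →
      ∀ (g : GQ) (y : L), actX N p n σ (actX N p n g (lam y)) = actX N p n g (lam y) := by
  classical
  obtain ⟨s, hs⟩ := (Module.Finite.fg_top : (⊤ : Submodule ℤ L).FG)
  have hpt : ∀ z : L, ∃ E : IntermediateField ℚ Qb, FiniteDimensional ℚ E ∧
      ∀ τ : GQ, (∀ a ∈ E, τ a = a) → ∀ g : GQ,
        τ • g • ((lam z : torsX N p n) : JZero N) = g • ((lam z : torsX N p n) : JZero N) := by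
    intro z
    obtain ⟨E, hE, -, h⟩ := S29.H46.exists_finite_normal_fixing_orbit N
      ((lam z : torsX N p n) : JZero N)
    exact ⟨E, hE, h⟩
  have hall := S29.H46.exists_finite_fixing_finset s
    (fun z τ => ∀ g : GQ,
        τ • g • ((lam z : torsX N p n) : JZero N) = g • ((lam z : torsX N p n) : JZero N))
    (fun z _ => hpt z)
  obtain ⟨F, hF, hFfix⟩ := hall
  refine ⟨F, hF, fun σ hσ g y => ?_⟩
  have hlin : (actX N p n σ).comp ((actX N p n g).comp lam) = (actX N p n g).comp lam := by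
    refine LinearMap.ext_on hs fun z hz => Subtype.ext ?_
    exact hFfix σ hσ z hz g
  exact LinearMap.congr_fun hlin y


variable {N p}

/-- **The torsion package from the Stage 2/3 exports** (the inputs of S29, at the moduli
`p ^ k`). -/
theorem torsionPackage_of_stages (hp : p.Prime)
    (hcomm : HeckeOperatorsCommuteBar N)
    (hspec : letI := heckeModuleBar N
      SpecializationExists (K := ℚ) (L := Qb) N p (JZero N))
    (hK : ∀ k : ℕ, S29.H80.KummerPoincare N (p ^ k))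
    (hB : ∀ k : ℕ, S29.H80.BaseChangeDescent N (p ^ k)) :
    TorsionPackage N p := by
  classical
  -- Stage 2 in pointwise form
  have hunr : ∀ ℓ : ℕ, ℓ.Prime → ¬ ℓ ∣ N * p → ∀ A : ValuationSubring Qb, A.LiesOverPrime ℓ →
      ∀ σ ∈ A.inertiaSubgroupIn ℚ, ∀ x : JZero N, (∃ n : ℕ, p ^ n • x = 0) → σ • x = x := by
    letI := heckeModuleBar N
    exact S29.H66.unramifiedOutside_of_specializationExists hspec
  have hfrob : ∀ ℓ : ℕ, (hℓ : ℓ.Prime) → ¬ ℓ ∣ N * p → ∀ A : ValuationSubring Qb,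
      A.LiesOverPrime ℓ → ∀ σ : GQ, A.IsFrobeniusAt σ ℓ → ∀ x : JZero N,
      (∃ n : ℕ, p ^ n • x = 0) →
        σ • σ • x - heckeOperatorBar N ⟨ℓ, hℓ⟩ (σ • x) + ℓ • x = 0 := by
    intro ℓ hℓ hℓNp A hA σ hσ x hx
    letI := heckeModuleBar N
    have h := S29.H66.frobeniusQuadratic_of_specializationExists hspec ℓ hℓ hℓNp A hA σ hσ x hx
    have e : heckeGen ⟨ℓ, hℓ⟩ • (σ • x) = heckeOperatorBar N ⟨ℓ, hℓ⟩ (σ • x) :=
      heckeModuleBar_heckeGen_smul hcomm _ _
    rw [e] at h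
    exact h
  have hNp0 : N * p ≠ 0 := Nat.mul_ne_zero (NeZero.ne N) hp.ne_zero
  have hgood : ∀ ℓ : ℕ, ℓ.Prime → ℓ ∉ (N * p).primeFactors → ¬ ℓ ∣ N * p := fun ℓ hℓ hmem h =>
    hmem (Nat.mem_primeFactors.mpr ⟨hℓ, h, hNp0⟩)
  intro n
  obtain ⟨lamC, hl1, hl2, hl3⟩ := hK n
  obtain ⟨bc, hb1, hb2, hb3⟩ := hB n
  -- the Kummer map with values in `JZero N`
  have hex : ∀ y : S29.H80.Lat N, ∃ x : JZero N, bc x = lamC y := fun y =>
    hb3 (lamC y) (hl1 y)
  choose lam0 hlam0 using hex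
  have hlam0_tors : ∀ y, lam0 y ∈ torsX N p n := by
    intro y
    rw [Submodule.mem_torsionBy_iff]
    apply hb1
    rw [map_zsmul, hlam0, map_zero]
    exact hl1 y
  let lam : S29.H80.Lat N →ₗ[ℤ] torsX N p n :=
    { toFun := fun y => ⟨lam0 y, hlam0_tors y⟩
      map_add' := fun y z => Subtype.ext (hb1 (by
        show bc (lam0 (y + z)) = bc (lam0 y + lam0 z)
        rw [map_add, hlam0, hlam0, hlam0, map_add]))
      map_smul' := fun c y => Subtype.ext (hb1 (by
        show bc (lam0 (c • y)) = bc (c • lam0 y)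
        rw [map_zsmul, hlam0, hlam0, map_zsmul])) }
  have hlam_coe : ∀ y, ((lam y : torsX N p n) : JZero N) = lam0 y := fun _ => rfl
  refine ⟨{
    X := torsX N p n
    act := actX N p n
    Tbar := TbarX N p n
    lam := lam
    lam_ker := ?_
    lam_hecke := ?_
    torsion := ?_
    finite_level := exists_finite_level N p n lam
    unramified := ?_
    eichlerShimura := ?_ }⟩
  · -- kernel
    intro y hy
    apply hl2
    have h0 : lam0 y = 0 := congrArg (Subtype.val : torsX N p n → JZero N) hy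
    rw [← hlam0, h0, map_zero]
  · -- Hecke equivariance
    intro ℓ hℓ hℓbad y
    have hℓN : ¬ ℓ ∣ N := fun h => hgood ℓ hℓ hℓbad (Dvd.dvd.mul_right h p)
    apply Subtype.ext
    rw [coe_TbarX_apply N p n hℓ, hlam_coe, hlam_coe]
    apply hb1
    have hcoh : heckeTParTotal N ℓ = S29.H80.cohT N ⟨ℓ, hℓ⟩ := by
      unfold heckeTParTotal S29.H80.cohT
      rw [dif_pos ⟨hℓ, hℓN⟩, dif_neg hℓN]
    have e1 : bc (lam0 (heckeTParTotal N ℓ y))
        = lamC (S29.H80.cohT N (⟨ℓ, hℓ⟩ : Nat.Primes) y) := by rw [hlam0, hcoh]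
    have e2 := hl3 (⟨ℓ, hℓ⟩ : Nat.Primes) y
    have e3 := hb2 (⟨ℓ, hℓ⟩ : Nat.Primes) (lam0 y)
    rw [hlam0] at e3
    exact e1.trans (e2.trans e3.symm)
  · -- torsion
    intro x
    exact Subtype.ext (pow_nsmul_coe_torsX N p x)
  · -- unramified
    intro q hq hqbad P hP τ hτ
    refine LinearMap.ext fun x => Subtype.ext ?_
    exact hunr q hq (hgood q hq hqbad) P hP τ hτ x ⟨n, pow_nsmul_coe_torsX N p x⟩
  · -- Eichler–Shimura
    intro ℓ hℓ hℓbad A hA φ hφ x
    apply Subtype.ext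
    have h := hfrob ℓ hℓ (hgood ℓ hℓ hℓbad) A hA φ hφ x ⟨n, pow_nsmul_coe_torsX N p x⟩
    have e : ((TbarX N p n ℓ (actX N p n φ x) : torsX N p n) : JZero N)
        = heckeOperatorBar N ⟨ℓ, hℓ⟩ (φ • (x : JZero N)) := coe_TbarX_apply N p n hℓ _
    show φ • φ • (x : JZero N) - ((TbarX N p n ℓ (actX N p n φ x) : torsX N p n) : JZero N)
      + ℓ • (x : JZero N) = 0
    rw [e]
    exact h

end Adapter


section Final

variable {N : ℕ} [NeZero N] {p : ℕ} {S : Finset ℕ}
  {𝒪 : Type} [CommRing 𝒪] [IsDomain 𝒪] [IsDiscreteValuationRing 𝒪]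
  [IsAdicComplete (IsLocalRing.maximalIdeal 𝒪) 𝒪]
  {θ : CuspForm.heckeAlgebra N 2 (↑S : Set ℕ) →+* IsLocalRing.ResidueField 𝒪}
  {T : Type} [CommRing T] [IsLocalRing T] [IsNoetherianRing T]
  [IsAdicComplete (IsLocalRing.maximalIdeal T) T] [Algebra 𝒪 T] [IsLocalHom (algebraMap 𝒪 T)]
  [Module.Finite 𝒪 T] [Module.Free 𝒪 T]

/-- **The frozen S31 statement from the named Stage 2/3 inputs** (the inputs of S29 at the
moduli `p ^ k`). -/
theorem s31_of_inputs (hcomm : HeckeOperatorsCommuteBar N)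
    (hspec : letI := heckeModuleBar N
      SpecializationExists (K := ℚ) (L := Qb) N p (JZero N))
    (hK : ∀ k : ℕ, S29.H80.KummerPoincare N (p ^ k))
    (hB : ∀ k : ℕ, S29.H80.BaseChangeDescent N (p ^ k))
    (hp : p.Prime) (hp𝒪 : (p : 𝒪) ∈ IsLocalRing.maximalIdeal 𝒪) (hpS : p ∈ S)
    (hNS : ∀ q : ℕ, q.Prime → q ∣ N → q ∈ S)
    (H : CuspForm.HeckeGaloisRepDatum N (↑S : Set ℕ) 𝒪 θ T)
    (q : ℕ) (hq : q.Prime) (hqS : q ∉ S) :
    H.ρ.IsUnramifiedAt q :=
  isUnramifiedAt_of_package (torsionPackage_of_stages hp hcomm hspec hK hB) hp hp𝒪 hpS hNS H q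
    hq hqS

end Final

end Fermat.Agent.S31.H18
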