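import Mathlib
import Fermat.Agent.S29.H80_T0
import Fermat.Agent.S31.H18_PackageOfStages

set_option autoImplicit false

/-!
# S31 from the two still-open inputs: S37 and the Kummer–Poincaré package

`s31_of_s37_kummerPoincare` : the frozen S31 statement from
* `hS37` : the conclusion of the frozen S37 at `(N, p)`, verbatim, and
* `hKP : ∀ k, H80.KummerPoincare N (p ^ k)` (the last open Stage-3 package, at the moduli `p ^ k`).

Everything else (T1 Hecke commutativity, base change + descent, T3 open stabilisers, Galois–Hecke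
commutation) is taken from `main`.
-/

open ModularCurve

namespace Fermat.Agent.S31.H18

local notation "Qb" => AlgebraicClosure ℚ

variable {N : ℕ} [NeZero N] {p : ℕ} {S : Finset ℕ}
  {𝒪 : Type} [CommRing 𝒪] [IsDomain 𝒪] [IsDiscreteValuationRing 𝒪]
  [IsAdicComplete (IsLocalRing.maximalIdeal 𝒪) 𝒪]
  {θ : CuspForm.heckeAlgebra N 2 (↑S : Set ℕ) →+* IsLocalRing.ResidueField 𝒪}
  {T : Type} [CommRing T] [IsLocalRing T] [IsNoetherianRing T]
  [IsAdicComplete (IsLocalRing.maximalIdeal T) T] [Algebra 𝒪 T] [IsLocalHom (algebraMap 𝒪 T)]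
  [Module.Finite 𝒪 T] [Module.Free 𝒪 T]

/-- **The frozen S31** from the frozen S37 conclusion at `(N, p)` and the Kummer–Poincaré
package at all moduli `p ^ k`. -/
theorem s31_of_s37_kummerPoincare
    (hS37 : ModularCurve.HeckeOperatorsCommuteBar N →
      letI := ModularCurve.heckeModuleBar N
      ∀ (_ : SMulCommClass (AlgebraicClosure ℚ ≃ₐ[ℚ] AlgebraicClosure ℚ) ModularCurve.HeckeAlg
        (ModularCurve.JZero N)),
        ModularCurve.SpecializationExists (K := ℚ) (L := AlgebraicClosure ℚ) N p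
          (ModularCurve.JZero N))
    (hKP : ∀ k : ℕ, S29.H80.KummerPoincare N (p ^ k))
    (hp : p.Prime) (hp𝒪 : (p : 𝒪) ∈ IsLocalRing.maximalIdeal 𝒪) (hpS : p ∈ S)
    (hNS : ∀ q : ℕ, q.Prime → q ∣ N → q ∈ S)
    (H : CuspForm.HeckeGaloisRepDatum N (↑S : Set ℕ) 𝒪 θ T)
    (q : ℕ) (hq : q.Prime) (hqS : q ∉ S) :
    H.ρ.IsUnramifiedAt q :=
  s31_of_inputs (S29.H80.heckeOperatorsCommuteBar N)
    (hS37 (S29.H80.heckeOperatorsCommuteBar N) (S29.H28.smulCommClass_heckeModuleBar N))
    hKP (fun k => S29.H80.baseChangeDescent N (pow_pos hp.pos k)) hp hp𝒪 hpS hNS H q hq hqS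

end Fermat.Agent.S31.H18
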