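import Mathlib

/-!
# Power sums `α ^ j + β ^ j` as polynomials in `α + β` and `α * β`

`psum t d j` is defined by the recursion `P₀ = 2`, `P₁ = t`, `P_{j+2} = t * P_{j+1} - d * P_j` in
an arbitrary ring.

* `map_psum`: compatibility with ring homomorphisms.
* `psum_add_mul`: `psum (α + β) (α * β) j = α ^ j + β ^ j` for commuting `α`, `β`.
* `psum_eq_of_unit_quadratic`: if `u` is a unit with `u * u - t * u + d = 0` and `d` commutes with
  `u`, then `psum t d j = u ^ j + d ^ j * (u⁻¹) ^ j`.
* `trace_pow_eq_psum`: for an endomorphism `f` of a finite free module with characteristic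
  polynomial `X ^ 2 - C t * X + C d`, `trace (f ^ j) = psum t d j`.
-/

set_option autoImplicit false

namespace Fermat.Agent.S31.H12

open Polynomial

section Def

variable {R : Type*} [Ring R]

/-- The power-sum sequence `P_j(t, d)`: `P₀ = 2`, `P₁ = t`, `P_{j+2} = t P_{j+1} - d P_j`. -/
def psum (t d : R) : ℕ → R
  | 0 => 2
  | 1 => t
  | (j + 2) => t * psum t d (j + 1) - d * psum t d j

@[simp] theorem psum_zero (t d : R) : psum t d 0 = 2 := rfl

@[simp] theorem psum_one (t d : R) : psum t d 1 = t := rfl

theorem psum_add_two (t d : R) (j : ℕ) :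
    psum t d (j + 2) = t * psum t d (j + 1) - d * psum t d j := rfl

/-- Two-step induction principle used throughout. -/
theorem psum_induction {P : ℕ → Prop} (h0 : P 0) (h1 : P 1)
    (h2 : ∀ j, P j → P (j + 1) → P (j + 2)) : ∀ j, P j := by
  have : ∀ j, P j ∧ P (j + 1) := by
    intro j
    induction j with
    | zero => exact ⟨h0, h1⟩
    | succ j ih => exact ⟨ih.2, h2 j ih.1 ih.2⟩
  exact fun j => (this j).1

theorem map_psum {S : Type*} [Ring S] (f : R →+* S) (t d : R) (j : ℕ) :
    f (psum t d j) = psum (f t) (f d) j := by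
  induction j using psum_induction with
  | h0 => rw [psum_zero, psum_zero, map_ofNat]
  | h1 => rw [psum_one, psum_one]
  | h2 j ih0 ih1 => rw [psum_add_two, psum_add_two, map_sub, map_mul, map_mul, ih0, ih1]

/-- `psum (α + β) (α * β) j = α ^ j + β ^ j` for commuting `α`, `β`. -/
theorem psum_add_mul {α β : R} (h : Commute α β) (j : ℕ) :
    psum (α + β) (α * β) j = α ^ j + β ^ j := by
  induction j using psum_induction with
  | h0 => simp; norm_num
  | h1 => simp
  | h2 j ih0 ih1 =>
    rw [psum_add_two, ih0, ih1]
    have hβα : β * α = α * β := h.eq.symm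
    have h1 : β * α ^ (j + 1) = α ^ (j + 1) * β := (h.symm.pow_right (j + 1)).eq
    have h2 : α * β ^ (j + 1) = β ^ (j + 1) * α := (h.pow_right (j + 1)).eq
    have h3 : β * α ^ j = α ^ j * β := (h.symm.pow_right j).eq
    have e1 : (α + β) * (α ^ (j + 1) + β ^ (j + 1)) =
        α ^ (j + 2) + β ^ (j + 2) + (α ^ (j + 1) * β + β ^ (j + 1) * α) := by
      rw [add_mul, mul_add, mul_add, h1, h2, pow_succ' α (j + 1), pow_succ' β (j + 1)]
      abel
    have e2 : α * β * (α ^ j + β ^ j) = α ^ (j + 1) * β + β ^ (j + 1) * α := by
      rw [mul_add, mul_assoc α β (α ^ j), h3, ← mul_assoc, ← pow_succ', mul_assoc α β (β ^ j),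
        ← pow_succ', h2]
    rw [e1, e2]
    abel

/-- If `u` is invertible with `u * u - t * u + d = 0` and `d` commutes with `u`, then
`psum t d j = u ^ j + d ^ j * v ^ j`, where `v` is the inverse of `u`. -/
theorem psum_eq_of_unit_quadratic {t d u v : R} (huv : u * v = 1) (hvu : v * u = 1)
    (hd : Commute d u) (hq : u * u - t * u + d = 0) (j : ℕ) :
    psum t d j = u ^ j + d ^ j * v ^ j := by
  have hdv : Commute d v := by
    -- `d v = v u d v = v d u v = v d`
    have : d * v = v * d := by
      calc d * v = (v * u) * (d * v) := by rw [hvu, one_mul]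
        _ = v * (u * d) * v := by simp only [mul_assoc]
        _ = v * (d * u) * v := by rw [hd.eq]
        _ = v * d * (u * v) := by simp only [mul_assoc]
        _ = v * d := by rw [huv, mul_one]
    exact this
  have ht : t = u + d * v := by
    have h1 : (u * u - t * u + d) * v = 0 := by rw [hq, zero_mul]
    have h2 : (u * u - t * u + d) * v = u - t + d * v := by
      rw [add_mul, sub_mul, mul_assoc, mul_assoc, huv, mul_one, mul_one]
    rw [h2] at h1
    have h3 : u + d * v - t = 0 := by rw [← h1]; abel
    exact (sub_eq_zero.mp h3).symm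
  have hcomm : Commute u (d * v) := by
    have h1 : Commute u d := hd.symm
    have h2 : Commute u v := by
      show u * v = v * u
      rw [huv, hvu]
    exact h1.mul_right h2
  have hprod : u * (d * v) = d := by
    rw [← mul_assoc, ← hd.eq, mul_assoc, huv, mul_one]
  have h := psum_add_mul hcomm j
  rw [← ht, hprod] at h
  rw [h, hdv.mul_pow]

end Def

section Trace

variable {R : Type*} [CommRing R] [Nontrivial R] {V : Type*} [AddCommGroup V] [Module R V]
  [Module.Free R V] [Module.Finite R V]

/-- For an endomorphism with characteristic polynomial `X ^ 2 - C t * X + C d`, the trace of the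
`j`-th power is the power sum `psum t d j`. -/
theorem trace_pow_eq_psum (f : Module.End R V) {t d : R}
    (hf : f.charpoly = X ^ 2 - C t * X + C d) (j : ℕ) :
    LinearMap.trace R V (f ^ j) = psum t d j := by
  classical
  have hdeg : (X ^ 2 - C t * X + C d : R[X]).natDegree = 2 := by
    compute_degree!
  have hrank : Module.finrank R V = 2 := by
    rw [← LinearMap.charpoly_natDegree f, hf, hdeg]
  -- Cayley–Hamilton
  have hCH : f * f = t • f - d • (1 : Module.End R V) := by
    have h := LinearMap.aeval_self_charpoly f
    rw [hf] at h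
    simp only [map_add, map_sub, map_mul, map_pow, aeval_X, aeval_C,
      Algebra.algebraMap_eq_smul_one, smul_mul_assoc, one_mul] at h
    rw [← sub_eq_zero, ← h, pow_two]; abel
  -- trace of `f`
  have htr1 : LinearMap.trace R V f = t := by
    let b := Module.finBasisOfFinrankEq R V hrank
    rw [LinearMap.trace_eq_matrix_trace R b, Matrix.trace_eq_neg_charpoly_coeff,
      LinearMap.charpoly_toMatrix, hf]
    simp [Polynomial.coeff_X_pow]
  have htr0 : LinearMap.trace R V (1 : Module.End R V) = 2 := by
    rw [LinearMap.trace_one, hrank]; norm_num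
  induction j using psum_induction with
  | h0 => rw [pow_zero, htr0, psum_zero]
  | h1 => rw [pow_one, htr1, psum_one]
  | h2 j ih0 ih1 =>
    have hpow : f ^ (j + 2) = t • f ^ (j + 1) - d • f ^ j := by
      rw [pow_add, pow_two, hCH, mul_sub, mul_smul_comm, mul_smul_comm, mul_one, ← pow_succ]
    rw [hpow, map_sub, map_smul, map_smul, ih0, ih1, psum_add_two, smul_eq_mul, smul_eq_mul]

omit [Nontrivial R] in
/-- The trace of an endomorphism with values in `I • ⊤` lies in `I`. -/
theorem trace_mem_of_forall_mem_smul_top (I : Ideal R) (f : Module.End R V)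
    (h : ∀ v, f v ∈ I • (⊤ : Submodule R V)) : LinearMap.trace R V f ∈ I := by
  classical
  let b := Module.Free.chooseBasis R V
  have hcoord : ∀ x ∈ I • (⊤ : Submodule R V), ∀ i, b.repr x i ∈ I := by
    intro x hx i
    refine Submodule.smul_induction_on (p := fun x => b.repr x i ∈ I) hx ?_ ?_
    · intro r hr n _
      rw [map_smul, Finsupp.smul_apply, smul_eq_mul]
      exact I.mul_mem_right _ hr
    · intro x y hx hy
      rw [map_add, Finsupp.add_apply]
      exact I.add_mem hx hy
  rw [LinearMap.trace_eq_matrix_trace R b, Matrix.trace]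
  refine I.sum_mem fun i _ => ?_
  rw [Matrix.diag_apply, LinearMap.toMatrix_apply]
  exact hcoord _ (h _) i

omit [Nontrivial R] in
/-- Congruent endomorphisms have congruent traces. -/
theorem trace_sub_trace_mem (I : Ideal R) (f g : Module.End R V)
    (h : ∀ v, f v - g v ∈ I • (⊤ : Submodule R V)) :
    LinearMap.trace R V f - LinearMap.trace R V g ∈ I := by
  rw [← map_sub]
  exact trace_mem_of_forall_mem_smul_top I (f - g) fun v => by
    rw [LinearMap.sub_apply]; exact h v

end Trace

end Fermat.Agent.S31.H12
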