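import Mathlib
import Fermat.Prelude.Def_GaloisRep_Adic
import Fermat.Prelude.Def_CuspForm_HeckeGaloisRepDatum

/-!
# Trace rigidity for residually absolutely irreducible representations

* `span_range_eq_top`: Burnside's theorem over an algebraically closed field.
* `eq_zero_of_forall_trace_mul_eq_zero_of_span`: lifting the trace pairing along a ring
  homomorphism to a field which detects units.
* `eq_zero_of_forall_trace_mul_eq_zero`, `eq_one_of_forall_trace_eq`: for a `GaloisRepAdic` over a
  local ring with absolutely irreducible residual representation, an element acting trivially on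
  all traces acts trivially.
-/

set_option autoImplicit false

namespace Fermat.Agent.S31.H12

section Burnside

variable {K V G : Type*} [Field K] [IsAlgClosed K] [AddCommGroup V] [Module K V]
  [FiniteDimensional K V] [Nontrivial V] [Monoid G]

/-- **Burnside's theorem.** An irreducible finite-dimensional representation of a monoid over an
algebraically closed field spans the whole endomorphism algebra. -/
theorem span_range_eq_top (r : G →* Module.End K V)
    (hirr : ∀ W : Submodule K V, (∀ g, ∀ x ∈ W, r g x ∈ W) → W = ⊥ ∨ W = ⊤) :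
    Submodule.span K (Set.range r) = ⊤ := by
  classical
  let A : Subalgebra K (Module.End K V) := Algebra.adjoin K (Set.range r)
  have hA : Subalgebra.toSubmodule A = Submodule.span K (Set.range r) := by
    have h1 : Submonoid.closure (Set.range r) = MonoidHom.mrange r := by
      rw [← MonoidHom.coe_mrange, Submonoid.closure_eq]
    rw [Algebra.adjoin_eq_span, h1, MonoidHom.coe_mrange]
  have hmem : ∀ g, r g ∈ A := fun g => Algebra.subset_adjoin ⟨g, rfl⟩
  have : IsScalarTower K A V := ⟨fun c a v => by
    show ((c • a : A) : Module.End K V) v = c • ((a : Module.End K V) v)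
    rfl⟩
  have hsimple : IsSimpleModule A V := by
    rw [isSimpleModule_iff]
    have : Nontrivial (Submodule A V) := (Submodule.nontrivial_iff A).mpr inferInstance
    refine ⟨fun W => ?_⟩
    have h := hirr (W.restrictScalars K) (fun g x hx => by
      have : (⟨r g, hmem g⟩ : A) • x ∈ W := W.smul_mem _ hx
      exact this)
    rcases h with h | h
    · left; exact (Submodule.restrictScalars_eq_bot_iff K A V).mp h
    · right; exact (Submodule.restrictScalars_eq_top_iff K A V).mp h
  have hschur : Function.Bijective (algebraMap K (Module.End A V)) :=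
    IsSimpleModule.algebraMap_end_bijective_of_isAlgClosed K
  have : Module.Finite (Module.End A V) V :=
    Module.Finite.of_restrictScalars_finite K (Module.End A V) V
  have hdens := Module.Finite.toModuleEnd_moduleEnd_surjective (R := A) (M := V)
  rw [eq_top_iff]
  intro f _
  -- `f` is linear over `End A V` since the latter consists of scalars
  let f' : Module.End (Module.End A V) V :=
    { toFun := f
      map_add' := f.map_add
      map_smul' := fun e v => by
        obtain ⟨c, rfl⟩ := hschur.2 e
        show f ((algebraMap K (Module.End A V) c) v) = (algebraMap K (Module.End A V) c) (f v)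
        rw [Module.algebraMap_end_apply, Module.algebraMap_end_apply, f.map_smul] }
  obtain ⟨a, ha⟩ := hdens f'
  have hfa : (a : Module.End K V) = f := by
    refine LinearMap.ext fun v => ?_
    have := congrArg (fun φ : Module.End (Module.End A V) V => φ v) ha
    exact this
  rw [← hA, ← hfa]
  exact a.2

end Burnside

section MatrixLift

open Matrix

variable {T K G n : Type*} [CommRing T] [Field K] [Fintype n] [DecidableEq n]

/-- From a spanning family of a finite-dimensional space of functions `ι → K`, extract a
linearly independent subfamily indexed by `ι`. -/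
theorem exists_linearIndependent_of_span_eq_top {ι : Type*} [Fintype ι] [DecidableEq ι]
    (v : G → ι → K) (hv : Submodule.span K (Set.range v) = ⊤) :
    ∃ g : ι → G, LinearIndependent K (fun i => v (g i)) := by
  classical
  obtain ⟨b, hbs, hspan, hli⟩ := exists_linearIndependent K (Set.range v)
  have htop : ⊤ ≤ Submodule.span K (Set.range ((↑) : b → ι → K)) := by
    rw [Subtype.range_coe, hspan, hv]
  let B : Module.Basis b K (ι → K) := Module.Basis.mk hli htop
  have : Fintype b := FiniteDimensional.fintypeBasisIndex B
  have hcard : Fintype.card ι = Fintype.card b := by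
    rw [← Module.finrank_eq_card_basis B, Module.finrank_fintype_fun_eq_card]
  let e : ι ≃ b := Fintype.equivOfCardEq hcard
  have hg : ∀ i : ι, ∃ g : G, v g = (e i : ι → K) := fun i => hbs (e i).2
  choose g hg using hg
  refine ⟨g, ?_⟩
  have : (fun i => v (g i)) = ((↑) : b → ι → K) ∘ e := by
    funext i; exact hg i
  rw [this]
  exact hli.comp e e.injective

/-- **Lifting the trace pairing.** Let `M : G → Matrix n n T` be a family of matrices over a
commutative ring `T` and `φ : T →+* K` a ring homomorphism to a field which detects units.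
If the images `(M g).map φ` span the full matrix algebra over `K`, then a matrix `X` over `T` with
`trace (M g * X) = 0` for all `g` vanishes. -/
theorem eq_zero_of_forall_trace_mul_eq_zero_of_span (φ : T →+* K)
    (hφ : ∀ x : T, φ x ≠ 0 → IsUnit x) (M : G → Matrix n n T)
    (hspan : Submodule.span K (Set.range fun g => (M g).map φ) = ⊤)
    (X : Matrix n n T) (hX : ∀ g, Matrix.trace (M g * X) = 0) : X = 0 := by
  classical
  -- vector form
  let v : G → (n × n) → K := fun g p => φ (M g p.1 p.2)
  have hv : Submodule.span K (Set.range v) = ⊤ := by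
    let L : Matrix n n K ≃ₗ[K] (n × n → K) := (LinearEquiv.curry K K n n).symm
    have h1 := congrArg (Submodule.map (L : Matrix n n K →ₗ[K] (n × n → K))) hspan
    rw [Submodule.map_span, Submodule.map_top, LinearEquiv.range, ← Set.range_comp] at h1
    rw [← h1]
    have hfun : v = (⇑(L : Matrix n n K →ₗ[K] (n × n → K)) ∘ fun g => (M g).map ⇑φ) := by
      funext g p; rfl
    rw [hfun]
  obtain ⟨g, hg⟩ := exists_linearIndependent_of_span_eq_top v hv
  let D : Matrix (n × n) (n × n) T := Matrix.of fun i p => M (g i) p.1 p.2
  have hDrow : (D.map φ).row = fun i => v (g i) := by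
    funext i p; rfl
  have hDK : IsUnit (D.map φ) := by
    rw [← Matrix.linearIndependent_rows_iff_isUnit, hDrow]; exact hg
  have hdetK : φ D.det ≠ 0 := by
    have h2 : (D.map φ).det ≠ 0 := by
      have := (Matrix.isUnit_iff_isUnit_det _).mp hDK
      exact this.ne_zero
    have h3 : φ D.det = (D.map φ).det := by
      rw [RingHom.map_det]; rfl
    rwa [h3]
  have hdet : IsUnit D.det := hφ _ hdetK
  -- the vector of entries of `X`
  let x : n × n → T := fun p => X p.2 p.1
  have hDx : D.mulVec x = 0 := by
    funext i
    have := hX (g i)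
    simp only [Matrix.trace, Matrix.diag, Matrix.mul_apply] at this
    simp only [Matrix.mulVec, dotProduct, Pi.zero_apply]
    rw [Fintype.sum_prod_type]
    exact this
  have hx : x = 0 := by
    have h4 : (D⁻¹ * D).mulVec x = x := by
      rw [Matrix.nonsing_inv_mul D hdet, Matrix.one_mulVec]
    rw [← h4, ← Matrix.mulVec_mulVec, hDx, Matrix.mulVec_zero]
  ext a c
  have := congrFun hx (c, a)
  exact this

end MatrixLift

section TowerMatrix

open scoped TensorProduct

/-- The matrix of a twice base-changed linear map. -/
theorem toMatrix_baseChange_baseChange {T k K V : Type*} [CommRing T] [CommRing k] [CommRing K]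
    [Algebra T k] [Algebra k K] [AddCommGroup V] [Module T V] {ι : Type*} [Fintype ι]
    [DecidableEq ι] (b : Module.Basis ι T V) (f : V →ₗ[T] V) :
    LinearMap.toMatrix (Algebra.TensorProduct.basis K (Algebra.TensorProduct.basis k b))
        (Algebra.TensorProduct.basis K (Algebra.TensorProduct.basis k b))
        ((f.baseChange k).baseChange K) =
      ((LinearMap.toMatrix b b f).map (algebraMap T k)).map (algebraMap k K) := by
  rw [LinearMap.toMatrix_baseChange, LinearMap.toMatrix_baseChange]

end TowerMatrix

section Galois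

open scoped TensorProduct

local notation "Γ" => (AlgebraicClosure ℚ ≃ₐ[ℚ] AlgebraicClosure ℚ)

variable {T : Type} [CommRing T] [IsLocalRing T]

/-- **Trace pairing is nondegenerate on the image.** If the residual representation of `ρ` is
absolutely irreducible and `X` is an endomorphism with `trace (ρ g * X) = 0` for all `g`, then
`X = 0`. -/
theorem eq_zero_of_forall_trace_mul_eq_zero (ρ : GaloisRepAdic T)
    (habs : ρ.residual.IsAbsolutelyIrreducible) (X : Module.End T ρ.V)
    (h : ∀ g : Γ, LinearMap.trace T ρ.V (ρ.ρ g * X) = 0) : X = 0 := by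
  classical
  let k := IsLocalRing.ResidueField T
  let K := AlgebraicClosure k
  let b : Module.Basis (Fin 2) T ρ.V := Module.finBasisOfFinrankEq T ρ.V ρ.finrank_eq
  let φ : T →+* K := (algebraMap k K).comp (IsLocalRing.residue T)
  have hφ : ∀ x : T, φ x ≠ 0 → IsUnit x := by
    intro x hx
    by_contra hnu
    apply hx
    have h0 : IsLocalRing.residue T x = 0 :=
      (IsLocalRing.residue_eq_zero_iff x).mpr (by
        rwa [IsLocalRing.mem_maximalIdeal, mem_nonunits_iff])
    show algebraMap k K (IsLocalRing.residue T x) = 0
    rw [h0, map_zero]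
  let M : Γ → Matrix (Fin 2) (Fin 2) T := fun g => LinearMap.toMatrix b b (ρ.ρ g)
  let ρK := ρ.residual.baseChange K
  have hspanEnd : Submodule.span K (Set.range ρK.ρ) = ⊤ := by
    have : Nontrivial ρK.V :=
      Module.nontrivial_of_finrank_pos (R := K) (by rw [ρK.finrank_eq]; norm_num)
    exact span_range_eq_top ρK.ρ habs
  let bK : Module.Basis (Fin 2) K ρK.V :=
    Algebra.TensorProduct.basis K (Algebra.TensorProduct.basis k b)
  have hM : ∀ g, LinearMap.toMatrix bK bK (ρK.ρ g) = (M g).map φ := by
    intro g
    have h1 := toMatrix_baseChange_baseChange (k := k) (K := K) b (ρ.ρ g)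
    rw [Matrix.map_map] at h1
    exact h1
  have hspan : Submodule.span K (Set.range fun g => (M g).map φ) = ⊤ := by
    have h1 := congrArg
      (Submodule.map ((LinearMap.toMatrix bK bK : Module.End K ρK.V ≃ₗ[K] _) :
        Module.End K ρK.V →ₗ[K] Matrix (Fin 2) (Fin 2) K)) hspanEnd
    rw [Submodule.map_span, Submodule.map_top, LinearEquiv.range, ← Set.range_comp] at h1
    rw [← h1]
    have hfun : (fun g => (M g).map φ) =
        (⇑((LinearMap.toMatrix bK bK : Module.End K ρK.V ≃ₗ[K] _) :
          Module.End K ρK.V →ₗ[K] Matrix (Fin 2) (Fin 2) K) ∘ ⇑ρK.ρ) := by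
      funext g; exact (hM g).symm
    rw [hfun]
  have hX := eq_zero_of_forall_trace_mul_eq_zero_of_span φ hφ M hspan (LinearMap.toMatrix b b X)
    (fun g => by
      rw [← LinearMap.toMatrix_mul, ← LinearMap.trace_eq_matrix_trace T b]; exact h g)
  exact (LinearMap.toMatrix b b).injective (by rw [hX, map_zero])

/-- **Trace rigidity.** If `τ` does not change any trace, `trace (ρ (τ * g)) = trace (ρ g)` for all
`g`, and the residual representation is absolutely irreducible, then `ρ τ = 1`. -/
theorem eq_one_of_forall_trace_eq (ρ : GaloisRepAdic T)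
    (habs : ρ.residual.IsAbsolutelyIrreducible) (τ : Γ)
    (h : ∀ g : Γ, ρ.trace (τ * g) = ρ.trace g) : ρ.ρ τ = 1 := by
  have h0 : ρ.ρ τ - 1 = 0 := by
    refine eq_zero_of_forall_trace_mul_eq_zero ρ habs _ fun g => ?_
    have h1 := h g
    unfold GaloisRepAdic.trace at h1
    rw [MonoidHom.map_mul ρ.ρ, LinearMap.trace_mul_comm] at h1
    rw [mul_sub, mul_one, map_sub, h1, sub_self]
  exact sub_eq_zero.mp h0

/-- Variant of `eq_one_of_forall_trace_eq` with `τ` on the right. -/
theorem eq_one_of_forall_trace_eq' (ρ : GaloisRepAdic T)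
    (habs : ρ.residual.IsAbsolutelyIrreducible) (τ : Γ)
    (h : ∀ g : Γ, ρ.trace (g * τ) = ρ.trace g) : ρ.ρ τ = 1 := by
  refine eq_one_of_forall_trace_eq ρ habs τ fun g => ?_
  rw [← h g]
  unfold GaloisRepAdic.trace
  rw [MonoidHom.map_mul ρ.ρ, MonoidHom.map_mul ρ.ρ, LinearMap.trace_mul_comm]

/-- The span of the image of `ρ` over `T` pairs perfectly: unramifiedness from traces. -/
theorem isUnramifiedAt_of_forall_trace_eq (ρ : GaloisRepAdic T)
    (habs : ρ.residual.IsAbsolutelyIrreducible) (q : ℕ)
    (htr : ∀ P : ValuationSubring (AlgebraicClosure ℚ), P.LiesOverPrime q →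
      ∀ τ ∈ P.inertiaSubgroupIn ℚ, ∀ g : Γ, ρ.trace (τ * g) = ρ.trace g) :
    ρ.IsUnramifiedAt q :=
  fun P hP τ hτ => eq_one_of_forall_trace_eq ρ habs τ (htr P hP τ hτ)

end Galois

section Frozen

variable {N : ℕ} [NeZero N] {S : Set ℕ}
  {𝒪 : Type} [CommRing 𝒪] [IsDomain 𝒪] [IsDiscreteValuationRing 𝒪]
  [IsAdicComplete (IsLocalRing.maximalIdeal 𝒪) 𝒪]
  {θ : CuspForm.heckeAlgebra N 2 S →+* IsLocalRing.ResidueField 𝒪}
  {T : Type} [CommRing T] [IsLocalRing T] [IsNoetherianRing T]
  [IsAdicComplete (IsLocalRing.maximalIdeal T) T] [Algebra 𝒪 T] [IsLocalHom (algebraMap 𝒪 T)]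
  [Module.Finite 𝒪 T] [Module.Free 𝒪 T]

/-- In the frozen vocabulary: a Hecke–Galois datum is unramified at `q` as soon as inertia at `q`
does not change traces. -/
theorem isUnramifiedAt_of_datum_trace_eq
    (H : CuspForm.HeckeGaloisRepDatum N S 𝒪 θ T) (q : ℕ)
    (htr : ∀ P : ValuationSubring (AlgebraicClosure ℚ), P.LiesOverPrime q →
      ∀ τ ∈ P.inertiaSubgroupIn ℚ,
        ∀ g : (AlgebraicClosure ℚ ≃ₐ[ℚ] AlgebraicClosure ℚ), H.ρ.trace (τ * g) = H.ρ.trace g) :
    H.ρ.IsUnramifiedAt q :=
  isUnramifiedAt_of_forall_trace_eq H.ρ H.residual_absIrr q htr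

end Frozen

end Fermat.Agent.S31.H12
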