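import Mathlib
import Fermat.Prelude.Def_ModularCurve_HeckeModule
import Fermat.Agent.S31.H81_S31Reduction

/-!
# S31 from the Eichler–Shimura data of `JZero N` (prelude vocabulary)

`isUnramifiedAt_of_jzero` : the frozen S31 conclusion from

* `hcomm : HeckeOperatorsCommuteBar N` (Stage 3, T1),
* `hUnr : UnramifiedOutside N p (JZero N)`, `hFrob : FrobeniusQuadratic N p (JZero N)` for the
  module structure `heckeModuleBar N` (Stage 2: consequences of `SpecializationExists`),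
* `hKum` : for every `M` an additive map `lam : parabolicHoms ℤ (Γ₀ N) ℤ → JZero N` killed by
  `p ^ M`, with kernel `p ^ M • Lat`, and `lam ∘ heckeTPar ℓ = heckeOperatorBar N ℓ ∘ lam`
  for `ℓ ∤ N` (Stage 3: Kummer–Poincaré + descent, stated for `n = p ^ M`),
* `hOpen` : every point of `JZero N` is fixed by an open subgroup (Stage 3, T3).
-/

set_option autoImplicit false

namespace Fermat.Agent.S31.H81

open IsLocalRing CongruenceSubgroup ModularCurve ModularCurve.Period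
open Fermat.Agent.S41.H85

local notation "Qb" => AlgebraicClosure ℚ
local notation "GQ" => (AlgebraicClosure ℚ ≃ₐ[ℚ] AlgebraicClosure ℚ)

variable {p : ℕ} {N : ℕ} [NeZero N] {S : Finset ℕ}
  {𝒪 : Type} [CommRing 𝒪] [IsDomain 𝒪] [IsDiscreteValuationRing 𝒪]
  [IsAdicComplete (IsLocalRing.maximalIdeal 𝒪) 𝒪]
  {θ : CuspForm.heckeAlgebra N 2 (↑S : Set ℕ) →+* IsLocalRing.ResidueField 𝒪}
  {T : Type} [CommRing T] [IsLocalRing T] [IsNoetherianRing T]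
  [IsAdicComplete (IsLocalRing.maximalIdeal T) T] [Algebra 𝒪 T] [IsLocalHom (algebraMap 𝒪 T)]
  [Module.Finite 𝒪 T] [Module.Free 𝒪 T]

/-- **S31 from the Eichler–Shimura data of `JZero N`.** -/
theorem isUnramifiedAt_of_jzero (hp : p.Prime)
    (hp𝒪 : (p : 𝒪) ∈ IsLocalRing.maximalIdeal 𝒪) (hpS : p ∈ S)
    (hNS : ∀ q : ℕ, q.Prime → q ∣ N → q ∈ S)
    (H : CuspForm.HeckeGaloisRepDatum N (↑S : Set ℕ) 𝒪 θ T)
    (hcomm : HeckeOperatorsCommuteBar N)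
    (hES : letI := heckeModuleBar N
      ∀ [SMulCommClass GQ HeckeAlg (JZero N)],
        UnramifiedOutside (K := ℚ) (L := Qb) N p (JZero N) ∧
        FrobeniusQuadratic (K := ℚ) (L := Qb) N p (JZero N))
    (hsmul : letI := heckeModuleBar N; SMulCommClass GQ HeckeAlg (JZero N))
    (hKum : ∀ M : ℕ, ∃ lam : parabolicHoms ℤ (Gamma0 N) ℤ →+ JZero N,
      (∀ x, p ^ M • lam x = 0) ∧
      (∀ x, lam x = 0 → ∃ y, x = ((p : ℤ) ^ M) • y) ∧
      ∀ (ℓ : ℕ) (hℓ : ℓ.Prime) (hℓN : ¬ ℓ ∣ N) (x : parabolicHoms ℤ (Gamma0 N) ℤ),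
        lam (heckeTPar ℤ ℤ hℓ hℓN x) = heckeOperatorBar N ⟨ℓ, hℓ⟩ (lam x))
    (hOpen : OpenStab (JZero N))
    (q : ℕ) (hq : q.Prime) (hqS : q ∉ S) : H.ρ.IsUnramifiedAt q := by
  classical
  let _ := heckeModuleBar N
  have := hsmul
  obtain ⟨hUnr, hFrob⟩ := hES
  let TJ : ℕ → JZero N →+ JZero N := fun ℓ =>
    if h : ℓ.Prime then (heckeOperatorBar N ⟨ℓ, h⟩).toAddMonoidHom else 0
  have hTJ : ∀ (ℓ : ℕ) (hℓ : ℓ.Prime) (x : JZero N),
      TJ ℓ x = heckeOperatorBar N ⟨ℓ, hℓ⟩ x := by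
    intro ℓ hℓ x
    show (if h : ℓ.Prime then (heckeOperatorBar N ⟨ℓ, h⟩).toAddMonoidHom else 0) x = _
    rw [dif_pos hℓ]; rfl
  refine isUnramifiedAt_of_inputs hp hp𝒪 hpS hNS H TJ ?_ ?_ ?_ hOpen q hq hqS
  · intro ℓ hℓ hℓNp A hA σ hσ x hx
    exact hUnr ℓ hℓ hℓNp A hA σ hσ x hx
  · intro ℓ hℓ hℓNp A hA σ hσ x hx
    have h := hFrob ℓ hℓ hℓNp A hA σ hσ x hx
    have e : (heckeGen ⟨ℓ, hℓ⟩ : HeckeAlg) • (σ • x) = heckeOperatorBar N ⟨ℓ, hℓ⟩ (σ • x) :=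
      heckeModuleBar_heckeGen_smul hcomm ⟨ℓ, hℓ⟩ (σ • x)
    rw [e] at h
    rw [hTJ ℓ hℓ]
    exact h
  · intro M
    obtain ⟨lam, h1, h2, h3⟩ := hKum M
    refine ⟨lam, h1, h2, fun ℓ hℓ hℓN x => ?_⟩
    rw [hTJ ℓ hℓ]
    exact h3 ℓ hℓ hℓN x

end Fermat.Agent.S31.H81
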