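import Mathlib
import Fermat.Agent.S31.H81_S31JZero
import Fermat.Agent.S29.H80_Interface
import Fermat.Agent.S29.H66_ESData
import Fermat.Agent.S29.H46_OpenStab
import Fermat.Agent.S29.H28_GalHecke
import Fermat.Agent.S29.H87_HeckeCommFinal

/-!
# S31 from the final exports of Stages 2 and 3

`isUnramifiedAt_of_stages` : the frozen S31 conclusion from exactly

* `hS37` : the frozen S37 conclusion at `(N, p)` (verbatim shape of `Fermat.Agent.S37.result N p`),
* `hK M : H80.KummerPoincare N (p ^ M)` and `hB M : H80.BaseChangeDescent N (p ^ M)`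
  (helper80's Stage-3 packages at `n = p ^ M`).

Everything else is discharged from main: (T1) `H87.heckeOperatorsCommuteBar`,
(T2) `H28.smulCommClass_heckeModuleBar`, (T3) `H46.exists_finite_fixing`,
`H66.unramifiedOutside_of_specializationExists`, `H66.frobeniusQuadratic_of_specializationExists`.
-/

set_option autoImplicit false

namespace Fermat.Agent.S31.H81

open IsLocalRing CongruenceSubgroup ModularCurve ModularCurve.Period
open Fermat.Agent.S41.H85 Fermat.Agent.S29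

local notation "Qb" => AlgebraicClosure ℚ
local notation "GQ" => (AlgebraicClosure ℚ ≃ₐ[ℚ] AlgebraicClosure ℚ)

/-- The combined map `bc⁻¹ ∘ lam : Lat N → JZero N` at level `n`, with Hecke equivariance only
for the primes not dividing `N` (where `H80.cohT` is `heckeTPar`). -/
theorem exists_lam_of_packages (N n : ℕ) [NeZero N] (hK : H80.KummerPoincare N n)
    (hB : H80.BaseChangeDescent N n) :
    ∃ lam : parabolicHoms ℤ (Gamma0 N) ℤ →+ JZero N,
      (∀ x, (n : ℤ) • lam x = 0) ∧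
      (∀ x, lam x = 0 → ∃ y, x = (n : ℤ) • y) ∧
      ∀ (ℓ : ℕ) (hℓ : ℓ.Prime) (hℓN : ¬ ℓ ∣ N) (x : parabolicHoms ℤ (Gamma0 N) ℤ),
        lam (heckeTPar ℤ ℤ hℓ hℓN x) = heckeOperatorBar N ⟨ℓ, hℓ⟩ (lam x) := by
  obtain ⟨lamC, h1, h2, h3⟩ := hK
  obtain ⟨bc, b1, b2, b3⟩ := hB
  choose g hg using fun x => b3 (lamC x) (h1 x)
  let lam : H80.Lat N →+ JZero N :=
    { toFun := g
      map_zero' := b1 (by rw [hg, map_zero, map_zero])
      map_add' := fun x y => b1 (by rw [hg, map_add, map_add, hg, hg]) }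
  have hlam : ∀ x, bc (lam x) = lamC x := hg
  refine ⟨lam, fun x => ?_, fun x hx => ?_, fun ℓ hℓ hℓN x => ?_⟩
  · apply b1
    rw [map_zsmul, hlam, h1, map_zero]
  · apply h2
    rw [← hlam, hx, map_zero]
  · apply b1
    have e : heckeTPar ℤ ℤ hℓ hℓN x = H80.cohT N ⟨ℓ, hℓ⟩ x := by
      unfold H80.cohT
      rw [dif_neg (show ¬ ((⟨ℓ, hℓ⟩ : Nat.Primes) : ℕ) ∣ N from hℓN)]
    calc bc (lam (heckeTPar ℤ ℤ hℓ hℓN x)) = lamC (H80.cohT N ⟨ℓ, hℓ⟩ x) := by rw [hlam, e]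
      _ = H80.TL ℂ N ⟨ℓ, hℓ⟩ (lamC x) := h3 _ _
      _ = H80.TL ℂ N ⟨ℓ, hℓ⟩ (bc (lam x)) := by rw [hlam]
      _ = bc (H80.TL Qb N ⟨ℓ, hℓ⟩ (lam x)) := (b2 _ _).symm
      _ = bc (heckeOperatorBar N ⟨ℓ, hℓ⟩ (lam x)) := rfl

variable {p : ℕ} {N : ℕ} [NeZero N] {S : Finset ℕ}
  {𝒪 : Type} [CommRing 𝒪] [IsDomain 𝒪] [IsDiscreteValuationRing 𝒪]
  [IsAdicComplete (IsLocalRing.maximalIdeal 𝒪) 𝒪]
  {θ : CuspForm.heckeAlgebra N 2 (↑S : Set ℕ) →+* IsLocalRing.ResidueField 𝒪}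
  {T : Type} [CommRing T] [IsLocalRing T] [IsNoetherianRing T]
  [IsAdicComplete (IsLocalRing.maximalIdeal T) T] [Algebra 𝒪 T] [IsLocalHom (algebraMap 𝒪 T)]
  [Module.Finite 𝒪 T] [Module.Free 𝒪 T]

/-- **S31 from the final exports of Stages 2 and 3.** -/
theorem isUnramifiedAt_of_stages (hp : p.Prime)
    (hp𝒪 : (p : 𝒪) ∈ IsLocalRing.maximalIdeal 𝒪) (hpS : p ∈ S)
    (hNS : ∀ q : ℕ, q.Prime → q ∣ N → q ∈ S)
    (H : CuspForm.HeckeGaloisRepDatum N (↑S : Set ℕ) 𝒪 θ T)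
    (hS37 : ModularCurve.HeckeOperatorsCommuteBar N →
      letI := ModularCurve.heckeModuleBar N
      ∀ (_ : SMulCommClass GQ ModularCurve.HeckeAlg (ModularCurve.JZero N)),
        ModularCurve.SpecializationExists (K := ℚ) (L := Qb) N p (ModularCurve.JZero N))
    (hK : ∀ M : ℕ, H80.KummerPoincare N (p ^ M))
    (hB : ∀ M : ℕ, H80.BaseChangeDescent N (p ^ M))
    (q : ℕ) (hq : q.Prime) (hqS : q ∉ S) : H.ρ.IsUnramifiedAt q := by
  have hcomm : HeckeOperatorsCommuteBar N := H87.heckeOperatorsCommuteBar N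
  refine isUnramifiedAt_of_jzero hp hp𝒪 hpS hNS H hcomm ?_
    (H28.smulCommClass_heckeModuleBar N) ?_ (fun x => H46.exists_finite_fixing N x) q hq hqS
  · intro inst
    let _ := heckeModuleBar N
    have h := hS37 hcomm inst
    exact ⟨H66.unramifiedOutside_of_specializationExists h,
      H66.frobeniusQuadratic_of_specializationExists h⟩
  · intro M
    obtain ⟨lam, h1, h2, h3⟩ := exists_lam_of_packages N (p ^ M) (hK M) (hB M)
    refine ⟨lam, fun x => ?_, fun x hx => ?_, h3⟩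
    · have := h1 x
      rwa [Nat.cast_pow, ← natCast_zsmul] at *
    · obtain ⟨y, hy⟩ := h2 x hx
      exact ⟨y, by rw [hy, Nat.cast_pow]⟩

end Fermat.Agent.S31.H81
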