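import Mathlib
import Fermat.Agent.S31.H81_S31FromStages
import Fermat.Agent.S29.H85_KummerPoincare
import Fermat.Agent.S29.H80_T0

/-!
# S31 from S37 alone

Stage 3 is closed on main (`H85.kummerPoincare`, `H80.baseChangeDescent`), so the frozen S31
follows from the frozen S37 conclusion at `(N, p)` and nothing else.
-/

set_option autoImplicit false

namespace Fermat.Agent.S31.H81

open IsLocalRing CongruenceSubgroup ModularCurve
open Fermat.Agent.S29

local notation "Qb" => AlgebraicClosure ℚ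
local notation "GQ" => (AlgebraicClosure ℚ ≃ₐ[ℚ] AlgebraicClosure ℚ)

variable {p : ℕ} {N : ℕ} [NeZero N] {S : Finset ℕ}
  {𝒪 : Type} [CommRing 𝒪] [IsDomain 𝒪] [IsDiscreteValuationRing 𝒪]
  [IsAdicComplete (IsLocalRing.maximalIdeal 𝒪) 𝒪]
  {θ : CuspForm.heckeAlgebra N 2 (↑S : Set ℕ) →+* IsLocalRing.ResidueField 𝒪}
  {T : Type} [CommRing T] [IsLocalRing T] [IsNoetherianRing T]
  [IsAdicComplete (IsLocalRing.maximalIdeal T) T] [Algebra 𝒪 T] [IsLocalHom (algebraMap 𝒪 T)]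
  [Module.Finite 𝒪 T] [Module.Free 𝒪 T]

/-- **S31 from the frozen S37 conclusion at `(N, p)`.** -/
theorem isUnramifiedAt_of_s37 (hp : p.Prime)
    (hp𝒪 : (p : 𝒪) ∈ IsLocalRing.maximalIdeal 𝒪) (hpS : p ∈ S)
    (hNS : ∀ q : ℕ, q.Prime → q ∣ N → q ∈ S)
    (H : CuspForm.HeckeGaloisRepDatum N (↑S : Set ℕ) 𝒪 θ T)
    (hS37 : ModularCurve.HeckeOperatorsCommuteBar N →
      letI := ModularCurve.heckeModuleBar N
      ∀ (_ : SMulCommClass GQ ModularCurve.HeckeAlg (ModularCurve.JZero N)),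
        ModularCurve.SpecializationExists (K := ℚ) (L := Qb) N p (ModularCurve.JZero N))
    (q : ℕ) (hq : q.Prime) (hqS : q ∉ S) : H.ρ.IsUnramifiedAt q :=
  isUnramifiedAt_of_stages hp hp𝒪 hpS hNS H hS37
    (fun M => H85.kummerPoincare N (pow_pos hp.pos M))
    (fun M => H80.baseChangeDescent N (pow_pos hp.pos M)) q hq hqS

end Fermat.Agent.S31.H81
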